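/-
S05 (Frey curve: mod-p representation unramified at odd q ≠ p), shared definitions (helper9).
Elementary route (plan: docs rows `S05_plan`, `S05_interfaces`): everything is done on curves of
the shape `y² = x³ + a₂ x² + a₄ x` over a field `F` with a valuation `v` (multiplicative notation:
`v x ≤ 1` means integral, `v x < 1` means in the maximal ideal).
-/
import Mathlib

set_option autoImplicit false

namespace Fermat.Agent.S05Lib

open WeierstrassCurve

variable {F : Type*} [Field F] {Γ₀ : Type*} [LinearOrderedCommGroupWithZero Γ₀]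

/-- The curve has the shape `y² = x³ + a₂ x² + a₄ x`. -/
structure IsShort (W : WeierstrassCurve.Affine F) : Prop where
  a₁ : W.a₁ = 0
  a₃ : W.a₃ = 0
  a₆ : W.a₆ = 0

/-- Integral model: short shape with `a₂`, `a₄` integral. -/
structure IsIntegralShort (v : Valuation F Γ₀) (W : WeierstrassCurve.Affine F) : Prop where
  short : IsShort W
  a₂ : v W.a₂ ≤ 1
  a₄ : v W.a₄ ≤ 1

/-- Multiplicative reduction with node at `(0, 0)`, residue characteristic not two:
`a₂` is a unit and `a₄` is a nonzero element of the maximal ideal. -/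
structure IsMult (v : Valuation F Γ₀) (W : WeierstrassCurve.Affine F) : Prop where
  short : IsShort W
  two : v 2 = 1
  a₂ : v W.a₂ = 1
  a₄ : v W.a₄ < 1
  a₄_ne : W.a₄ ≠ 0

/-- `P` lies in the kernel of reduction: `P = 0` or the `x`-coordinate is not integral. -/
def IsE1 (v : Valuation F Γ₀) {W : WeierstrassCurve.Affine F} : W.Point → Prop
  | .zero => True
  | .some x _ _ => 1 < v x

/-- `P` does not reduce to the point `(0, 0)`: `P = 0` or the `x`-coordinate is not in the
maximal ideal. -/
def IsE0 (v : Valuation F Γ₀) {W : WeierstrassCurve.Affine F} : W.Point → Prop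
  | .zero => True
  | .some x _ _ => 1 ≤ v x

theorem IsMult.integralShort {v : Valuation F Γ₀} {W : WeierstrassCurve.Affine F}
    (h : IsMult v W) : IsIntegralShort v W :=
  ⟨h.short, h.a₂.le, h.a₄.le⟩

@[simp] theorem isE1_zero (v : Valuation F Γ₀) {W : WeierstrassCurve.Affine F} :
    IsE1 v (0 : W.Point) := trivial

@[simp] theorem isE0_zero (v : Valuation F Γ₀) {W : WeierstrassCurve.Affine F} :
    IsE0 v (0 : W.Point) := trivial

@[simp] theorem isE1_some (v : Valuation F Γ₀) {W : WeierstrassCurve.Affine F} {x y : F}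
    (h : W.Nonsingular x y) : IsE1 v (Affine.Point.some x y h) ↔ 1 < v x := Iff.rfl

@[simp] theorem isE0_some (v : Valuation F Γ₀) {W : WeierstrassCurve.Affine F} {x y : F}
    (h : W.Nonsingular x y) : IsE0 v (Affine.Point.some x y h) ↔ 1 ≤ v x := Iff.rfl

theorem IsE1.isE0 {v : Valuation F Γ₀} {W : WeierstrassCurve.Affine F} {P : W.Point}
    (h : IsE1 v P) : IsE0 v P := by
  cases P with
  | zero => trivial
  | some x y hxy => exact le_of_lt h

/-- `(0, 0)` is a (nonsingular) point of a short curve with `a₄ ≠ 0`. -/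
theorem nonsingular_zero_zero {W : WeierstrassCurve.Affine F} (hW : IsShort W)
    (h4 : W.a₄ ≠ 0) : W.Nonsingular 0 0 := by
  rw [Affine.nonsingular_zero]
  exact ⟨hW.a₆, Or.inr h4⟩

end Fermat.Agent.S05Lib
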