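/-
S05 support library, chunk A (helper2): the kernel of reduction `E1` of the curve
`y² = x³ + a₂x² + a₄x` over a valued field `(K, v)` with `v a₂ ≤ 1`, `v a₄ ≤ 1`.

* `InE1`: `P = 0` or `1 < v x(P)` (the point does not have integral coordinates).
* `inE1_add`, `inE1_neg`: `E1` is a subgroup.
* `inE1_torsion_free` (F2): `E1` has no `m`-torsion for `v m = 1`.
  Proof: with `z = x / y`, `z(P + Q) = z(P) + z(Q) + ε`, `v ε ≤ r ^ 3` on `{v z ≤ r}` (`r < 1`).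
* `inE1_sub_of_close` (F3): two distinct integral points with the same nonsingular reduction
  differ by a nonzero element of `E1`.
* `nonsing_of_disc`: the nonsingularity hypothesis of F3 in the good / multiplicative cases.
-/
import Mathlib

set_option autoImplicit false

open WeierstrassCurve

namespace Fermat.Agent.S05Lib.Ker

section alg

variable {K : Type*} [Field K]

/-- Symmetric functions of the three intersection points of a chord. -/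
lemma chord_sym {a2 a4 x1 y1 x2 y2 ℓ : K} (hx : x1 ≠ x2)
    (h1 : y1 ^ 2 = x1 ^ 3 + a2 * x1 ^ 2 + a4 * x1) (h2 : y2 ^ 2 = x2 ^ 3 + a2 * x2 ^ 2 + a4 * x2)
    (hℓ : ℓ * (x1 - x2) = y1 - y2) :
    y2 = ℓ * x2 + (y1 - ℓ * x1) ∧
    x1 * x2 + x1 * (ℓ ^ 2 - a2 - x1 - x2) + x2 * (ℓ ^ 2 - a2 - x1 - x2)
      = a4 - 2 * ℓ * (y1 - ℓ * x1) ∧
    x1 * x2 * (ℓ ^ 2 - a2 - x1 - x2) = (y1 - ℓ * x1) ^ 2 := by
  have hy2 : y2 = ℓ * x2 + (y1 - ℓ * x1) := by linear_combination hℓ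
  have he2 : x1 * x2 + x1 * (ℓ ^ 2 - a2 - x1 - x2) + x2 * (ℓ ^ 2 - a2 - x1 - x2)
      = a4 - 2 * ℓ * (y1 - ℓ * x1) := by
    have hsub : x1 - x2 ≠ 0 := sub_ne_zero.mpr hx
    apply mul_left_cancel₀ hsub
    linear_combination h1 - h2 + (y1 + y2 - ℓ * (x1 - x2)) * hℓ
  refine ⟨hy2, he2, ?_⟩
  linear_combination (-1 : K) * h1 + x1 * he2

/-- Symmetric functions of the intersection points of a tangent. -/
lemma tangent_sym {a2 a4 x1 y1 ℓ : K}
    (h1 : y1 ^ 2 = x1 ^ 3 + a2 * x1 ^ 2 + a4 * x1)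
    (hℓ : ℓ * (2 * y1) = 3 * x1 ^ 2 + 2 * a2 * x1 + a4) :
    x1 * x1 + x1 * (ℓ ^ 2 - a2 - x1 - x1) + x1 * (ℓ ^ 2 - a2 - x1 - x1)
      = a4 - 2 * ℓ * (y1 - ℓ * x1) ∧
    x1 * x1 * (ℓ ^ 2 - a2 - x1 - x1) = (y1 - ℓ * x1) ^ 2 := by
  constructor
  · linear_combination hℓ
  · linear_combination (-1 : K) * h1 + x1 * hℓ

/-- Vieta in the coordinate `z = x / y` (numerator and denominator of `z₁ + z₂ + z₃`). -/
lemma vieta_z {a2 a4 x1 y1 x2 y2 x3 y3 ℓ c : K}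
    (h1 : y1 = ℓ * x1 + c) (h2 : y2 = ℓ * x2 + c) (h3 : y3 = ℓ * x3 + c)
    (he1 : x1 + x2 + x3 = ℓ ^ 2 - a2)
    (he2 : x1 * x2 + x1 * x3 + x2 * x3 = a4 - 2 * ℓ * c)
    (he3 : x1 * x2 * x3 = c ^ 2) :
    y1 * y2 * y3 = c * (c ^ 2 - a2 * c * ℓ + a4 * ℓ ^ 2) ∧
    x1 * y2 * y3 + x2 * y1 * y3 + x3 * y1 * y2 = c * (2 * a4 * ℓ - a2 * c) := by
  subst h1 h2 h3
  constructor
  · linear_combination ℓ ^ 3 * he3 + ℓ ^ 2 * c * he2 + ℓ * c ^ 2 * he1
  · linear_combination 3 * ℓ ^ 2 * he3 + 2 * ℓ * c * he2 + c ^ 2 * he1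

/-- The curve equation in the chart `z = x / y`, `w = 1 / y`. -/
lemma zw_eq {a2 a4 x y : K} (hy : y ≠ 0) (h : y ^ 2 = x ^ 3 + a2 * x ^ 2 + a4 * x) :
    1 / y = (x / y) ^ 3 + a2 * (x / y) ^ 2 * (1 / y) + a4 * (x / y) * (1 / y) ^ 2 := by
  field_simp
  linear_combination h

/-- The line `y = ℓ x + c` in the chart `(z, w)`. -/
lemma zw_line {x y ℓ c : K} (hy : y ≠ 0) (h : y = ℓ * x + c) :
    1 = ℓ * (x / y) + c * (1 / y) := by
  field_simp
  linear_combination h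

/-- Slope relation in the chart `(z, w)`. -/
lemma zw_slope {a2 a4 z1 w1 z2 w2 : K}
    (h1 : w1 = z1 ^ 3 + a2 * z1 ^ 2 * w1 + a4 * z1 * w1 ^ 2)
    (h2 : w2 = z2 ^ 3 + a2 * z2 ^ 2 * w2 + a4 * z2 * w2 ^ 2) :
    (w1 - w2) * (1 - a2 * z2 ^ 2 - a4 * z2 * (w1 + w2))
      = (z1 - z2) * (z1 ^ 2 + z1 * z2 + z2 ^ 2 + a2 * (z1 + z2) * w1 + a4 * w1 ^ 2) := by
  linear_combination h1 - h2

/-- Chord case: the slope of the line in the chart `(z, w)`. -/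
lemma star_chord {a2 a4 x1 y1 x2 y2 ℓ : K} (hy1 : y1 ≠ 0) (hy2 : y2 ≠ 0) (hne : x1 ≠ x2)
    (h1 : y1 ^ 2 = x1 ^ 3 + a2 * x1 ^ 2 + a4 * x1) (h2 : y2 ^ 2 = x2 ^ 3 + a2 * x2 ^ 2 + a4 * x2)
    (hℓ : ℓ * (x1 - x2) = y1 - y2)
    (hden : 1 - a2 * (x2 / y2) ^ 2 - a4 * (x2 / y2) * (1 / y1 + 1 / y2) ≠ 0) :
    ℓ * (1 - a2 * (x2 / y2) ^ 2 - a4 * (x2 / y2) * (1 / y1 + 1 / y2)) =
      -((y1 - ℓ * x1) * ((x1 / y1) ^ 2 + x1 / y1 * (x2 / y2) + (x2 / y2) ^ 2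
        + a2 * (x1 / y1 + x2 / y2) * (1 / y1) + a4 * (1 / y1) ^ 2)) := by
  have e1 := zw_eq hy1 h1
  have e2 := zw_eq hy2 h2
  have hslope := zw_slope e1 e2
  have L1 := zw_line hy1 (show y1 = ℓ * x1 + (y1 - ℓ * x1) by ring)
  have L2 := zw_line hy2 (show y2 = ℓ * x2 + (y1 - ℓ * x1) by linear_combination hℓ)
  have hzne : x1 / y1 - x2 / y2 ≠ 0 := by
    intro h0
    have hw : (1 / y1 - 1 / y2) *
        (1 - a2 * (x2 / y2) ^ 2 - a4 * (x2 / y2) * (1 / y1 + 1 / y2)) = 0 := by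
      rw [hslope, h0, zero_mul]
    have hw' : 1 / y1 - 1 / y2 = 0 := (mul_eq_zero.mp hw).resolve_right hden
    have hyy : y1 = y2 := by
      have h' : 1 / y1 = 1 / y2 := sub_eq_zero.mp hw'
      rw [one_div, one_div] at h'
      exact inv_injective h'
    apply hne
    have h' : x1 / y1 = x2 / y2 := sub_eq_zero.mp h0
    rw [hyy] at h'
    exact (div_left_inj' hy2).mp h'
  apply mul_left_cancel₀ hzne
  linear_combination (-(1 - a2 * (x2 / y2) ^ 2 - a4 * (x2 / y2) * (1 / y1 + 1 / y2))) * (L1 - L2)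
    - (y1 - ℓ * x1) * hslope

/-- Tangent case: the slope of the line in the chart `(z, w)`. -/
lemma star_tangent {a2 a4 x1 y1 ℓ : K} (hy1 : y1 ≠ 0)
    (h1 : y1 ^ 2 = x1 ^ 3 + a2 * x1 ^ 2 + a4 * x1)
    (hℓ : ℓ * (2 * y1) = 3 * x1 ^ 2 + 2 * a2 * x1 + a4) :
    ℓ * (1 - a2 * (x1 / y1) ^ 2 - a4 * (x1 / y1) * (1 / y1 + 1 / y1)) =
      -((y1 - ℓ * x1) * ((x1 / y1) ^ 2 + x1 / y1 * (x1 / y1) + (x1 / y1) ^ 2
        + a2 * (x1 / y1 + x1 / y1) * (1 / y1) + a4 * (1 / y1) ^ 2)) := by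
  field_simp
  linear_combination 3 * ℓ * h1 - y1 * hℓ

end alg

section val

variable {K : Type*} [Field K] {Γ₀ : Type*} [LinearOrderedCommGroupWithZero Γ₀]
  (v : Valuation K Γ₀)

lemma val_two_le : v (2 : K) ≤ 1 := by
  have h := v.map_add 1 1
  rw [one_add_one_eq_two, map_one, max_self] at h
  exact h

lemma val_y_sq {a2 a4 x y : K} (ha2 : v a2 ≤ 1) (ha4 : v a4 ≤ 1) (hx : 1 < v x)
    (h : y ^ 2 = x ^ 3 + a2 * x ^ 2 + a4 * x) : v y ^ 2 = v x ^ 3 := by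
  have h1 : v (a2 * x ^ 2 + a4 * x) < v (x ^ 3) := by
    rw [map_pow]
    apply Valuation.map_add_lt
    · rw [map_mul, map_pow]
      calc v a2 * v x ^ 2 ≤ 1 * v x ^ 2 := mul_le_mul_left ha2 _
        _ = v x ^ 2 := one_mul _
        _ < v x ^ 3 := pow_lt_pow_right₀ hx (by norm_num)
    · rw [map_mul]
      calc v a4 * v x ≤ 1 * v x := mul_le_mul_left ha4 _
        _ = v x ^ 1 := by rw [one_mul, pow_one]
        _ < v x ^ 3 := pow_lt_pow_right₀ hx (by norm_num)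
  have h2 : v (y ^ 2) = v (x ^ 3) := by
    rw [h, show x ^ 3 + a2 * x ^ 2 + a4 * x = x ^ 3 + (a2 * x ^ 2 + a4 * x) by ring]
    exact Valuation.map_add_eq_of_lt_left v h1
  simpa [map_pow] using h2

/-- Data of a point of `E1` in the chart `(z, w)`. -/
lemma val_zw {a2 a4 x y : K} (ha2 : v a2 ≤ 1) (ha4 : v a4 ≤ 1) (hx : 1 < v x)
    (h : y ^ 2 = x ^ 3 + a2 * x ^ 2 + a4 * x) :
    y ≠ 0 ∧ v (x / y) < 1 ∧ v (x / y) ≠ 0 ∧ v (1 / y) = v (x / y) ^ 3 := by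
  have hy2 := val_y_sq v ha2 ha4 hx h
  have hx0 : v x ≠ 0 := (lt_trans zero_lt_one hx).ne'
  have hy0 : v y ≠ 0 := by
    intro h0
    rw [h0] at hy2
    exact pow_ne_zero 3 hx0 (by simpa using hy2.symm)
  have hyK : y ≠ 0 := (Valuation.ne_zero_iff v).mp hy0
  have hz2 : v (x / y) ^ 2 * v x = 1 := by
    rw [Valuation.map_div, div_pow, hy2]
    field_simp
  have hz1 : v (x / y) < 1 := by
    by_contra hc
    have h' : 1 < v (x / y) ^ 2 * v x := by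
      calc 1 < v x := hx
        _ = 1 * v x := (one_mul _).symm
        _ ≤ v (x / y) ^ 2 * v x := mul_le_mul_left (one_le_pow₀ (not_lt.mp hc)) _
    exact absurd hz2 (ne_of_gt h')
  refine ⟨hyK, hz1, ?_, ?_⟩
  · rw [Valuation.map_div]; exact div_ne_zero hx0 hy0
  · rw [Valuation.map_div, Valuation.map_div, map_one, div_pow, ← hy2]
    field_simp

lemma val_den {a2 a4 z2 w1 w2 : K} (ha2 : v a2 ≤ 1) (ha4 : v a4 ≤ 1) (hz2 : v z2 < 1)
    (hw1 : v w1 ≤ 1) (hw2 : v w2 ≤ 1) :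
    v (1 - a2 * z2 ^ 2 - a4 * z2 * (w1 + w2)) = 1 := by
  rw [show 1 - a2 * z2 ^ 2 - a4 * z2 * (w1 + w2) = 1 - (a2 * z2 ^ 2 + a4 * z2 * (w1 + w2)) by ring]
  apply Valuation.map_one_sub_of_lt
  have hz2' : v z2 ^ 2 < 1 := pow_lt_one₀ zero_le hz2 (by norm_num)
  apply Valuation.map_add_lt
  · rw [map_mul, map_pow]
    calc v a2 * v z2 ^ 2 ≤ 1 * v z2 ^ 2 := mul_le_mul_left ha2 _
      _ = v z2 ^ 2 := one_mul _
      _ < 1 := hz2'
  · rw [map_mul, map_mul]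
    have hw : v (w1 + w2) ≤ 1 := Valuation.map_add_le v hw1 hw2
    calc v a4 * v z2 * v (w1 + w2) ≤ 1 * v z2 * 1 := mul_le_mul' (mul_le_mul_left ha4 _) hw
      _ = v z2 := by rw [one_mul, mul_one]
      _ < 1 := hz2

lemma val_num {a2 a4 z1 z2 w1 : K} {r : Γ₀} (ha2 : v a2 ≤ 1) (ha4 : v a4 ≤ 1)
    (hz1 : v z1 ≤ r) (hz2 : v z2 ≤ r) (hw1 : v w1 ≤ r) :
    v (z1 ^ 2 + z1 * z2 + z2 ^ 2 + a2 * (z1 + z2) * w1 + a4 * w1 ^ 2) ≤ r ^ 2 := by
  have e1 : v (z1 ^ 2) ≤ r ^ 2 := by rw [map_pow]; exact pow_le_pow_left₀ zero_le hz1 2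
  have e2 : v (z1 * z2) ≤ r ^ 2 := by
    rw [map_mul, pow_two]; exact mul_le_mul' hz1 hz2
  have e3 : v (z2 ^ 2) ≤ r ^ 2 := by rw [map_pow]; exact pow_le_pow_left₀ zero_le hz2 2
  have e4 : v (a2 * (z1 + z2) * w1) ≤ r ^ 2 := by
    rw [map_mul, map_mul, pow_two]
    calc v a2 * v (z1 + z2) * v w1 ≤ 1 * r * r :=
          mul_le_mul' (mul_le_mul' ha2 (Valuation.map_add_le v hz1 hz2)) hw1
      _ = r * r := by rw [one_mul]
  have e5 : v (a4 * w1 ^ 2) ≤ r ^ 2 := by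
    rw [map_mul, map_pow]
    calc v a4 * v w1 ^ 2 ≤ 1 * r ^ 2 := mul_le_mul' ha4 (pow_le_pow_left₀ zero_le hw1 2)
      _ = r ^ 2 := one_mul _
  exact Valuation.map_add_le v (Valuation.map_add_le v (Valuation.map_add_le v
    (Valuation.map_add_le v e1 e2) e3) e4) e5

/-- The valuation-theoretic heart of the chord/tangent estimate. -/
lemma est_final {a2 a4 x1 y1 x2 y2 x3 y3 ℓ c den num z1 w1 : K} {r : Γ₀}
    (ha2 : v a2 ≤ 1) (ha4 : v a4 ≤ 1) (hr : r < 1) (hy1 : y1 ≠ 0) (hy2 : y2 ≠ 0)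
    (hstar : ℓ * den = -(c * num)) (hvden : v den = 1) (hvnum : v num ≤ r ^ 2)
    (L1 : 1 = ℓ * z1 + c * w1) (hz1 : v z1 ≤ r) (hw1 : v w1 ≤ r ^ 3)
    (Iden : y1 * y2 * y3 = c * (c ^ 2 - a2 * c * ℓ + a4 * ℓ ^ 2))
    (Inum : x1 * y2 * y3 + x2 * y1 * y3 + x3 * y1 * y2 = c * (2 * a4 * ℓ - a2 * c))
    (hy3 : y3 = ℓ * x3 + c) (h3 : y3 ^ 2 = x3 ^ 3 + a2 * x3 ^ 2 + a4 * x3) :
    1 < v x3 ∧ v (x3 / y3 + x1 / y1 + x2 / y2) ≤ r ^ 3 := by
  have hden0 : den ≠ 0 := fun h0 => by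
    rw [h0, map_zero] at hvden; exact zero_ne_one hvden
  obtain ⟨lam, hlam⟩ : ∃ lam, lam * den = num := ⟨num / den, div_mul_cancel₀ _ hden0⟩
  have hvlam : v lam ≤ r ^ 2 := by
    have h' : v lam * v den = v num := by rw [← map_mul, hlam]
    rw [hvden, mul_one] at h'
    rw [h']; exact hvnum
  have hℓ : ℓ = -(c * lam) := by
    apply mul_right_cancel₀ hden0
    rw [hstar, ← hlam]; ring
  have hr2lt : r ^ 2 < 1 := pow_lt_one₀ zero_le hr (by norm_num)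
  have hr3lt : r ^ 3 < 1 := pow_lt_one₀ zero_le hr (by norm_num)
  obtain ⟨nu, hnu⟩ : ∃ nu, nu = w1 - lam * z1 := ⟨_, rfl⟩
  have hcnu : c * nu = 1 := by
    rw [hnu]; rw [hℓ] at L1; linear_combination (-1 : K) * L1
  have hvnu : v nu ≤ r ^ 3 := by
    rw [hnu]
    apply Valuation.map_sub_le v hw1
    rw [map_mul, pow_succ]
    exact mul_le_mul' hvlam hz1
  have hFa : 1 = nu * y3 + lam * x3 := by
    rw [hy3, hℓ]; linear_combination (-1 : K) * hcnu + lam * x3 * hcnu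
  have hx3 : 1 < v x3 := by
    by_contra hcon
    have hx3le : v x3 ≤ 1 := not_lt.mp hcon
    have hy3le : v y3 ≤ 1 := by
      have h' : v (y3 ^ 2) ≤ 1 := by
        rw [h3]
        refine Valuation.map_add_le v (Valuation.map_add_le v ?_ ?_) ?_
        · rw [map_pow]; exact pow_le_one₀ zero_le hx3le
        · rw [map_mul, map_pow]; exact mul_le_one' ha2 (pow_le_one₀ zero_le hx3le)
        · rw [map_mul]; exact mul_le_one' ha4 hx3le
      by_contra hc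
      rw [map_pow] at h'
      exact absurd h' (not_le.mpr (one_lt_pow₀ (not_le.mp hc) (by norm_num)))
    have h' : v (nu * y3 + lam * x3) < 1 := by
      apply Valuation.map_add_lt
      · rw [map_mul]
        calc v nu * v y3 ≤ r ^ 3 * 1 := mul_le_mul' hvnu hy3le
          _ = r ^ 3 := mul_one _
          _ < 1 := hr3lt
      · rw [map_mul]
        calc v lam * v x3 ≤ r ^ 2 * 1 := mul_le_mul' hvlam hx3le
          _ = r ^ 2 := mul_one _
          _ < 1 := hr2lt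
    rw [← hFa, map_one] at h'
    exact lt_irrefl _ h'
  obtain ⟨hy3ne, -, -, -⟩ := val_zw v ha2 ha4 hx3 h3
  refine ⟨hx3, ?_⟩
  obtain ⟨u, hu⟩ : ∃ u, u = 1 + (a2 * lam + a4 * lam ^ 2) := ⟨_, rfl⟩
  have hvu : v u = 1 := by
    rw [hu]
    apply Valuation.map_one_add_of_lt
    apply Valuation.map_add_lt
    · rw [map_mul]
      calc v a2 * v lam ≤ 1 * r ^ 2 := mul_le_mul' ha2 hvlam
        _ = r ^ 2 := one_mul _
        _ < 1 := hr2lt
    · rw [map_mul, map_pow]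
      calc v a4 * v lam ^ 2 ≤ 1 * (r ^ 2) ^ 2 := mul_le_mul' ha4 (pow_le_pow_left₀ zero_le hvlam 2)
        _ = (r ^ 2) ^ 2 := one_mul _
        _ < 1 := pow_lt_one₀ zero_le hr2lt (by norm_num)
  have hSN : (x3 / y3 + x1 / y1 + x2 / y2) * (y1 * y2 * y3)
      = x1 * y2 * y3 + x2 * y1 * y3 + x3 * y1 * y2 := by
    field_simp
    ring
  have Iden' : y1 * y2 * y3 = c ^ 3 * u := by rw [Iden, hℓ, hu]; ring
  have Inum' : x1 * y2 * y3 + x2 * y1 * y3 + x3 * y1 * y2 = -(c ^ 2 * (a2 + 2 * a4 * lam)) := by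
    rw [Inum, hℓ]; ring
  have h4 : (x3 / y3 + x1 / y1 + x2 / y2) * u * c ^ 3 = -(c ^ 2 * (a2 + 2 * a4 * lam)) := by
    rw [← Inum', ← hSN, Iden']; ring
  have hS : (x3 / y3 + x1 / y1 + x2 / y2) * u = -(a2 + 2 * a4 * lam) * nu := by
    calc (x3 / y3 + x1 / y1 + x2 / y2) * u
        = (x3 / y3 + x1 / y1 + x2 / y2) * u * c ^ 3 * nu ^ 3 := by
          rw [show (x3 / y3 + x1 / y1 + x2 / y2) * u * c ^ 3 * nu ^ 3
            = (x3 / y3 + x1 / y1 + x2 / y2) * u * (c * nu) ^ 3 by ring, hcnu]; ring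
      _ = -(c ^ 2 * (a2 + 2 * a4 * lam)) * nu ^ 3 := by rw [h4]
      _ = -(a2 + 2 * a4 * lam) * nu * (c * nu) ^ 2 := by ring
      _ = -(a2 + 2 * a4 * lam) * nu := by rw [hcnu]; ring
  have hvS : v (x3 / y3 + x1 / y1 + x2 / y2) = v ((x3 / y3 + x1 / y1 + x2 / y2) * u) := by
    rw [map_mul, hvu, mul_one]
  rw [hvS, hS, map_mul, Valuation.map_neg]
  have h2a : v (a2 + 2 * a4 * lam) ≤ 1 := by
    apply Valuation.map_add_le v ha2
    rw [map_mul, map_mul]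
    exact mul_le_one' (mul_le_one' (val_two_le v) ha4) (hvlam.trans hr2lt.le)
  calc v (a2 + 2 * a4 * lam) * v nu ≤ 1 * r ^ 3 := mul_le_mul' h2a hvnu
    _ = r ^ 3 := one_mul _

/-- Chord/tangent estimate in coordinates: if `(x₁, y₁)`, `(x₂, y₂)` are points of `E1` with
`v (xᵢ / yᵢ) ≤ r < 1` and `(x₃, y₃)` is the third intersection point of the line through them,
then `(x₃, y₃)` is in `E1` and `v (z₁ + z₂ + z₃) ≤ r ^ 3`. -/
lemma add_est {a2 a4 x1 y1 x2 y2 ℓ x3 y3 : K} {r : Γ₀} (ha2 : v a2 ≤ 1) (ha4 : v a4 ≤ 1)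
    (hr : r < 1)
    (h1 : y1 ^ 2 = x1 ^ 3 + a2 * x1 ^ 2 + a4 * x1) (h2 : y2 ^ 2 = x2 ^ 3 + a2 * x2 ^ 2 + a4 * x2)
    (hx1 : 1 < v x1) (hx2 : 1 < v x2) (hz1 : v (x1 / y1) ≤ r) (hz2 : v (x2 / y2) ≤ r)
    (hℓ : (x1 ≠ x2 ∧ ℓ * (x1 - x2) = y1 - y2) ∨
      (x1 = x2 ∧ y1 = y2 ∧ ℓ * (2 * y1) = 3 * x1 ^ 2 + 2 * a2 * x1 + a4))
    (hx3 : x3 = ℓ ^ 2 - a2 - x1 - x2) (hy3 : y3 = ℓ * (x3 - x1) + y1)
    (h3 : y3 ^ 2 = x3 ^ 3 + a2 * x3 ^ 2 + a4 * x3) :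
    1 < v x3 ∧ v (x3 / y3 + x1 / y1 + x2 / y2) ≤ r ^ 3 := by
  obtain ⟨hy1, hz1', -, hw1⟩ := val_zw v ha2 ha4 hx1 h1
  obtain ⟨hy2, hz2', -, hw2⟩ := val_zw v ha2 ha4 hx2 h2
  have hr3 : r ^ 3 ≤ r := pow_le_of_le_one zero_le hr.le (by norm_num)
  have hw1r : v (1 / y1) ≤ r ^ 3 := by rw [hw1]; exact pow_le_pow_left₀ zero_le hz1 3
  have hw2r : v (1 / y2) ≤ r ^ 3 := by rw [hw2]; exact pow_le_pow_left₀ zero_le hz2 3
  have hy3' : y3 = ℓ * x3 + (y1 - ℓ * x1) := by rw [hy3]; ring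
  have L1 := zw_line hy1 (show y1 = ℓ * x1 + (y1 - ℓ * x1) by ring)
  have he1 : x1 + x2 + x3 = ℓ ^ 2 - a2 := by rw [hx3]; ring
  rcases hℓ with ⟨hne, hℓ⟩ | ⟨hxe, hye, hℓ⟩
  · have hvden := val_den v ha2 ha4 (z2 := x2 / y2) (w1 := 1 / y1) (w2 := 1 / y2) hz2'
      (hw1r.trans (hr3.trans hr.le)) (hw2r.trans (hr3.trans hr.le))
    have hvnum := val_num v ha2 ha4 (r := r) hz1 hz2 (hw1r.trans hr3)
    have hden0 : 1 - a2 * (x2 / y2) ^ 2 - a4 * (x2 / y2) * (1 / y1 + 1 / y2) ≠ 0 := fun h0 => by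
      rw [h0, map_zero] at hvden; exact zero_ne_one hvden
    obtain ⟨ha, hb, hc⟩ := chord_sym hne h1 h2 hℓ
    rw [← hx3] at hb hc
    obtain ⟨Iden, Inum⟩ := vieta_z (show y1 = ℓ * x1 + (y1 - ℓ * x1) by ring) ha hy3' he1 hb hc
    have hstar := star_chord hy1 hy2 hne h1 h2 hℓ hden0
    exact est_final v ha2 ha4 hr hy1 hy2 hstar hvden hvnum L1 hz1 hw1r Iden Inum hy3' h3
  · subst hxe hye
    have hvden := val_den v ha2 ha4 (z2 := x1 / y1) (w1 := 1 / y1) (w2 := 1 / y1) hz1'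
      (hw1r.trans (hr3.trans hr.le)) (hw1r.trans (hr3.trans hr.le))
    have hvnum := val_num v ha2 ha4 (r := r) hz1 hz1 (hw1r.trans hr3)
    obtain ⟨hb, hc⟩ := tangent_sym h1 hℓ
    rw [← hx3] at hb hc
    obtain ⟨Iden, Inum⟩ := vieta_z (show y1 = ℓ * x1 + (y1 - ℓ * x1) by ring)
      (show y1 = ℓ * x1 + (y1 - ℓ * x1) by ring) hy3' he1 hb hc
    have hstar := star_tangent hy1 h1 hℓ
    exact est_final v ha2 ha4 hr hy1 hy1 hstar hvden hvnum L1 hz1 hw1r Iden Inum hy3' h3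

end val

section points

variable {K : Type*} [Field K] [DecidableEq K] {Γ₀ : Type*} [LinearOrderedCommGroupWithZero Γ₀]
  (v : Valuation K Γ₀) (a2 a4 : K)

/-- The curve `y² = x³ + a₂x² + a₄x`. -/
abbrev Cv (a2 a4 : K) : WeierstrassCurve.Affine K := ⟨0, a2, 0, a4, 0⟩

omit [DecidableEq K] in
lemma equation_iff' {x y : K} :
    (Cv a2 a4).Equation x y ↔ y ^ 2 = x ^ 3 + a2 * x ^ 2 + a4 * x := by
  rw [Affine.equation_iff]; simp

omit [DecidableEq K] in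
lemma negY_eq (x y : K) : (Cv a2 a4).negY x y = -y := by
  simp [Affine.negY]

/-- The kernel of reduction: the point at infinity and the points with non-integral `x`. -/
def InE1 (P : (Cv a2 a4).Point) : Prop :=
  P = 0 ∨ ∃ (x y : K) (h : (Cv a2 a4).Nonsingular x y), P = .some x y h ∧ 1 < v x

/-- The coordinate `z = x / y` (with value `0` at infinity). -/
def zc : (Cv a2 a4).Point → K
  | .zero => 0
  | .some x y _ => x / y

omit [DecidableEq K] in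
@[simp] lemma zc_zero : zc a2 a4 0 = 0 := rfl

omit [DecidableEq K] in
@[simp] lemma zc_some {x y : K} (h : (Cv a2 a4).Nonsingular x y) :
    zc a2 a4 (.some x y h) = x / y := rfl

omit [DecidableEq K] in
lemma inE1_zero : InE1 v a2 a4 0 := Or.inl rfl

omit [DecidableEq K] in
lemma inE1_some {x y : K} (h : (Cv a2 a4).Nonsingular x y) :
    InE1 v a2 a4 (.some x y h) ↔ 1 < v x := by
  constructor
  · rintro (h0 | ⟨x', y', h', he, hx⟩)
    · exact absurd h0 (Affine.Point.some_ne_zero h)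
    · obtain ⟨rfl, rfl⟩ := Affine.Point.some.inj he
      exact hx
  · intro hx
    exact Or.inr ⟨x, y, h, rfl, hx⟩

lemma inE1_neg {P : (Cv a2 a4).Point} (hP : InE1 v a2 a4 P) : InE1 v a2 a4 (-P) := by
  rcases hP with rfl | ⟨x, y, h, rfl, hx⟩
  · rw [neg_zero]; exact inE1_zero v a2 a4
  · rw [Affine.Point.neg_some]
    exact (inE1_some v a2 a4 _).mpr hx

omit [DecidableEq K] in
lemma val_zc_lt_one (ha2 : v a2 ≤ 1) (ha4 : v a4 ≤ 1) {P : (Cv a2 a4).Point}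
    (hP : InE1 v a2 a4 P) : v (zc a2 a4 P) < 1 := by
  rcases hP with rfl | ⟨x, y, h, rfl, hx⟩
  · simp
  · exact (val_zw v ha2 ha4 hx ((equation_iff' a2 a4).mp h.1)).2.1

/-- Chord/tangent estimate for two affine points of `E1` whose sum is not zero. -/
lemma add_main (ha2 : v a2 ≤ 1) (ha4 : v a4 ≤ 1) {r : Γ₀} (hr : r < 1) {x1 y1 x2 y2 : K}
    (h1 : (Cv a2 a4).Nonsingular x1 y1) (h2 : (Cv a2 a4).Nonsingular x2 y2)
    (hx1 : 1 < v x1) (hx2 : 1 < v x2) (hz1 : v (x1 / y1) ≤ r) (hz2 : v (x2 / y2) ≤ r)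
    (hxy : ¬(x1 = x2 ∧ y1 = (Cv a2 a4).negY x2 y2)) :
    ∃ (x3 y3 : K) (h3 : (Cv a2 a4).Nonsingular x3 y3),
      Affine.Point.some x1 y1 h1 + Affine.Point.some x2 y2 h2 = Affine.Point.some x3 y3 h3 ∧
        1 < v x3 ∧ v (x3 / y3 - x1 / y1 - x2 / y2) ≤ r ^ 3 := by
  refine ⟨_, _, _, Affine.Point.add_some hxy, ?_⟩
  have e1 := (equation_iff' a2 a4).mp h1.1
  have e2 := (equation_iff' a2 a4).mp h2.1
  obtain ⟨ℓ, hℓdef⟩ : ∃ ℓ, ℓ = (Cv a2 a4).slope x1 x2 y1 y2 := ⟨_, rfl⟩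
  rw [← hℓdef]
  have hsl : (x1 ≠ x2 ∧ ℓ * (x1 - x2) = y1 - y2) ∨
      (x1 = x2 ∧ y1 = y2 ∧ ℓ * (2 * y1) = 3 * x1 ^ 2 + 2 * a2 * x1 + a4) := by
    by_cases hx : x1 = x2
    · right
      have hy : y1 ≠ (Cv a2 a4).negY x2 y2 := fun h => hxy ⟨hx, h⟩
      have hyy : y1 = y2 := Affine.Y_eq_of_Y_ne h1.1 h2.1 hx hy
      refine ⟨hx, hyy, ?_⟩
      rw [hℓdef, Affine.slope_of_Y_ne hx hy]
      subst hx hyy
      have hden : y1 - (Cv a2 a4).negY x1 y1 = 2 * y1 := by rw [negY_eq]; ring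
      have h2y : 2 * y1 ≠ 0 := by rw [← hden]; exact sub_ne_zero.mpr hy
      rw [hden, div_mul_cancel₀ _ h2y]
      simp
    · left
      refine ⟨hx, ?_⟩
      rw [hℓdef, Affine.slope_of_X_ne hx]
      have hsub : x1 - x2 ≠ 0 := sub_ne_zero.mpr hx
      field_simp
  have hX : (Cv a2 a4).addX x1 x2 ℓ = ℓ ^ 2 - a2 - x1 - x2 := by
    simp [Affine.addX]
  have hY : (Cv a2 a4).addY x1 x2 y1 ℓ = -(ℓ * ((ℓ ^ 2 - a2 - x1 - x2) - x1) + y1) := by
    rw [Affine.addY, negY_eq, Affine.negAddY, hX]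
  have h3 := (Affine.nonsingular_add h1 h2 hxy).1
  rw [← hℓdef, equation_iff', hX, hY] at h3
  rw [hX, hY]
  have key := add_est v ha2 ha4 hr e1 e2 hx1 hx2 hz1 hz2 hsl rfl rfl
    (by linear_combination h3)
  refine ⟨key.1, ?_⟩
  have hrw : (ℓ ^ 2 - a2 - x1 - x2) / -(ℓ * ((ℓ ^ 2 - a2 - x1 - x2) - x1) + y1) - x1 / y1 - x2 / y2
      = -((ℓ ^ 2 - a2 - x1 - x2) / (ℓ * ((ℓ ^ 2 - a2 - x1 - x2) - x1) + y1) + x1 / y1 + x2 / y2) := by
    rw [div_neg]; ring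
  rw [hrw, Valuation.map_neg]
  exact key.2

/-- Addition estimate on `E_r = {P ∈ E1 : v (z P) ≤ r}`. -/
lemma inE_add (ha2 : v a2 ≤ 1) (ha4 : v a4 ≤ 1) {r : Γ₀} (hr : r < 1) {P Q : (Cv a2 a4).Point}
    (hP : InE1 v a2 a4 P) (hPr : v (zc a2 a4 P) ≤ r)
    (hQ : InE1 v a2 a4 Q) (hQr : v (zc a2 a4 Q) ≤ r) :
    InE1 v a2 a4 (P + Q) ∧ v (zc a2 a4 (P + Q) - zc a2 a4 P - zc a2 a4 Q) ≤ r ^ 3 := by
  rcases hP with rfl | ⟨x1, y1, h1, rfl, hx1⟩
  · rw [zero_add]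
    exact ⟨hQ, by simp⟩
  rcases hQ with rfl | ⟨x2, y2, h2, rfl, hx2⟩
  · rw [add_zero]
    exact ⟨Or.inr ⟨x1, y1, h1, rfl, hx1⟩, by simp⟩
  by_cases hxy : x1 = x2 ∧ y1 = (Cv a2 a4).negY x2 y2
  · rw [Affine.Point.add_of_Y_eq hxy.1 hxy.2]
    refine ⟨inE1_zero v a2 a4, ?_⟩
    obtain ⟨rfl, hy⟩ := hxy
    rw [negY_eq] at hy
    subst hy
    simp only [zc_zero, zc_some]
    rw [show (0 : K) - x1 / -y2 - x1 / y2 = 0 by rw [div_neg]; ring]
    simp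
  · simp only [zc_some] at hPr hQr
    obtain ⟨x3, y3, h3, he, hx3, hz⟩ := add_main v a2 a4 ha2 ha4 hr h1 h2 hx1 hx2 hPr hQr hxy
    rw [he]
    exact ⟨(inE1_some v a2 a4 h3).mpr hx3, by simpa using hz⟩

lemma inE_nsmul (ha2 : v a2 ≤ 1) (ha4 : v a4 ≤ 1) {r : Γ₀} (hr : r < 1) {D : (Cv a2 a4).Point}
    (hD : InE1 v a2 a4 D) (hDr : v (zc a2 a4 D) ≤ r) (j : ℕ) :
    InE1 v a2 a4 (j • D) ∧ v (zc a2 a4 (j • D)) ≤ r ∧
      v (zc a2 a4 (j • D) - j * zc a2 a4 D) ≤ r ^ 3 := by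
  have hr3 : r ^ 3 ≤ r := pow_le_of_le_one zero_le hr.le (by norm_num)
  induction j with
  | zero => exact ⟨by rw [zero_smul]; exact inE1_zero v a2 a4, by simp, by simp⟩
  | succ j ih =>
    obtain ⟨ih1, ih2, ih3⟩ := ih
    obtain ⟨h1, h2⟩ := inE_add v a2 a4 ha2 ha4 hr ih1 ih2 hD hDr
    rw [succ_nsmul]
    have h3 : v (zc a2 a4 (j • D + D) - ((j + 1 : ℕ) : K) * zc a2 a4 D) ≤ r ^ 3 := by
      rw [show zc a2 a4 (j • D + D) - ((j + 1 : ℕ) : K) * zc a2 a4 D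
        = (zc a2 a4 (j • D + D) - zc a2 a4 (j • D) - zc a2 a4 D)
          + (zc a2 a4 (j • D) - j * zc a2 a4 D) by push_cast; ring]
      exact Valuation.map_add_le v h2 ih3
    refine ⟨h1, ?_, h3⟩
    rw [show zc a2 a4 (j • D + D)
        = (zc a2 a4 (j • D + D) - zc a2 a4 (j • D) - zc a2 a4 D)
          + (zc a2 a4 (j • D) + zc a2 a4 D) by ring]
    exact Valuation.map_add_le v (h2.trans hr3) (Valuation.map_add_le v ih2 hDr)

/-- **F2**: the kernel of reduction has no `m`-torsion when `m` is a unit. -/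
theorem inE1_torsion_free (ha2 : v a2 ≤ 1) (ha4 : v a4 ≤ 1) (m : ℕ) (hm : v (m : K) = 1)
    (D : (Cv a2 a4).Point) (hD : InE1 v a2 a4 D) (h : m • D = 0) : D = 0 := by
  rcases hD with rfl | ⟨x, y, hns, rfl, hx⟩
  · rfl
  exfalso
  have hD : InE1 v a2 a4 (.some x y hns) := (inE1_some v a2 a4 hns).mpr hx
  obtain ⟨-, hz1, hz0, -⟩ := val_zw v ha2 ha4 hx ((equation_iff' a2 a4).mp hns.1)
  obtain ⟨-, -, h3⟩ := inE_nsmul v a2 a4 ha2 ha4 hz1 hD (le_refl _) m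
  rw [h, zc_zero, zero_sub, Valuation.map_neg, map_mul, hm, one_mul, zc_some] at h3
  have hlt : v (x / y) ^ 3 < v (x / y) := by
    calc v (x / y) ^ 3 = v (x / y) * v (x / y) ^ 2 := pow_succ' _ 2
      _ < v (x / y) * 1 :=
        mul_lt_mul_of_pos_left (pow_lt_one₀ zero_le hz1 (by norm_num)) (zero_lt_iff.mpr hz0)
      _ = v (x / y) := mul_one _
  exact absurd h3 (not_le.mpr hlt)

/-- The kernel of reduction is closed under addition. -/
theorem inE1_add (ha2 : v a2 ≤ 1) (ha4 : v a4 ≤ 1) {P Q : (Cv a2 a4).Point}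
    (hP : InE1 v a2 a4 P) (hQ : InE1 v a2 a4 Q) : InE1 v a2 a4 (P + Q) := by
  have h1 := val_zc_lt_one v a2 a4 ha2 ha4 hP
  have h2 := val_zc_lt_one v a2 a4 ha2 ha4 hQ
  exact (inE_add v a2 a4 ha2 ha4 (max_lt h1 h2) hP (le_max_left _ _) hQ (le_max_right _ _)).1

theorem inE1_sub (ha2 : v a2 ≤ 1) (ha4 : v a4 ≤ 1) {P Q : (Cv a2 a4).Point}
    (hP : InE1 v a2 a4 P) (hQ : InE1 v a2 a4 Q) : InE1 v a2 a4 (P - Q) := by
  rw [sub_eq_add_neg]
  exact inE1_add v a2 a4 ha2 ha4 hP (inE1_neg v a2 a4 hQ)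

omit [DecidableEq K] in
lemma val_y_le_one (ha2 : v a2 ≤ 1) (ha4 : v a4 ≤ 1) {x y : K} (hx : v x ≤ 1)
    (h : y ^ 2 = x ^ 3 + a2 * x ^ 2 + a4 * x) : v y ≤ 1 := by
  have h' : v (y ^ 2) ≤ 1 := by
    rw [h]
    refine Valuation.map_add_le v (Valuation.map_add_le v ?_ ?_) ?_
    · rw [map_pow]; exact pow_le_one₀ zero_le hx
    · rw [map_mul, map_pow]; exact mul_le_one' ha2 (pow_le_one₀ zero_le hx)
    · rw [map_mul]; exact mul_le_one' ha4 hx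
  by_contra hc
  rw [map_pow] at h'
  exact absurd h' (not_le.mpr (one_lt_pow₀ (not_le.mp hc) (by norm_num)))

/-- **F3**: two distinct integral points with the same nonsingular reduction differ by a nonzero
element of the kernel of reduction. -/
theorem inE1_sub_of_close (ha2 : v a2 ≤ 1) (ha4 : v a4 ≤ 1) {x1 y1 x2 y2 : K}
    (h1 : (Cv a2 a4).Nonsingular x1 y1) (h2 : (Cv a2 a4).Nonsingular x2 y2)
    (hx1 : v x1 ≤ 1) (hx2 : v x2 ≤ 1) (hx : v (x1 - x2) < 1) (hy : v (y1 - y2) < 1)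
    (hns : v (2 * y1) = 1 ∨ v (3 * x1 ^ 2 + 2 * a2 * x1 + a4) = 1)
    (hne : Affine.Point.some x1 y1 h1 ≠ Affine.Point.some x2 y2 h2) :
    ∃ (x y : K) (h : (Cv a2 a4).Nonsingular x y),
      Affine.Point.some x1 y1 h1 - Affine.Point.some x2 y2 h2 = Affine.Point.some x y h ∧
        1 < v x := by
  have e1 := (equation_iff' a2 a4).mp h1.1
  have e2 := (equation_iff' a2 a4).mp h2.1
  have hy1 : v y1 ≤ 1 := val_y_le_one v a2 a4 ha2 ha4 hx1 e1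
  have hy2 : v y2 ≤ 1 := val_y_le_one v a2 a4 ha2 ha4 hx2 e2
  have hxy : ¬(x1 = x2 ∧ y1 = (Cv a2 a4).negY x2 ((Cv a2 a4).negY x2 y2)) := by
    rintro ⟨rfl, hy'⟩
    rw [Affine.negY_negY] at hy'
    subst hy'
    exact hne rfl
  rw [sub_eq_add_neg, Affine.Point.neg_some]
  refine ⟨_, _, _, Affine.Point.add_some hxy, ?_⟩
  obtain ⟨ℓ, hℓdef⟩ : ∃ ℓ, ℓ = (Cv a2 a4).slope x1 x2 y1 ((Cv a2 a4).negY x2 y2) := ⟨_, rfl⟩
  rw [← hℓdef]
  have hℓ : 1 < v ℓ := by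
    by_cases hxe : x1 = x2
    · subst hxe
      have hyne : y1 ≠ y2 := fun h => by subst h; exact hne rfl
      have hy12 : y2 = -y1 := by
        have h' : (y1 - y2) * (y1 + y2) = 0 := by linear_combination e1 - e2
        rcases mul_eq_zero.mp h' with h | h
        · exact absurd (sub_eq_zero.mp h) hyne
        · linear_combination h
      subst hy12
      have hyn : y1 ≠ (Cv a2 a4).negY x1 ((Cv a2 a4).negY x1 (-y1)) := by
        rw [Affine.negY_negY]; exact hyne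
      rw [hℓdef, Affine.slope_of_Y_ne rfl hyn]
      have hden : y1 - (Cv a2 a4).negY x1 y1 = 2 * y1 := by rw [negY_eq]; ring
      have h2y : v (2 * y1) < 1 := by rw [show 2 * y1 = y1 - -y1 by ring]; exact hy
      have h2y0 : 2 * y1 ≠ 0 := by intro h; apply hyne; linear_combination h
      have hf : v (3 * x1 ^ 2 + 2 * a2 * x1 + a4) = 1 := hns.resolve_left (ne_of_lt h2y)
      have hnum : 3 * x1 ^ 2 + 2 * (Cv a2 a4).a₂ * x1 + (Cv a2 a4).a₄ - (Cv a2 a4).a₁ * y1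
          = 3 * x1 ^ 2 + 2 * a2 * x1 + a4 := by simp
      rw [hden, hnum, Valuation.map_div, hf]
      exact (one_lt_div₀ (zero_lt_iff.mpr ((Valuation.ne_zero_iff v).mpr h2y0))).mpr h2y
    · rw [hℓdef, Affine.slope_of_X_ne hxe, negY_eq, Valuation.map_div]
      have hsub : x1 - x2 ≠ 0 := sub_ne_zero.mpr hxe
      have hsub0 : 0 < v (x1 - x2) := zero_lt_iff.mpr ((Valuation.ne_zero_iff v).mpr hsub)
      rw [lt_div_iff₀ hsub0, one_mul]
      by_cases hyy : v (y1 - -y2) = 1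
      · rw [hyy]; exact hx
      · have hyy' : v (y1 - -y2) < 1 :=
          lt_of_le_of_ne (Valuation.map_sub_le v hy1 (by rw [Valuation.map_neg]; exact hy2)) hyy
        have h2y : v (2 * y1) < 1 := by
          rw [show 2 * y1 = (y1 - -y2) + (y1 - y2) by ring]
          exact Valuation.map_add_lt v hyy' hy
        have hf : v (3 * x1 ^ 2 + 2 * a2 * x1 + a4) = 1 := hns.resolve_left (ne_of_lt h2y)
        have hh : v (x1 ^ 2 + x1 * x2 + x2 ^ 2 + a2 * (x1 + x2) + a4) = 1 := by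
          rw [show x1 ^ 2 + x1 * x2 + x2 ^ 2 + a2 * (x1 + x2) + a4
            = (3 * x1 ^ 2 + 2 * a2 * x1 + a4) + (x1 - x2) * (-(x2 + 2 * x1 + a2)) by ring]
          rw [Valuation.map_add_eq_of_lt_left v, hf]
          rw [hf, map_mul, Valuation.map_neg]
          have h3 : v (x2 + 2 * x1 + a2) ≤ 1 := by
            refine Valuation.map_add_le v (Valuation.map_add_le v hx2 ?_) ha2
            rw [map_mul]; exact mul_le_one' (val_two_le v) hx1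
          calc v (x1 - x2) * v (x2 + 2 * x1 + a2) ≤ v (x1 - x2) * 1 := mul_le_mul_right h3 _
            _ = v (x1 - x2) := mul_one _
            _ < 1 := hx
        have hprod : (y1 - -y2) * (y1 - y2)
            = (x1 - x2) * (x1 ^ 2 + x1 * x2 + x2 ^ 2 + a2 * (x1 + x2) + a4) := by
          linear_combination e1 - e2
        have hv := congrArg v hprod
        rw [map_mul, map_mul, hh, mul_one] at hv
        rw [← hv]
        have hpos : 0 < v (y1 - -y2) := by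
          rw [zero_lt_iff]
          intro h0
          rw [h0, zero_mul] at hv
          exact hsub0.ne hv
        calc v (y1 - -y2) * v (y1 - y2) < v (y1 - -y2) * 1 := mul_lt_mul_of_pos_left hy hpos
          _ = v (y1 - -y2) := mul_one _
  have hX : (Cv a2 a4).addX x1 x2 ℓ = ℓ ^ 2 - (a2 + x1 + x2) := by
    simp [Affine.addX]; ring
  rw [hX, Valuation.map_sub_eq_of_lt_left v, map_pow]
  · exact one_lt_pow₀ hℓ (by norm_num)
  · rw [map_pow]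
    calc v (a2 + x1 + x2) ≤ 1 := Valuation.map_add_le v (Valuation.map_add_le v ha2 hx1) hx2
      _ < v ℓ ^ 2 := one_lt_pow₀ hℓ (by norm_num)

omit [DecidableEq K] in
/-- The nonsingularity hypothesis of `inE1_sub_of_close` holds when the discriminant
`a₂² - 4a₄` is a unit, `2` is a unit, and either `a₄` or `x` is a unit
(good reduction, resp. multiplicative reduction away from the node). -/
lemma nonsing_of_disc (ha2 : v a2 ≤ 1) (ha4 : v a4 ≤ 1) (h2 : v (2 : K) = 1)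
    (hd : v (a2 ^ 2 - 4 * a4) = 1) {x y : K} (hx : v x ≤ 1) (hxa : v a4 = 1 ∨ v x = 1)
    (h : y ^ 2 = x ^ 3 + a2 * x ^ 2 + a4 * x) :
    v (2 * y) = 1 ∨ v (3 * x ^ 2 + 2 * a2 * x + a4) = 1 := by
  have hy : v y ≤ 1 := val_y_le_one v a2 a4 ha2 ha4 hx h
  by_cases hy1 : v y = 1
  · left; rw [map_mul, h2, hy1, mul_one]
  right
  have hylt : v y < 1 := lt_of_le_of_ne hy hy1
  by_contra hf
  have hf' : v (3 * x ^ 2 + 2 * a2 * x + a4) ≤ 1 := by
    refine Valuation.map_add_le v (Valuation.map_add_le v ?_ ?_) ha4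
    · rw [map_mul, map_pow]
      refine mul_le_one' ?_ (pow_le_one₀ zero_le hx)
      rw [show (3 : K) = 2 + 1 by norm_num]
      exact Valuation.map_add_le v h2.le (by rw [map_one])
    · rw [map_mul, map_mul]; exact mul_le_one' (mul_le_one' h2.le ha2) hx
  have hflt : v (3 * x ^ 2 + 2 * a2 * x + a4) < 1 := lt_of_le_of_ne hf' hf
  -- `x * g = y²` is small, `g = x² + a₂ x + a₄`
  have hxg : v x * v (x ^ 2 + a2 * x + a4) < 1 := by
    rw [← map_mul, show x * (x ^ 2 + a2 * x + a4) = y ^ 2 by rw [h]; ring, map_pow]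
    exact pow_lt_one₀ zero_le hylt (by norm_num)
  by_cases hx1 : v x = 1
  · rw [hx1, one_mul] at hxg
    -- `x (2x + a₂) = f' - g` is small, so `2x + a₂` is small
    have h4 : v (2 * x + a2) < 1 := by
      have h5 : v (x * (2 * x + a2)) < 1 := by
        rw [show x * (2 * x + a2) = (3 * x ^ 2 + 2 * a2 * x + a4) - (x ^ 2 + a2 * x + a4) by ring]
        exact Valuation.map_sub_lt v hflt hxg
      rwa [map_mul, hx1, one_mul] at h5
    have h6 : v (a2 ^ 2 - 4 * a4) < 1 := by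
      rw [show a2 ^ 2 - 4 * a4 = (2 * x + a2) ^ 2 - 4 * (x ^ 2 + a2 * x + a4) by ring]
      apply Valuation.map_sub_lt v
      · rw [map_pow]; exact pow_lt_one₀ zero_le h4 (by norm_num)
      · rw [map_mul]
        have h44 : v (4 : K) ≤ 1 := by
          rw [show (4 : K) = 2 * 2 by norm_num, map_mul, h2, mul_one]
        calc v (4 : K) * v (x ^ 2 + a2 * x + a4) ≤ 1 * v (x ^ 2 + a2 * x + a4) :=
              mul_le_mul_left h44 _
          _ = v (x ^ 2 + a2 * x + a4) := one_mul _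
          _ < 1 := hxg
    exact absurd hd (ne_of_lt h6)
  · have hxlt : v x < 1 := lt_of_le_of_ne hx hx1
    have ha41 : v a4 = 1 := hxa.resolve_right hx1
    have h7 : v (3 * x ^ 2 + 2 * a2 * x + a4) = 1 := by
      rw [show 3 * x ^ 2 + 2 * a2 * x + a4 = a4 + x * (3 * x + 2 * a2) by ring]
      rw [Valuation.map_add_eq_of_lt_left v, ha41]
      rw [ha41, map_mul]
      have h8 : v (3 * x + 2 * a2) ≤ 1 := by
        refine Valuation.map_add_le v ?_ ?_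
        · rw [map_mul]
          refine mul_le_one' ?_ hx
          rw [show (3 : K) = 2 + 1 by norm_num]
          exact Valuation.map_add_le v h2.le (by rw [map_one])
        · rw [map_mul]; exact mul_le_one' h2.le ha2
      calc v x * v (3 * x + 2 * a2) ≤ v x * 1 := mul_le_mul_right h8 _
        _ = v x := mul_one _
        _ < 1 := hxlt
    exact hf h7

end points

end Fermat.Agent.S05Lib.Ker
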