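/-
S05 chunk A, interface form (helper2): (F3) two integral points of a short integral curve with
the same nonsingular reduction differ by a point of the kernel of reduction.
Adapter from `Lib/S05/Kernel.lean` (`Ker.inE1_sub_of_close`).
-/
import Fermat.Agent.Lib.S05.Defs
import Fermat.Agent.Lib.S05.Kernel

set_option autoImplicit false

namespace Fermat.Agent.S05Lib

open WeierstrassCurve

variable {F : Type*} [Field F] [DecidableEq F] {Γ₀ : Type*} [LinearOrderedCommGroupWithZero Γ₀]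
  {v : Valuation F Γ₀} {W : WeierstrassCurve.Affine F}

/-- (F3) two integral points with the same nonsingular reduction differ by a point of `E1`. -/
theorem isE1_sub_of_close (hW : IsIntegralShort v W) (hv2 : v 2 = 1) {x₁ y₁ x₂ y₂ : F}
    (h₁ : W.Nonsingular x₁ y₁) (h₂ : W.Nonsingular x₂ y₂) (hx₁ : v x₁ ≤ 1) (hy₁ : v y₁ ≤ 1)
    (hx : v (x₁ - x₂) < 1) (hy : v (y₁ - y₂) < 1)
    (hns : v y₁ < 1 → v (3 * x₁ ^ 2 + 2 * W.a₂ * x₁ + W.a₄) = 1) :
    IsE1 v (Affine.Point.some x₁ y₁ h₁ - Affine.Point.some x₂ y₂ h₂) := by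
  obtain ⟨⟨h1, h3, h6⟩, ha2, ha4⟩ := hW
  obtain ⟨a1, a2, a3, a4, a6⟩ := W
  simp only at h1 h3 h6 ha2 ha4 hns
  subst h1 h3 h6
  by_cases hne : Affine.Point.some x₁ y₁ h₁ = Affine.Point.some x₂ y₂ h₂
  · rw [hne, sub_self]; trivial
  have hx₂ : v x₂ ≤ 1 := by
    rw [show x₂ = x₁ - (x₁ - x₂) by ring]
    exact Valuation.map_sub_le v hx₁ hx.le
  have hns' : v (2 * y₁) = 1 ∨ v (3 * x₁ ^ 2 + 2 * a2 * x₁ + a4) = 1 := by
    by_cases hy1 : v y₁ = 1
    · left; rw [map_mul, hv2, hy1, mul_one]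
    · right; exact hns (lt_of_le_of_ne hy₁ hy1)
  obtain ⟨x, y, h, he, hxv⟩ :=
    Ker.inE1_sub_of_close v a2 a4 ha2 ha4 h₁ h₂ hx₁ hx₂ hx hy hns' hne
  rw [he]
  exact hxv

end Fermat.Agent.S05Lib
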