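/-
S05 support library (helper5): transport of the Galois action on torsion points along the
change of variables `x = x' + r`, `y = y' + s x' + t` with rational `r, s, t`, and the two
models `y² = x³ + a₂ x² + a₄ x` of the Frey curve.
-/
import Mathlib
import Fermat.Prelude.Def_FLTPrelim_FreyPackage
import Fermat.Prelude.Def_FLTPrelim_GaloisRep
import Fermat.Prelude.Def_FLTPrelim_Ramification

set_option autoImplicit false

open WeierstrassCurve WeierstrassCurve.Affine

noncomputable section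

namespace Fermat.Agent.S05Lib.Shift

section Curve

variable {F : Type*} [CommRing F]

/-- The Weierstrass curve obtained from `W` by the change of variables
`x = x' + r`, `y = y' + s x' + t`. -/
def shiftCurve (W : WeierstrassCurve F) (r s t : F) : WeierstrassCurve F where
  a₁ := W.a₁ + 2 * s
  a₂ := W.a₂ - s * W.a₁ + 3 * r - s ^ 2
  a₃ := W.a₃ + r * W.a₁ + 2 * t
  a₄ := W.a₄ - s * W.a₃ + 2 * r * W.a₂ - (t + r * s) * W.a₁ + 3 * r ^ 2 - 2 * s * t
  a₆ := W.a₆ + r * W.a₄ + r ^ 2 * W.a₂ + r ^ 3 - t * W.a₃ - t ^ 2 - r * t * W.a₁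

/-- `M` is the curve `E` in the coordinates `x = x' + r`, `y = y' + s x' + t`. -/
def IsShift (M E : WeierstrassCurve F) (r s t : F) : Prop :=
  M.a₁ = E.a₁ + 2 * s ∧
  M.a₂ = E.a₂ - s * E.a₁ + 3 * r - s ^ 2 ∧
  M.a₃ = E.a₃ + r * E.a₁ + 2 * t ∧
  M.a₄ = E.a₄ - s * E.a₃ + 2 * r * E.a₂ - (t + r * s) * E.a₁ + 3 * r ^ 2 - 2 * s * t ∧
  M.a₆ = E.a₆ + r * E.a₄ + r ^ 2 * E.a₂ + r ^ 3 - t * E.a₃ - t ^ 2 - r * t * E.a₁

theorem isShift_shiftCurve (W : WeierstrassCurve F) (r s t : F) :
    IsShift (shiftCurve W r s t) W r s t :=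
  ⟨rfl, rfl, rfl, rfl, rfl⟩

theorem isShift_map {G : Type*} [CommRing G] (f : F →+* G) {M E : WeierstrassCurve F} {r s t : F}
    (h : IsShift M E r s t) : IsShift (M.map f) (E.map f) (f r) (f s) (f t) := by
  obtain ⟨h1, h2, h3, h4, h6⟩ := h
  refine ⟨?_, ?_, ?_, ?_, ?_⟩
  · simp [h1, map_ofNat]
  · simp [h2, map_ofNat]
  · simp [h3, map_ofNat]
  · simp [h4, map_ofNat]
  · simp [h6]

end Curve

section Formulas

variable {K : Type*} [Field K] {M E : WeierstrassCurve.Affine K} {r s t : K}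

theorem equation_iff_of_isShift (h : IsShift M E r s t) (x y : K) :
    M.Equation x y ↔ E.Equation (x + r) (y + s * x + t) := by
  obtain ⟨h1, h2, h3, h4, h6⟩ := h
  rw [Affine.equation_iff, Affine.equation_iff, h1, h2, h3, h4, h6]
  constructor
  · intro hh
    linear_combination hh
  · intro hh
    linear_combination hh

theorem nonsingular_iff_of_isShift (h : IsShift M E r s t) (x y : K) :
    M.Nonsingular x y ↔ E.Nonsingular (x + r) (y + s * x + t) := by
  rw [Affine.nonsingular_iff', Affine.nonsingular_iff', equation_iff_of_isShift h]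
  obtain ⟨h1, h2, h3, h4, h6⟩ := h
  refine and_congr_right fun _ => ?_
  rw [← not_iff_not, not_or, not_or, not_not, not_not, not_not, not_not, h1, h2, h3, h4]
  constructor
  · rintro ⟨ha, hb⟩
    refine ⟨?_, ?_⟩
    · linear_combination ha - s * hb
    · linear_combination hb
  · rintro ⟨ha, hb⟩
    refine ⟨?_, ?_⟩
    · linear_combination ha + s * hb
    · linear_combination hb

theorem negY_of_isShift (h : IsShift M E r s t) (x y : K) :
    E.negY (x + r) (y + s * x + t) = M.negY x y + s * x + t := by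
  obtain ⟨h1, h2, h3, h4, h6⟩ := h
  rw [Affine.negY, Affine.negY, h1, h3]
  ring

theorem addX_of_isShift (h : IsShift M E r s t) (x₁ x₂ ℓ : K) :
    E.addX (x₁ + r) (x₂ + r) (ℓ + s) = M.addX x₁ x₂ ℓ + r := by
  obtain ⟨h1, h2, h3, h4, h6⟩ := h
  rw [Affine.addX, Affine.addX, h1, h2]
  ring

theorem addY_of_isShift (h : IsShift M E r s t) (x₁ x₂ y₁ ℓ : K) :
    E.addY (x₁ + r) (x₂ + r) (y₁ + s * x₁ + t) (ℓ + s) =
      M.addY x₁ x₂ y₁ ℓ + s * M.addX x₁ x₂ ℓ + t := by
  have hX := addX_of_isShift h x₁ x₂ ℓ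
  obtain ⟨h1, h2, h3, h4, h6⟩ := h
  rw [Affine.addY, Affine.addY, Affine.negAddY, Affine.negAddY, Affine.negY, Affine.negY, hX, h1,
    h3]
  ring

variable [DecidableEq K]

theorem slope_of_isShift (h : IsShift M E r s t) {x₁ x₂ y₁ y₂ : K} (he₁ : M.Equation x₁ y₁)
    (he₂ : M.Equation x₂ y₂) (hxy : ¬(x₁ = x₂ ∧ y₁ = M.negY x₂ y₂)) :
    E.slope (x₁ + r) (x₂ + r) (y₁ + s * x₁ + t) (y₂ + s * x₂ + t) =
      M.slope x₁ x₂ y₁ y₂ + s := by
  by_cases hx : x₁ = x₂
  · subst hx
    have hy : y₁ ≠ M.negY x₁ y₂ := fun hy => hxy ⟨rfl, hy⟩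
    have hyy : y₁ = y₂ := Affine.Y_eq_of_Y_ne he₁ he₂ rfl hy
    subst hyy
    have hy' : y₁ + s * x₁ + t ≠ E.negY (x₁ + r) (y₁ + s * x₁ + t) := by
      rw [negY_of_isShift h]
      intro h'
      apply hy
      linear_combination h'
    rw [Affine.slope_of_Y_ne rfl hy, Affine.slope_of_Y_ne rfl hy', negY_of_isShift h]
    have hd : y₁ - M.negY x₁ y₁ ≠ 0 := sub_ne_zero.mpr hy
    have hd' : y₁ + s * x₁ + t - (M.negY x₁ y₁ + s * x₁ + t) ≠ 0 := by
      intro h'
      apply hd
      linear_combination h'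
    obtain ⟨h1, h2, h3, h4, h6⟩ := h
    rw [div_add' _ _ _ hd, div_eq_div_iff hd' hd, h1, h2, h4]
    simp only [Affine.negY, h1, h3]
    ring
  · have hx' : x₁ + r ≠ x₂ + r := fun h' => hx (add_right_cancel h')
    rw [Affine.slope_of_X_ne hx, Affine.slope_of_X_ne hx']
    have hd : x₁ - x₂ ≠ 0 := sub_ne_zero.mpr hx
    have hd' : x₁ + r - (x₂ + r) ≠ 0 := by
      rw [add_sub_add_right_eq_sub]
      exact hd
    rw [div_add' _ _ _ hd, div_eq_div_iff hd' hd]
    ring

end Formulas

section PointMap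

variable {K : Type*} [Field K] {M E : WeierstrassCurve.Affine K} {r s t : K}

theorem some_eq_some {W : WeierstrassCurve.Affine K} {x y x' y' : K} (hx : x = x') (hy : y = y')
    (h : W.Nonsingular x y) (h' : W.Nonsingular x' y') :
    Point.some x y h = Point.some x' y' h' := by
  subst hx hy
  rfl

/-- The map on points induced by the change of variables. -/
def shiftFun (h : IsShift M E r s t) : M.Point → E.Point
  | .zero => 0
  | .some x y hxy => .some (x + r) (y + s * x + t) ((nonsingular_iff_of_isShift h x y).mp hxy)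

/-- The inverse map on points. -/
def shiftInv (h : IsShift M E r s t) : E.Point → M.Point
  | .zero => 0
  | .some x y hxy => .some (x - r) (y - s * (x - r) - t)
      ((nonsingular_iff_of_isShift h (x - r) (y - s * (x - r) - t)).mpr (by
        have e1 : x - r + r = x := by ring
        have e2 : y - s * (x - r) - t + s * (x - r) + t = y := by ring
        rw [e1, e2]
        exact hxy))

theorem shiftFun_zero (h : IsShift M E r s t) : shiftFun h 0 = 0 := rfl

theorem shiftFun_some (h : IsShift M E r s t) {x y : K} (hxy : M.Nonsingular x y) :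
    shiftFun h (Point.some x y hxy) =
      Point.some (x + r) (y + s * x + t) ((nonsingular_iff_of_isShift h x y).mp hxy) := rfl

theorem shiftInv_shiftFun (h : IsShift M E r s t) (P : M.Point) : shiftInv h (shiftFun h P) = P := by
  rcases P with _ | ⟨x, y, hxy⟩
  · rfl
  · exact some_eq_some (by ring) (by ring) _ _

theorem shiftFun_shiftInv (h : IsShift M E r s t) (P : E.Point) : shiftFun h (shiftInv h P) = P := by
  rcases P with _ | ⟨x, y, hxy⟩
  · rfl
  · exact some_eq_some (by ring) (by ring) _ _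

variable [DecidableEq K]

theorem shiftFun_add (h : IsShift M E r s t) (P Q : M.Point) :
    shiftFun h (P + Q) = shiftFun h P + shiftFun h Q := by
  rcases P with _ | ⟨x₁, y₁, h₁⟩
  · have h0 : (Point.zero : M.Point) = 0 := rfl
    rw [h0, zero_add, shiftFun_zero, zero_add]
  rcases Q with _ | ⟨x₂, y₂, h₂⟩
  · have h0 : (Point.zero : M.Point) = 0 := rfl
    rw [h0, add_zero, shiftFun_zero, add_zero]
  by_cases hxy : x₁ = x₂ ∧ y₁ = M.negY x₂ y₂
  · rw [Point.add_of_Y_eq hxy.1 hxy.2, shiftFun_zero, shiftFun_some, shiftFun_some,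
      Point.add_of_Y_eq (by rw [hxy.1]) (by rw [negY_of_isShift h, ← hxy.2, hxy.1])]
  · have hxy' : ¬(x₁ + r = x₂ + r ∧ y₁ + s * x₁ + t = E.negY (x₂ + r) (y₂ + s * x₂ + t)) := by
      rintro ⟨ha, hb⟩
      have hx : x₁ = x₂ := add_right_cancel ha
      apply hxy
      refine ⟨hx, ?_⟩
      rw [negY_of_isShift h, hx] at hb
      linear_combination hb
    rw [Point.add_some hxy, shiftFun_some, shiftFun_some, shiftFun_some, Point.add_some hxy']
    have hsl := slope_of_isShift h h₁.1 h₂.1 hxy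
    refine some_eq_some ?_ ?_ _ _
    · rw [hsl, addX_of_isShift h]
    · rw [hsl, addY_of_isShift h]

/-- The group isomorphism on points induced by the change of variables. -/
def shiftEquiv (h : IsShift M E r s t) : M.Point ≃+ E.Point where
  toFun := shiftFun h
  invFun := shiftInv h
  left_inv := shiftInv_shiftFun h
  right_inv := shiftFun_shiftInv h
  map_add' := shiftFun_add h

theorem shiftEquiv_some (h : IsShift M E r s t) {x y : K} (hxy : M.Nonsingular x y) :
    shiftEquiv h (Point.some x y hxy) =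
      Point.some (x + r) (y + s * x + t) ((nonsingular_iff_of_isShift h x y).mp hxy) := rfl

end PointMap

section Galois

variable {K : Type*} [Field K] [DecidableEq K] [Algebra ℚ K]

omit [DecidableEq K] in
theorem isShift_baseChange (W : WeierstrassCurve ℚ) (r s t : ℚ) :
    IsShift ((shiftCurve W r s t)⁄K) (W⁄K) (algebraMap ℚ K r) (algebraMap ℚ K s)
      (algebraMap ℚ K t) :=
  isShift_map (algebraMap ℚ K) (isShift_shiftCurve W r s t)

theorem shiftEquiv_smul (W : WeierstrassCurve ℚ) (r s t : ℚ) (σ : K ≃ₐ[ℚ] K)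
    (P : ((shiftCurve W r s t)⁄K).Point) :
    shiftEquiv (isShift_baseChange W r s t) (σ • P) =
      σ • shiftEquiv (isShift_baseChange W r s t) P := by
  rcases P with _ | ⟨x, y, hxy⟩
  · rfl
  · refine some_eq_some ?_ ?_ _ _
    · simp
    · simp

end Galois

section Unramified

local notation "Qbar" => AlgebraicClosure ℚ

/-- Unramifiedness of the torsion representation can be checked after a rational change of
variables `x = x' + r`, `y = y' + s x' + t`. -/
theorem unramifiedAt_of_shift (W : WeierstrassCurve ℚ) (r s t : ℚ) (n q : ℕ)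
    (hM : Point.GaloisRepUnramifiedAt (K := Qbar) ℚ (shiftCurve W r s t) n q) :
    Point.GaloisRepUnramifiedAt (K := Qbar) ℚ W n q := by
  intro A hA σ hσ T
  have hT' : (shiftEquiv (isShift_baseChange (K := Qbar) W r s t)).symm T.1 ∈
      Submodule.torsionBy ℤ ((shiftCurve W r s t)⁄Qbar).Point (n : ℤ) := by
    rw [Submodule.mem_torsionBy_iff, ← map_zsmul, (Submodule.mem_torsionBy_iff _ _).mp T.2,
      map_zero]
  have h0 := hM A hA σ hσ ⟨_, hT'⟩
  have h1 : σ • (shiftEquiv (isShift_baseChange (K := Qbar) W r s t)).symm T.1 =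
      (shiftEquiv (isShift_baseChange (K := Qbar) W r s t)).symm T.1 := congrArg Subtype.val h0
  apply Subtype.ext
  have h2 := shiftEquiv_smul (K := Qbar) W r s t σ
    ((shiftEquiv (isShift_baseChange (K := Qbar) W r s t)).symm T.1)
  rw [h1, AddEquiv.apply_symm_apply] at h2
  exact h2.symm

end Unramified

section Frey

local notation "Qbar" => AlgebraicClosure ℚ

/-- The model `y² = x³ + a₂ x² + a₄ x` over `ℚ`. -/
def modelCurve (a2 a4 : ℚ) : WeierstrassCurve ℚ := ⟨0, a2, 0, a4, 0⟩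

/-- The base change of the model curve is the literal curve `⟨0, a2, 0, a4, 0⟩`. -/
theorem modelCurve_baseChange {K : Type*} [Field K] [Algebra ℚ K] (a2 a4 : ℚ) :
    ((modelCurve a2 a4)⁄K) = (⟨0, algebraMap ℚ K a2, 0, algebraMap ℚ K a4, 0⟩ : Affine K) := by
  simp only [modelCurve, Affine.baseChange, WeierstrassCurve.baseChange, WeierstrassCurve.map,
    map_zero]

/-- First model of the Frey curve: `y² = x³ + ((bᵖ - aᵖ)/4) x² - (aᵖ bᵖ / 16) x`
(used at odd primes not dividing `c`). -/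
theorem frey_shift_ab (P : FreyPackage) :
    shiftCurve P.freyCurve 0 (-1 / 2) 0 =
      modelCurve (((P.b : ℚ) ^ P.p - (P.a : ℚ) ^ P.p) / 4)
        (-((P.a : ℚ) ^ P.p * (P.b : ℚ) ^ P.p) / 16) := by
  simp only [shiftCurve, modelCurve, FreyPackage.freyCurve]
  congr 1 <;> ring

/-- Second model of the Frey curve: `y² = x³ + ((aᵖ + cᵖ)/4) x² + (aᵖ cᵖ / 16) x`
(used at odd primes dividing `c`). -/
theorem frey_shift_c (P : FreyPackage) :
    shiftCurve P.freyCurve ((P.a : ℚ) ^ P.p / 4) (-1 / 2) (-((P.a : ℚ) ^ P.p) / 8) =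
      modelCurve (((P.a : ℚ) ^ P.p + (P.c : ℚ) ^ P.p) / 4)
        ((P.a : ℚ) ^ P.p * (P.c : ℚ) ^ P.p / 16) := by
  have hc : (P.c : ℚ) ^ P.p = (P.a : ℚ) ^ P.p + (P.b : ℚ) ^ P.p := by
    exact_mod_cast P.hFLT.symm
  simp only [shiftCurve, modelCurve, FreyPackage.freyCurve, hc]
  congr 1 <;> ring

/-- The Frey curve is unramified at `q` as soon as its first model is. -/
theorem frey_unramified_of_model_ab (P : FreyPackage) (q : ℕ)
    (h : Point.GaloisRepUnramifiedAt (K := Qbar) ℚ
      (modelCurve (((P.b : ℚ) ^ P.p - (P.a : ℚ) ^ P.p) / 4)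
        (-((P.a : ℚ) ^ P.p * (P.b : ℚ) ^ P.p) / 16)) P.p q) :
    P.GaloisRepUnramifiedAt q := by
  rw [← frey_shift_ab] at h
  exact unramifiedAt_of_shift _ _ _ _ _ _ h

/-- The Frey curve is unramified at `q` as soon as its second model is. -/
theorem frey_unramified_of_model_c (P : FreyPackage) (q : ℕ)
    (h : Point.GaloisRepUnramifiedAt (K := Qbar) ℚ
      (modelCurve (((P.a : ℚ) ^ P.p + (P.c : ℚ) ^ P.p) / 4)
        ((P.a : ℚ) ^ P.p * (P.c : ℚ) ^ P.p / 16)) P.p q) :
    P.GaloisRepUnramifiedAt q := by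
  rw [← frey_shift_c] at h
  exact unramifiedAt_of_shift _ _ _ _ _ _ h

end Frey

end Fermat.Agent.S05Lib.Shift

end
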