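/-
S05 support library (helper5): the arithmetic of the two models of the Frey curve at an odd
prime `q`, reducing `P.GaloisRepUnramifiedAt q` to two statements about the model curves
`y² = x³ + a₂ x² + a₄ x` with `q`-adic hypotheses on `a₂`, `a₄`.
-/
import Mathlib
import Fermat.Agent.Lib.S05.Shift

set_option autoImplicit false

open WeierstrassCurve WeierstrassCurve.Affine

noncomputable section

namespace Fermat.Agent.S05Lib.Shift

/-- Good reduction of `y² = x³ + a₂ x² + a₄ x` at the odd prime `q`: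
`a₂` is `q`-integral, `a₄` and `a₂² - 4 a₄` are `q`-units. -/
def IsGoodAt (q : ℕ) (a2 a4 : ℚ) : Prop :=
  0 ≤ padicValRat q a2 ∧ a4 ≠ 0 ∧ padicValRat q a4 = 0 ∧ a2 ^ 2 - 4 * a4 ≠ 0 ∧
    padicValRat q (a2 ^ 2 - 4 * a4) = 0

/-- Multiplicative reduction of `y² = x³ + a₂ x² + a₄ x` at the odd prime `q` with node at
`(0, 0)` and `p ∣ v_q(a₄)`: `a₂` is a `q`-unit and `v_q(a₄) = p k` with `k > 0`. -/
def IsMultAt (q p : ℕ) (a2 a4 : ℚ) : Prop :=
  a2 ≠ 0 ∧ padicValRat q a2 = 0 ∧ a4 ≠ 0 ∧ ∃ k : ℕ, 0 < k ∧ padicValRat q a4 = ((p * k : ℕ) : ℤ)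

section Arith

variable {q : ℕ} [hq : Fact q.Prime]

theorem frey_padicValRat_four (hq2 : q ≠ 2) : padicValRat q (4 : ℚ) = 0 := by
  have h : ¬ q ∣ 4 := by
    intro h
    have h2 : q ∣ 2 := by
      have : q ∣ 2 ^ 2 := by norm_num; exact h
      exact hq.out.dvd_of_dvd_pow this
    exact hq2 ((Nat.prime_dvd_prime_iff_eq hq.out Nat.prime_two).mp h2)
  have := padicValRat.of_nat (p := q) (n := 4)
  rw [padicValNat.eq_zero_of_not_dvd h] at this
  exact_mod_cast this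

theorem frey_padicValRat_sixteen (hq2 : q ≠ 2) : padicValRat q (16 : ℚ) = 0 := by
  have h : (16 : ℚ) = 4 * 4 := by norm_num
  rw [h, padicValRat.mul (by norm_num) (by norm_num), frey_padicValRat_four hq2, add_zero]

omit hq in
theorem frey_padicValRat_intCast_of_not_dvd {z : ℤ} (hz : ¬ (q : ℤ) ∣ z) :
    (z : ℚ) ≠ 0 ∧ padicValRat q (z : ℚ) = 0 := by
  refine ⟨?_, ?_⟩
  · intro h0
    apply hz
    have : z = 0 := by exact_mod_cast h0
    rw [this]
    exact dvd_zero _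
  · rw [padicValRat.of_int, padicValInt.eq_zero_of_not_dvd hz]
    rfl

theorem frey_padicValRat_pow_of_not_dvd {u : ℤ} (hu : ¬ (q : ℤ) ∣ u) (p : ℕ) :
    ((u : ℚ) ^ p) ≠ 0 ∧ padicValRat q ((u : ℚ) ^ p) = 0 := by
  obtain ⟨h0, h1⟩ := frey_padicValRat_intCast_of_not_dvd hu
  exact ⟨pow_ne_zero _ h0, by rw [padicValRat.pow, h1, mul_zero]⟩

theorem frey_padicValRat_pow_of_dvd {w : ℤ} (hw : (q : ℤ) ∣ w) (hw0 : w ≠ 0) (p : ℕ) :
    ((w : ℚ) ^ p) ≠ 0 ∧ ∃ k : ℕ, 0 < k ∧ padicValRat q ((w : ℚ) ^ p) = ((p * k : ℕ) : ℤ) := by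
  have h0 : (w : ℚ) ≠ 0 := by exact_mod_cast hw0
  refine ⟨pow_ne_zero _ h0, padicValInt q w, ?_, ?_⟩
  · have := (padicValInt_dvd_iff (p := q) 1 w).mp (by simpa using hw)
    rcases this with h | h
    · exact absurd h hw0
    · exact h
  · rw [padicValRat.pow, padicValRat.of_int]
    push_cast
    ring

theorem isMultAt_of (hq2 : q ≠ 2) (p : ℕ) {a2 a4 : ℚ} (z u w : ℤ) (hz : ¬ (q : ℤ) ∣ z)
    (hu : ¬ (q : ℤ) ∣ u) (hw : (q : ℤ) ∣ w) (hw0 : w ≠ 0) (h2 : 4 * a2 = z)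
    (h4 : 16 * a4 = (u : ℚ) ^ p * (w : ℚ) ^ p ∨ 16 * a4 = -((u : ℚ) ^ p * (w : ℚ) ^ p)) :
    IsMultAt q p a2 a4 := by
  obtain ⟨hz0, hzv⟩ := frey_padicValRat_intCast_of_not_dvd hz
  obtain ⟨hu0, huv⟩ := frey_padicValRat_pow_of_not_dvd hu p
  obtain ⟨hwp0, k, hk, hwv⟩ := frey_padicValRat_pow_of_dvd hw hw0 p
  have e2 : a2 = (z : ℚ) / 4 := by
    rw [← h2]; ring
  have hprod : padicValRat q ((u : ℚ) ^ p * (w : ℚ) ^ p) = ((p * k : ℕ) : ℤ) := by
    rw [padicValRat.mul hu0 hwp0, huv, hwv, zero_add]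
  have hprod0 : (u : ℚ) ^ p * (w : ℚ) ^ p ≠ 0 := mul_ne_zero hu0 hwp0
  refine ⟨?_, ?_, ?_, k, hk, ?_⟩
  · rw [e2]
    exact div_ne_zero hz0 (by norm_num)
  · rw [e2, padicValRat.div hz0 (by norm_num), hzv, frey_padicValRat_four hq2, sub_zero]
  · rcases h4 with h4 | h4
    · intro h0
      rw [h0, mul_zero] at h4
      exact hprod0 h4.symm
    · intro h0
      rw [h0, mul_zero] at h4
      exact hprod0 (neg_eq_zero.mp h4.symm)
  · rcases h4 with h4 | h4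
    · have e4 : a4 = (u : ℚ) ^ p * (w : ℚ) ^ p / 16 := by
        rw [← h4]; ring
      rw [e4, padicValRat.div hprod0 (by norm_num), hprod, frey_padicValRat_sixteen hq2,
        sub_zero]
    · have e4 : a4 = -((u : ℚ) ^ p * (w : ℚ) ^ p) / 16 := by
        rw [← h4]; ring
      rw [e4, padicValRat.div (neg_ne_zero.mpr hprod0) (by norm_num), padicValRat.neg, hprod,
        frey_padicValRat_sixteen hq2, sub_zero]

theorem isGoodAt_of (hq2 : q ≠ 2) (p : ℕ) {a2 a4 : ℚ} (z u w c : ℤ)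
    (hu : ¬ (q : ℤ) ∣ u) (hw : ¬ (q : ℤ) ∣ w) (hc : ¬ (q : ℤ) ∣ c) (h2 : 4 * a2 = z)
    (h4 : 16 * a4 = -((u : ℚ) ^ p * (w : ℚ) ^ p))
    (hd : 16 * (a2 ^ 2 - 4 * a4) = (c : ℚ) ^ p * (c : ℚ) ^ p) :
    IsGoodAt q a2 a4 := by
  obtain ⟨hu0, huv⟩ := frey_padicValRat_pow_of_not_dvd hu p
  obtain ⟨hw0, hwv⟩ := frey_padicValRat_pow_of_not_dvd hw p
  obtain ⟨hc0, hcv⟩ := frey_padicValRat_pow_of_not_dvd hc p
  have e2 : a2 = (z : ℚ) / 4 := by
    rw [← h2]; ring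
  have e4 : a4 = -((u : ℚ) ^ p * (w : ℚ) ^ p) / 16 := by
    rw [← h4]; ring
  have ed : a2 ^ 2 - 4 * a4 = (c : ℚ) ^ p * (c : ℚ) ^ p / 16 := by
    rw [← hd]; ring
  have hprod0 : (u : ℚ) ^ p * (w : ℚ) ^ p ≠ 0 := mul_ne_zero hu0 hw0
  have hcc0 : (c : ℚ) ^ p * (c : ℚ) ^ p ≠ 0 := mul_ne_zero hc0 hc0
  refine ⟨?_, ?_, ?_, ?_, ?_⟩
  · by_cases hz0 : (z : ℚ) = 0
    · rw [e2, hz0, zero_div, padicValRat.zero]
    · rw [e2, padicValRat.div hz0 (by norm_num), frey_padicValRat_four hq2, sub_zero,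
        padicValRat.of_int]
      exact_mod_cast Nat.zero_le _
  · rw [e4]
    exact div_ne_zero (neg_ne_zero.mpr hprod0) (by norm_num)
  · rw [e4, padicValRat.div (neg_ne_zero.mpr hprod0) (by norm_num), padicValRat.neg,
      padicValRat.mul hu0 hw0, huv, hwv, frey_padicValRat_sixteen hq2]
    norm_num
  · rw [ed]
    exact div_ne_zero hcc0 (by norm_num)
  · rw [ed, padicValRat.div hcc0 (by norm_num), padicValRat.mul hc0 hc0, hcv,
      frey_padicValRat_sixteen hq2]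
    norm_num

end Arith

section FreyCases

local notation "Qbar" => AlgebraicClosure ℚ

theorem frey_not_dvd_of_gcd {q : ℕ} (hq : q.Prime) {x y : ℤ} (hxy : gcd x y = 1)
    (hx : (q : ℤ) ∣ x) : ¬ (q : ℤ) ∣ y := by
  intro hy
  have h1 : (q : ℤ) ∣ gcd x y := dvd_gcd hx hy
  rw [hxy] at h1
  have h2 : q ∣ 1 := by exact_mod_cast h1
  exact hq.one_lt.ne' (Nat.dvd_one.mp h2)

theorem frey_not_dvd_pow {q : ℕ} (hq : q.Prime) {x : ℤ} (hx : ¬ (q : ℤ) ∣ x) (p : ℕ) :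
    ¬ (q : ℤ) ∣ x ^ p := fun h => hx ((Nat.prime_iff_prime_int.mp hq).dvd_of_dvd_pow h)

/-- The Frey arithmetic: `S05` follows from the good and the multiplicative statement about
the model curves. -/
theorem frey_unramified_of_models (P : FreyPackage) {q : ℕ} (hq : q.Prime) (hq2 : q ≠ 2)
    (hgood : ∀ a2 a4 : ℚ, IsGoodAt q a2 a4 →
      Point.GaloisRepUnramifiedAt (K := Qbar) ℚ (modelCurve a2 a4) P.p q)
    (hmult : ∀ a2 a4 : ℚ, IsMultAt q P.p a2 a4 →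
      Point.GaloisRepUnramifiedAt (K := Qbar) ℚ (modelCurve a2 a4) P.p q) :
    P.GaloisRepUnramifiedAt q := by
  have : Fact q.Prime := ⟨hq⟩
  have hFLT : (P.a : ℚ) ^ P.p + (P.b : ℚ) ^ P.p = (P.c : ℚ) ^ P.p := by
    exact_mod_cast P.hFLT
  have hp0 : P.p ≠ 0 := P.hp0
  by_cases hc : (q : ℤ) ∣ P.c
  · -- `q ∣ c`: second model, multiplicative
    have ha : ¬ (q : ℤ) ∣ P.a := by
      have hgcd : gcd P.c P.a = 1 := by rw [gcd_comm]; exact P.hgcdac
      exact frey_not_dvd_of_gcd hq hgcd hc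
    apply Shift.frey_unramified_of_model_c
    apply hmult
    refine isMultAt_of hq2 P.p (P.a ^ P.p + P.c ^ P.p) P.a P.c ?_ ha hc P.hc0 ?_ ?_
    · intro h
      have h1 : (q : ℤ) ∣ P.c ^ P.p := dvd_pow hc hp0
      exact frey_not_dvd_pow hq ha P.p ((dvd_add_left h1).mp h)
    · push_cast; ring
    · left; ring
  · apply Shift.frey_unramified_of_model_ab
    by_cases ha : (q : ℤ) ∣ P.a
    · -- `q ∣ a`: first model, multiplicative
      have hb : ¬ (q : ℤ) ∣ P.b := frey_not_dvd_of_gcd hq P.hgcdab ha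
      apply hmult
      refine isMultAt_of hq2 P.p (P.b ^ P.p - P.a ^ P.p) P.b P.a ?_ hb ha P.ha0 ?_ ?_
      · intro h
        have h1 : (q : ℤ) ∣ P.a ^ P.p := dvd_pow ha hp0
        exact frey_not_dvd_pow hq hb P.p ((dvd_sub_left h1).mp h)
      · push_cast; ring
      · right; ring
    · by_cases hb : (q : ℤ) ∣ P.b
      · -- `q ∣ b`: first model, multiplicative
        apply hmult
        refine isMultAt_of hq2 P.p (P.b ^ P.p - P.a ^ P.p) P.a P.b ?_ ha hb P.hb0 ?_ ?_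
        · intro h
          have h1 : (q : ℤ) ∣ P.b ^ P.p := dvd_pow hb hp0
          exact frey_not_dvd_pow hq ha P.p ((dvd_sub_right h1).mp h)
        · push_cast; ring
        · right; ring
      · -- good reduction
        apply hgood
        refine isGoodAt_of hq2 P.p (P.b ^ P.p - P.a ^ P.p) P.a P.b P.c ha hb hc ?_ ?_ ?_
        · push_cast; ring
        · ring
        · rw [← hFLT]; ring

end FreyCases

end Fermat.Agent.S05Lib.Shift

end
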