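/-
S05, chunk C2 (helper9): elements of the inertia subgroup of a valuation subring `A` of an
algebraic extension `L/K` preserve the valuation of `A` and move integral elements only inside
their residue class.
-/
import Mathlib
import Fermat.Prelude.Def_FLTPrelim_Ramification

set_option autoImplicit false

namespace Fermat.Agent.S05Lib

open scoped Pointwise

variable {K L : Type*} [Field K] [Field L] [Algebra K L]

/-- Elements of the decomposition group preserve membership in `A`. -/
theorem inertia_mem_iff {A : ValuationSubring L} {σ : L ≃ₐ[K] L}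
    (hσ : σ ∈ A.decompositionSubgroup K) (x : L) : σ x ∈ A ↔ x ∈ A := by
  have h1 : σ • A = A := hσ
  have h3 : σ x ∈ σ • A ↔ x ∈ A := ValuationSubring.smul_mem_pointwise_smul_iff (g := σ)
  rw [h1] at h3
  exact h3

theorem inertia_valuation_le_iff {A : ValuationSubring L} {σ : L ≃ₐ[K] L}
    (hσ : σ ∈ A.decompositionSubgroup K) (x y : L) :
    A.valuation (σ x) ≤ A.valuation (σ y) ↔ A.valuation x ≤ A.valuation y := by
  by_cases hy : y = 0
  · subst hy
    simp [map_zero]
  · have hσy : σ y ≠ 0 := by simpa using hy
    have h1 : A.valuation (σ x) ≤ A.valuation (σ y) ↔ σ (x / y) ∈ A := by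
      rw [← A.valuation_le_one_iff, map_div₀, map_div₀, div_le_one₀]
      exact lt_of_le_of_ne zero_le' (Ne.symm (by simpa using hσy))
    have h2 : A.valuation x ≤ A.valuation y ↔ x / y ∈ A := by
      rw [← A.valuation_le_one_iff, map_div₀, div_le_one₀]
      exact lt_of_le_of_ne zero_le' (Ne.symm (by simpa using hy))
    rw [h1, h2, inertia_mem_iff hσ]

theorem inertia_exists_pow_fixed [Algebra.IsAlgebraic K L] (σ : L ≃ₐ[K] L) (x : L) :
    ∃ n : ℕ, 0 < n ∧ (σ ^ n) x = x := by
  classical
  have hfin : ((minpoly K x).rootSet L).Finite := Polynomial.rootSet_finite _ _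
  have hmem : ∀ n : ℕ, (σ ^ n) x ∈ (minpoly K x).rootSet L := by
    intro n
    rw [Polynomial.mem_rootSet]
    refine ⟨minpoly.ne_zero (Algebra.IsIntegral.isIntegral x), ?_⟩
    have : Polynomial.aeval ((σ ^ n) x) (minpoly K x) =
        (σ ^ n) (Polynomial.aeval x (minpoly K x)) := by
      rw [← Polynomial.aeval_algHom_apply]
    rw [this, minpoly.aeval, map_zero]
  obtain ⟨i, j, hij, h⟩ : ∃ i j : ℕ, i ≠ j ∧ (σ ^ i) x = (σ ^ j) x := by
    by_contra hcon
    push_neg at hcon
    have hinj : Function.Injective (fun n : ℕ => (σ ^ n) x) := by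
      intro i j hij
      by_contra hne
      exact hcon i j hne hij
    have : (Set.range (fun n : ℕ => (σ ^ n) x)).Infinite := Set.infinite_range_of_injective hinj
    exact this (hfin.subset (by rintro _ ⟨n, rfl⟩; exact hmem n))
  wlog hlt : i < j generalizing i j
  · exact this j i hij.symm h.symm (lt_of_le_of_ne (not_lt.mp hlt) hij.symm)
  refine ⟨j - i, Nat.sub_pos_of_lt hlt, ?_⟩
  have hj : j = i + (j - i) := by omega
  rw [hj, pow_add] at h
  have h2 : (σ ^ i) x = (σ ^ i) ((σ ^ (j - i)) x) := h
  exact ((σ ^ i).injective h2).symm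

/-- Elements of the decomposition group of `A` preserve the valuation of `A`
(the extension being algebraic). -/
theorem valuation_apply_of_mem_decomposition [Algebra.IsAlgebraic K L] {A : ValuationSubring L}
    {σ : L ≃ₐ[K] L} (hσ : σ ∈ A.decompositionSubgroup K) (x : L) :
    A.valuation (σ x) = A.valuation x := by
  obtain ⟨n, hn, hx⟩ := inertia_exists_pow_fixed σ x
  have hle : ∀ a b : L, A.valuation (σ a) ≤ A.valuation (σ b) ↔ A.valuation a ≤ A.valuation b :=
    inertia_valuation_le_iff hσ
  have hlt : ∀ a b : L, A.valuation (σ a) < A.valuation (σ b) ↔ A.valuation a < A.valuation b := by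
    intro a b
    rw [← not_le, ← not_le, hle]
  have hpow : ∀ m : ℕ, (σ ^ (m + 1)) x = σ ((σ ^ m) x) := by
    intro m
    rw [pow_succ']
    rfl
  rcases lt_trichotomy (A.valuation (σ x)) (A.valuation x) with h | h | h
  · exfalso
    have key : ∀ m : ℕ, A.valuation ((σ ^ (m + 1)) x) < A.valuation x := by
      intro m
      induction m with
      | zero => simpa using h
      | succ k ih =>
        rw [hpow (k + 1)]
        have : A.valuation (σ ((σ ^ (k + 1)) x)) < A.valuation (σ x) := (hlt _ _).mpr ih
        exact this.trans h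
    have := key (n - 1)
    rw [Nat.sub_add_cancel hn, hx] at this
    exact lt_irrefl _ this
  · exact h
  · exfalso
    have key : ∀ m : ℕ, A.valuation x < A.valuation ((σ ^ (m + 1)) x) := by
      intro m
      induction m with
      | zero => simpa using h
      | succ k ih =>
        rw [hpow (k + 1)]
        have : A.valuation (σ x) < A.valuation (σ ((σ ^ (k + 1)) x)) := (hlt _ _).mpr ih
        exact h.trans this
    have := key (n - 1)
    rw [Nat.sub_add_cancel hn, hx] at this
    exact lt_irrefl _ this

theorem mem_decomposition_of_mem_inertiaSubgroupIn {A : ValuationSubring L} {σ : L ≃ₐ[K] L}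
    (hσ : σ ∈ A.inertiaSubgroupIn K) : σ ∈ A.decompositionSubgroup K := by
  obtain ⟨g, _, rfl⟩ := hσ
  exact g.2

/-- Elements of the inertia group preserve the valuation. -/
theorem valuation_apply_of_mem_inertia [Algebra.IsAlgebraic K L] {A : ValuationSubring L}
    {σ : L ≃ₐ[K] L} (hσ : σ ∈ A.inertiaSubgroupIn K) (x : L) :
    A.valuation (σ x) = A.valuation x :=
  valuation_apply_of_mem_decomposition (mem_decomposition_of_mem_inertiaSubgroupIn hσ) x

/-- Elements of the inertia group move integral elements inside their residue class. -/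
theorem valuation_apply_sub_lt_one_of_mem_inertia {A : ValuationSubring L} {σ : L ≃ₐ[K] L}
    (hσ : σ ∈ A.inertiaSubgroupIn K) {x : L} (hx : A.valuation x ≤ 1) :
    A.valuation (σ x - x) < 1 := by
  obtain ⟨g, hg, rfl⟩ := hσ
  rw [A.valuation_le_one_iff] at hx
  have hker : MulSemiringAction.toRingAut (A.decompositionSubgroup K)
      (IsLocalRing.ResidueField A) g = 1 := hg
  have h1 : g • IsLocalRing.residue A ⟨x, hx⟩ = IsLocalRing.residue A ⟨x, hx⟩ := by
    have := congrArg (fun f => f (IsLocalRing.residue A ⟨x, hx⟩)) hker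
    exact this
  rw [← IsLocalRing.ResidueField.residue_smul] at h1
  have h2 : g • (⟨x, hx⟩ : A) - ⟨x, hx⟩ ∈ IsLocalRing.maximalIdeal A := by
    rw [← Ideal.Quotient.eq]
    exact h1
  rw [A.valuation_lt_one_iff] at h2
  exact h2

end Fermat.Agent.S05Lib
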