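/-
S05 chunk A, interface form (helper2): the kernel of reduction `E1` of a short integral curve
`y² = x³ + a₂x² + a₄x` is a subgroup without `m`-torsion for `v m = 1` (F2).
Adapters from `Lib/S05/Kernel.lean` (literal curve `Ker.Cv a2 a4`) to the predicates of
`Lib/S05/Defs.lean`.
-/
import Fermat.Agent.Lib.S05.Defs
import Fermat.Agent.Lib.S05.Kernel

set_option autoImplicit false

namespace Fermat.Agent.S05Lib

open WeierstrassCurve

variable {F : Type*} [Field F] [DecidableEq F] {Γ₀ : Type*} [LinearOrderedCommGroupWithZero Γ₀]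
  {v : Valuation F Γ₀} {W : WeierstrassCurve.Affine F}

omit [DecidableEq F] in
/-- `IsE1` on the literal curve is the predicate `Ker.InE1`. -/
theorem kerRed_isE1_iff (a2 a4 : F) (P : (Ker.Cv a2 a4).Point) :
    IsE1 v P ↔ Ker.InE1 v a2 a4 P := by
  cases P with
  | zero => exact ⟨fun _ => Ker.inE1_zero v a2 a4, fun _ => trivial⟩
  | some x y h => exact (Ker.inE1_some v a2 a4 h).symm

theorem IsE1.neg (hW : IsShort W) {P : W.Point} (hP : IsE1 v P) : IsE1 v (-P) := by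
  obtain ⟨h1, h3, h6⟩ := hW
  obtain ⟨a1, a2, a3, a4, a6⟩ := W
  simp only at h1 h3 h6
  subst h1 h3 h6
  exact (kerRed_isE1_iff a2 a4 _).mpr (Ker.inE1_neg v a2 a4 ((kerRed_isE1_iff a2 a4 P).mp hP))

theorem IsE1.add (hW : IsIntegralShort v W) {P Q : W.Point} (hP : IsE1 v P) (hQ : IsE1 v Q) :
    IsE1 v (P + Q) := by
  obtain ⟨⟨h1, h3, h6⟩, ha2, ha4⟩ := hW
  obtain ⟨a1, a2, a3, a4, a6⟩ := W
  simp only at h1 h3 h6 ha2 ha4
  subst h1 h3 h6
  exact (kerRed_isE1_iff a2 a4 _).mpr (Ker.inE1_add v a2 a4 ha2 ha4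
    ((kerRed_isE1_iff a2 a4 P).mp hP) ((kerRed_isE1_iff a2 a4 Q).mp hQ))

/-- (F2) no prime-to-residue-characteristic torsion in the kernel of reduction. -/
theorem eq_zero_of_isE1_of_nsmul_eq_zero (hW : IsIntegralShort v W) {P : W.Point}
    (hP : IsE1 v P) {m : ℕ} (hm : v (m : F) = 1) (hmP : m • P = 0) : P = 0 := by
  obtain ⟨⟨h1, h3, h6⟩, ha2, ha4⟩ := hW
  obtain ⟨a1, a2, a3, a4, a6⟩ := W
  simp only at h1 h3 h6 ha2 ha4
  subst h1 h3 h6
  exact Ker.inE1_torsion_free v a2 a4 ha2 ha4 m hm P ((kerRed_isE1_iff a2 a4 P).mp hP) hmP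

end Fermat.Agent.S05Lib
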