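import Fermat.Agent.Lib.S05.LevelT0
import Fermat.Agent.Lib.S05.Defs

/-!
# S05, chunk B: the level homomorphism and its consequences

* `Lvl.lv_add` : the level relation `Lv` is additive;
* `level_pow_eq` (L1), `isE0_sub_of_same_level` (L2), `isE0_add_T0` (I1) in the interface form.
-/

set_option autoImplicit false
set_option linter.unusedSectionVars false

open WeierstrassCurve

namespace Fermat.Agent.S05Lib.Lvl

variable {K : Type*} [Field K] [DecidableEq K] {Γ₀ : Type*} [LinearOrderedCommGroupWithZero Γ₀]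
variable {a2 a4 : K} (v : Valuation K Γ₀) {s : K}

section pairs

variable {v}
variable (H : Hyp v a2 a4 s) {x1 y1 x2 y2 : K} (h1 : (Cv a2 a4).Nonsingular x1 y1)
  (h2 : (Cv a2 a4).Nonsingular x2 y2) {γ δ : Γ₀}

include H

lemma L_E0_E0 (hv1 : 1 ≤ v x1) (hγ : Eqv (v a4) γ 1) (hv2 : 1 ≤ v x2) (hδ : Eqv (v a4) δ 1) :
    Lv v s (Affine.Point.some x1 y1 h1 + Affine.Point.some x2 y2 h2) (γ * δ) := by
  have hE : Eqv (v a4) (γ * δ) 1 := by simpa using hγ.mul H.va4_ne hδ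
  rcases core1 v H h1 h2 hv1 hv2 with h0 | ⟨x3, y3, h3, hsum, hv3⟩
  · rw [h0]; exact hE
  · rw [hsum]; exact Or.inl ⟨hv3, hE⟩

lemma L_E0_p (hv1 : 1 ≤ v x1) (hγ : Eqv (v a4) γ 1)
    (hl2 : v a4 < v x2) (hu2 : v x2 < 1) (hb2 : v (y2 / x2 - s) < 1)
    (hδ : Eqv (v a4) δ (v x2)) :
    Lv v s (Affine.Point.some x1 y1 h1 + Affine.Point.some x2 y2 h2) (γ * δ) :=
  (core2 v H h1 h2 hv1 hl2 hu2 hb2).congr v H (by simpa using hγ.mul H.va4_ne hδ)

lemma L_E0_m (hv1 : 1 ≤ v x1) (hγ : Eqv (v a4) γ 1)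
    (hl2 : v a4 < v x2) (hu2 : v x2 < 1) (hb2 : v (y2 / x2 + s) < 1)
    (hδ : Eqv (v a4) δ (v x2)⁻¹) :
    Lv v s (Affine.Point.some x1 y1 h1 + Affine.Point.some x2 y2 h2) (γ * δ) := by
  have h := core2 v H.neg h1 h2 hv1 hl2 hu2 (by rwa [sub_neg_eq_add])
  have h' := h.flip v H.neg
  rw [neg_neg] at h'
  exact h'.congr v H (by simpa using hγ.mul H.va4_ne hδ)

lemma L_p_p (hl1 : v a4 < v x1) (hu1 : v x1 < 1) (hb1 : v (y1 / x1 - s) < 1)
    (hγ : Eqv (v a4) γ (v x1))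
    (hl2 : v a4 < v x2) (hu2 : v x2 < 1) (hb2 : v (y2 / x2 - s) < 1)
    (hδ : Eqv (v a4) δ (v x2)) :
    Lv v s (Affine.Point.some x1 y1 h1 + Affine.Point.some x2 y2 h2) (γ * δ) :=
  (core3 v H h1 h2 hl1 hu1 hb1 hl2 hu2 hb2).congr v H (hγ.mul H.va4_ne hδ)

lemma L_m_m (hl1 : v a4 < v x1) (hu1 : v x1 < 1) (hb1 : v (y1 / x1 + s) < 1)
    (hγ : Eqv (v a4) γ (v x1)⁻¹)
    (hl2 : v a4 < v x2) (hu2 : v x2 < 1) (hb2 : v (y2 / x2 + s) < 1)
    (hδ : Eqv (v a4) δ (v x2)⁻¹) :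
    Lv v s (Affine.Point.some x1 y1 h1 + Affine.Point.some x2 y2 h2) (γ * δ) := by
  have h := core3 v H.neg h1 h2 hl1 hu1 (by rwa [sub_neg_eq_add]) hl2 hu2
    (by rwa [sub_neg_eq_add])
  have h' := h.flip v H.neg
  rw [neg_neg, mul_inv] at h'
  exact h'.congr v H (hγ.mul H.va4_ne hδ)

lemma L_p_m (hl1 : v a4 < v x1) (hu1 : v x1 < 1) (hb1 : v (y1 / x1 - s) < 1)
    (hγ : Eqv (v a4) γ (v x1))
    (hl2 : v a4 < v x2) (hu2 : v x2 < 1) (hb2 : v (y2 / x2 + s) < 1)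
    (hδ : Eqv (v a4) δ (v x2)⁻¹) :
    Lv v s (Affine.Point.some x1 y1 h1 + Affine.Point.some x2 y2 h2) (γ * δ) := by
  have hE := hγ.mul H.va4_ne hδ
  rcases lt_trichotomy (v x2) (v x1) with hlt | heq | hgt
  · exact (core4_lt v H h1 h2 hu1 hb1 hl2 hb2 hlt).congr v H hE
  · have hE1 : Eqv (v a4) (γ * δ) 1 := by
      rw [heq, mul_inv_cancel₀ (H.va4_pos.trans hl1).ne'] at hE
      exact hE
    rcases core4_eq v H h1 h2 hl1 hb1 hb2 heq with h0 | ⟨x3, y3, h3, hsum, hv3⟩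
    · rw [h0]; exact hE1
    · rw [hsum]; exact Or.inl ⟨hv3, hE1⟩
  · rw [add_comm]
    have h := core4_lt v H.neg h2 h1 hu2 (by rwa [sub_neg_eq_add]) hl1
      (by rwa [← sub_eq_add_neg]) hgt
    have h' := h.flip v H.neg
    rw [neg_neg, mul_inv, inv_inv, mul_comm] at h'
    exact h'.congr v H hE

end pairs

/-- Additivity of the level for points not reducing into the node or deeper. -/
theorem lv_add_low (H : Hyp v a2 a4 s) {P Q : (Cv a2 a4).Point} {γ δ : Γ₀}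
    (hP : Lv v s P γ) (hQ : Lv v s Q δ) (lP : IsLow v P) (lQ : IsLow v Q) :
    Lv v s (P + Q) (γ * δ) := by
  have ha := H.va4_ne
  cases P with
  | zero =>
    have hP' : Eqv (v a4) γ 1 := hP
    rw [show (Affine.Point.zero : (Cv a2 a4).Point) = 0 from rfl, zero_add]
    exact hQ.congr v H (by simpa using Eqv.mul ha hP' (Eqv.rfl' _ δ))
  | some x1 y1 h1 =>
    cases Q with
    | zero =>
      have hQ' : Eqv (v a4) δ 1 := hQ
      rw [show (Affine.Point.zero : (Cv a2 a4).Point) = 0 from rfl, add_zero]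
      exact hP.congr v H (by simpa using Eqv.mul ha (Eqv.rfl' _ γ) hQ')
    | some x2 y2 h2 =>
      have lP' : v a4 < v x1 := lP
      have lQ' : v a4 < v x2 := lQ
      rcases hP with ⟨p1, p2⟩ | ⟨p1, p2, p3, p4⟩ | ⟨p1, p2, p3, p4⟩ | ⟨p1, p2⟩
      · rcases hQ with ⟨q1, q2⟩ | ⟨q1, q2, q3, q4⟩ | ⟨q1, q2, q3, q4⟩ | ⟨q1, q2⟩
        · exact L_E0_E0 H h1 h2 p1 p2 q1 q2
        · exact L_E0_p H h1 h2 p1 p2 q1 q2 q3 q4
        · exact L_E0_m H h1 h2 p1 p2 q1 q2 q3 q4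
        · exact absurd lQ' (not_lt.mpr q1)
      · rcases hQ with ⟨q1, q2⟩ | ⟨q1, q2, q3, q4⟩ | ⟨q1, q2, q3, q4⟩ | ⟨q1, q2⟩
        · rw [add_comm, mul_comm]
          exact L_E0_p H h2 h1 q1 q2 p1 p2 p3 p4
        · exact L_p_p H h1 h2 p1 p2 p3 p4 q1 q2 q3 q4
        · exact L_p_m H h1 h2 p1 p2 p3 p4 q1 q2 q3 q4
        · exact absurd lQ' (not_lt.mpr q1)
      · rcases hQ with ⟨q1, q2⟩ | ⟨q1, q2, q3, q4⟩ | ⟨q1, q2, q3, q4⟩ | ⟨q1, q2⟩
        · rw [add_comm, mul_comm]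
          exact L_E0_m H h2 h1 q1 q2 p1 p2 p3 p4
        · rw [add_comm, mul_comm]
          exact L_p_m H h2 h1 q1 q2 q3 q4 p1 p2 p3 p4
        · exact L_m_m H h1 h2 p1 p2 p3 p4 q1 q2 q3 q4
        · exact absurd lQ' (not_lt.mpr q1)
      · exact absurd lP' (not_lt.mpr p1)

lemma Eqv.mul_sq {a : Γ₀} (ha : a ≠ 0) (γ : Γ₀) : Eqv a γ (γ * (a * a)) := by
  refine ⟨-1, ?_⟩
  rw [show (2 : ℤ) * -1 = -1 + -1 by norm_num, zpow_add₀ ha, zpow_neg_one]
  field_simp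

/-- Additivity of the level. -/
theorem lv_add (H : Hyp v a2 a4 s) {P Q : (Cv a2 a4).Point} {γ δ : Γ₀}
    (hP : Lv v s P γ) (hQ : Lv v s Q δ) : Lv v s (P + Q) (γ * δ) := by
  have ha := H.va4_ne
  have hTT := T0_add_T0 (a2 := a2) H.ha40
  rcases low_or v H P with lP | lP <;> rcases low_or v H Q with lQ | lQ
  · exact lv_add_low v H hP hQ lP lQ
  · have h := (lv_add_low v H hP (hQ.add_T0 v H) lP lQ).add_T0 v H
    have e : P + (Q + T0 H.ha40) + T0 H.ha40 = P + Q := by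
      rw [add_assoc, add_assoc, hTT, add_zero]
    rw [e] at h
    refine h.congr v H ?_
    have := Eqv.mul_sq ha (γ * δ)
    convert this using 1
    ac_rfl
  · have h := (lv_add_low v H (hP.add_T0 v H) hQ lP lQ).add_T0 v H
    have e : P + T0 H.ha40 + Q + T0 H.ha40 = P + Q := by
      rw [add_right_comm P, add_assoc, hTT, add_zero]
    rw [e] at h
    refine h.congr v H ?_
    have := Eqv.mul_sq ha (γ * δ)
    convert this using 1
    ac_rfl
  · have h := lv_add_low v H (hP.add_T0 v H) (hQ.add_T0 v H) lP lQ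
    have e : P + T0 H.ha40 + (Q + T0 H.ha40) = P + Q := by
      rw [add_add_add_comm, hTT, add_zero]
    rw [e] at h
    refine h.congr v H ?_
    have := Eqv.mul_sq ha (γ * δ)
    convert this using 1
    ac_rfl

/-- Level of multiples. -/
theorem lv_nsmul (H : Hyp v a2 a4 s) {P : (Cv a2 a4).Point} {γ : Γ₀} (hP : Lv v s P γ)
    (n : ℕ) : Lv v s (n • P) (γ ^ n) := by
  induction n with
  | zero =>
    rw [zero_smul, pow_zero]
    exact Eqv.rfl' (v a4) 1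
  | succ k ih =>
    rw [succ_nsmul, pow_succ]
    exact lv_add v H ih hP

/-- The standing hypotheses hold with `s = y/x` for a point of intermediate level. -/
lemma hyp_of_point (h2 : v 2 = 1) (ha2 : v a2 = 1) (ha4 : v a4 < 1) (ha40 : a4 ≠ 0)
    {x y : K} (h : (Cv a2 a4).Nonsingular x y) (hx1 : v x < 1) (hx2 : v a4 < v x) :
    Hyp v a2 a4 (y / x) := by
  have hx0 : x ≠ 0 := ne_zero_of_lt v hx2
  refine ⟨h2, ha2, ha4, ha40, ?_⟩
  have e : (y / x) ^ 2 - a2 = x + a4 / x := by rw [t_sq h.1 hx0]; ring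
  rw [e]
  refine v.map_add_lt hx1 ?_
  rw [map_div₀, div_lt_one₀ (zero_lt_iff.mpr ((Valuation.ne_zero_iff v).mpr hx0))]
  exact hx2

/-- (L1) for the literal curve. -/
theorem level_pow (h2 : v 2 = 1) (ha2 : v a2 = 1) (ha4 : v a4 < 1) (ha40 : a4 ≠ 0)
    {x y : K} (h : (Cv a2 a4).Nonsingular x y) (hx1 : v x < 1) (hx2 : v a4 < v x) (n : ℕ)
    (hn : n • Affine.Point.some x y h = 0) : ∃ m : ℕ, v x ^ n = v a4 ^ (2 * m) := by
  have H := hyp_of_point v h2 ha2 ha4 ha40 h hx1 hx2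
  have hP : Lv v (y / x) (Affine.Point.some x y h) (v x) :=
    Or.inr (Or.inl ⟨hx2, hx1, by rw [sub_self, map_zero]; exact zero_lt_one, Eqv.rfl' _ _⟩)
  have hn' := lv_nsmul v H hP n
  rw [hn] at hn'
  obtain ⟨j, hj⟩ : Eqv (v a4) (v x ^ n) 1 := hn'
  rw [one_mul] at hj
  have hle : v x ^ n ≤ 1 := Right.pow_le_one_of_le hx1.le
  rw [hj] at hle
  have hj0 : 0 ≤ 2 * j := (zpow_le_one_iff_right_of_lt_one₀ H.va4_pos ha4).mp hle
  refine ⟨j.toNat, ?_⟩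
  rw [hj, ← zpow_natCast]
  congr 1
  push_cast
  omega

/-- (L2) for the literal curve. -/
theorem same_level (h2 : v 2 = 1) (ha2 : v a2 = 1) (ha4 : v a4 < 1) (ha40 : a4 ≠ 0)
    {x1 y1 x2 y2 : K} (h1 : (Cv a2 a4).Nonsingular x1 y1) (h2' : (Cv a2 a4).Nonsingular x2 y2)
    (hx1 : v x1 < 1) (hx2 : v a4 < v x1) (hlev : v x2 = v x1)
    (hbr : v (y1 / x1 - y2 / x2) < 1) :
    Affine.Point.some x1 y1 h1 - Affine.Point.some x2 y2 h2' = 0 ∨
    ∃ (x3 y3 : K) (h3 : (Cv a2 a4).Nonsingular x3 y3),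
      Affine.Point.some x1 y1 h1 - Affine.Point.some x2 y2 h2' = Affine.Point.some x3 y3 h3 ∧
        1 ≤ v x3 := by
  have H := hyp_of_point v h2 ha2 ha4 ha40 h1 hx1 hx2
  rw [sub_eq_add_neg, Affine.Point.neg_some]
  refine core4_eq v H h1 _ hx2 (by rw [sub_self, map_zero]; exact zero_lt_one) ?_ hlev
  rw [negY_eq]
  have e : -y2 / x2 + y1 / x1 = y1 / x1 - y2 / x2 := by ring
  rw [e]
  exact hbr

end Fermat.Agent.S05Lib.Lvl

namespace Fermat.Agent.S05Lib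

open Lvl

variable {F : Type*} [Field F] [DecidableEq F] {Γ₀ : Type*} [LinearOrderedCommGroupWithZero Γ₀]
  {v : Valuation F Γ₀} {W : WeierstrassCurve.Affine F}

lemma level_exists_lit (hW : IsShort W) : ∃ a2 a4 : F, W = Cv a2 a4 :=
  ⟨W.a₂, W.a₄, by
    ext
    · exact hW.a₁
    · rfl
    · exact hW.a₃
    · rfl
    · exact hW.a₆⟩

/-- (I1) points reducing to the node or deeper are translated into `E0` by `T0 = (0,0)`. -/
theorem isE0_add_T0 (hM : IsMult v W) {x y : F} (h : W.Nonsingular x y) (hx : v x ≤ v W.a₄)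
    (h0 : W.Nonsingular 0 0) :
    IsE0 v (Affine.Point.some x y h + Affine.Point.some 0 0 h0) := by
  obtain ⟨a2, a4, rfl⟩ := level_exists_lit hM.short
  have ha40 : a4 ≠ 0 := hM.a₄_ne
  rcases isE0_add_T0' v ha40 h hx with h' | ⟨x', y', h', hsum, hv⟩
  · have : Affine.Point.some x y h + Affine.Point.some 0 0 h0 = 0 := h'
    rw [this]
    trivial
  · have : Affine.Point.some x y h + Affine.Point.some 0 0 h0 = Affine.Point.some x' y' h' := hsum
    rw [this]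
    exact hv

/-- (L1) integrality of the level of a torsion point. -/
theorem level_pow_eq (hM : IsMult v W) {x y : F} (h : W.Nonsingular x y) (hx1 : v x < 1)
    (hx2 : v W.a₄ < v x) (n : ℕ) (hn : n • Affine.Point.some x y h = 0) :
    ∃ m : ℕ, v x ^ n = v W.a₄ ^ (2 * m) := by
  obtain ⟨a2, a4, rfl⟩ := level_exists_lit hM.short
  exact level_pow v hM.two hM.a₂ hM.a₄ hM.a₄_ne h hx1 hx2 n hn

/-- (L2) same level and same branch: the difference lies in `E0`. -/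
theorem isE0_sub_of_same_level (hM : IsMult v W) {x₁ y₁ x₂ y₂ : F} (h₁ : W.Nonsingular x₁ y₁)
    (h₂ : W.Nonsingular x₂ y₂) (hx1 : v x₁ < 1) (hx2 : v W.a₄ < v x₁) (hlev : v x₂ = v x₁)
    (hbr : v (y₁ / x₁ - y₂ / x₂) < 1) :
    IsE0 v (Affine.Point.some x₁ y₁ h₁ - Affine.Point.some x₂ y₂ h₂) := by
  obtain ⟨a2, a4, rfl⟩ := level_exists_lit hM.short
  rcases same_level v hM.two hM.a₂ hM.a₄ hM.a₄_ne h₁ h₂ hx1 hx2 hlev hbr with
    h' | ⟨x3, y3, h3, hsum, hv⟩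
  · rw [h']
    trivial
  · rw [hsum]
    exact hv

end Fermat.Agent.S05Lib
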