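import Mathlib

/-!
# S05, chunk B (core): level calculus on `y² = x³ + a₂x² + a₄x` with multiplicative reduction

Pure Mathlib.  Everything is stated for an arbitrary valuation `v : Valuation K Γ₀`
(multiplicative notation: `v x < 1` means positive additive valuation).
-/

set_option autoImplicit false
set_option linter.unusedSectionVars false

open WeierstrassCurve

namespace Fermat.Agent.S05Lib.Lvl

variable {K : Type*} [Field K]

/-- The curve `y² = x³ + a₂x² + a₄x`. -/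
abbrev Cv (a2 a4 : K) : WeierstrassCurve.Affine K := ⟨0, a2, 0, a4, 0⟩

section algebra

variable {a2 a4 : K}

lemma eqn_iff (x y : K) : (Cv a2 a4).Equation x y ↔ y ^ 2 = x ^ 3 + a2 * x ^ 2 + a4 * x := by
  rw [Affine.equation_iff]
  simp

lemma negY_eq (x y : K) : (Cv a2 a4).negY x y = -y := by
  simp [Affine.negY]

/-- chord case, the two relations for `w`. -/
lemma chord_rel {x1 y1 x2 y2 : K} (hx1 : x1 ≠ 0) (hx2 : x2 ≠ 0) (hne : x1 ≠ x2)
    (h1 : y1 ^ 2 = x1 ^ 3 + a2 * x1 ^ 2 + a4 * x1)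
    (h2 : y2 ^ 2 = x2 ^ 3 + a2 * x2 ^ 2 + a4 * x2) :
    let μ := (y1 - y2) / (x1 - x2)
    let w := (μ - y1 / x1) / x2
    w * (x1 - x2) = y1 / x1 - y2 / x2 ∧
    w * (x1 * x2 * (y1 / x1 + y2 / x2)) = x1 * x2 - a4 ∧
    μ ^ 2 - a2 - x1 - x2 = x1 * x2 * w ^ 2 := by
  intro μ w
  have hd : x1 - x2 ≠ 0 := sub_ne_zero.mpr hne
  obtain ⟨t1, rfl⟩ : ∃ t1, y1 = x1 * t1 := ⟨y1 / x1, by field_simp⟩
  obtain ⟨t2, rfl⟩ : ∃ t2, y2 = x2 * t2 := ⟨y2 / x2, by field_simp⟩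
  have e1 : a4 = x1 * t1 ^ 2 - x1 ^ 2 - a2 * x1 := by
    apply mul_left_cancel₀ hx1
    linear_combination -h1
  have e2 : a4 = x2 * t2 ^ 2 - x2 ^ 2 - a2 * x2 := by
    apply mul_left_cancel₀ hx2
    linear_combination -h2
  have e3 : a2 = (x1 * t1 ^ 2 - x1 ^ 2 - x2 * t2 ^ 2 + x2 ^ 2) / (x1 - x2) := by
    rw [eq_div_iff hd]
    linear_combination e1 - e2
  subst e3
  refine ⟨?_, ?_, ?_⟩
  · simp only [w, μ]
    field_simp
    ring
  · rw [e1]
    simp only [w, μ]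
    field_simp
    ring
  · simp only [w, μ]
    field_simp
    ring

/-- tangent case, the relations for `w`. -/
lemma tangent_rel {x y : K} (hx : x ≠ 0) (hy : y ≠ -y)
    (h1 : y ^ 2 = x ^ 3 + a2 * x ^ 2 + a4 * x) :
    let μ := (3 * x ^ 2 + 2 * a2 * x + a4) / (y - -y)
    let w := (μ - y / x) / x
    w * (x * x * (y / x + y / x)) = x * x - a4 ∧
    μ ^ 2 - a2 - x - x = x * x * w ^ 2 := by
  intro μ w
  have e1 : a4 = (y ^ 2 - x ^ 3 - a2 * x ^ 2) / x := by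
    rw [eq_div_iff hx]
    linear_combination -h1
  have h2y : y - -y ≠ 0 := sub_ne_zero.mpr hy
  have h2y' : 2 * y ≠ 0 := by
    have : 2 * y = y - -y := by ring
    rw [this]; exact h2y
  have h2 : (2 : K) ≠ 0 := left_ne_zero_of_mul h2y'
  have hy0 : y ≠ 0 := right_ne_zero_of_mul h2y'
  have hμ : μ = (3 * x ^ 2 + 2 * a2 * x + a4) / (2 * y) := by
    simp only [μ]; congr 1; ring
  subst e1
  refine ⟨?_, ?_⟩
  · simp only [w, hμ]
    field_simp
    ring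
  · simp only [w, hμ]
    field_simp
    ring

/-- the `y`-coordinate formula, valid for any slope `μ`. -/
lemma addY_rel (x1 y1 x2 μ : K) (hx1 : x1 ≠ 0) (hx2 : x2 ≠ 0) :
    -(μ * (x1 * x2 * ((μ - y1 / x1) / x2) ^ 2 - x1) + y1) =
      x1 * x2 * ((μ - y1 / x1) / x2) *
        (1 - y1 / x1 * ((μ - y1 / x1) / x2) - x2 * ((μ - y1 / x1) / x2) ^ 2) := by
  field_simp
  ring

lemma t3_formula {x1 x2 t1 w x3 y3 : K} (hx1 : x1 ≠ 0) (hx2 : x2 ≠ 0) (hw : w ≠ 0)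
    (hx3 : x3 = x1 * x2 * w ^ 2) (hy3 : y3 = x1 * x2 * w * (1 - t1 * w - x2 * w ^ 2)) :
    y3 / x3 = 1 / w - t1 - x2 * w := by
  subst hx3 hy3
  field_simp

lemma t3_formula' {x1 x2 t1 t2 w x3 y3 : K} (hx1 : x1 ≠ 0) (hx2 : x2 ≠ 0) (hw : w ≠ 0)
    (r0 : w * (x1 - x2) = t1 - t2)
    (hx3 : x3 = x1 * x2 * w ^ 2) (hy3 : y3 = x1 * x2 * w * (1 - t1 * w - x2 * w ^ 2)) :
    y3 / x3 = 1 / w - t2 - x1 * w := by
  rw [t3_formula hx1 hx2 hw hx3 hy3]
  linear_combination r0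

lemma inv_w {x1 x2 T w a4 : K} (r1 : w * (x1 * x2 * T) = x1 * x2 - a4)
    (hd : x1 * x2 - a4 ≠ 0) (hw : w ≠ 0) : 1 / w = T + T * a4 / (x1 * x2 - a4) := by
  field_simp
  linear_combination -r1

end algebra

section points

variable [DecidableEq K] {a2 a4 : K}

/-- Master chord/tangent formula in the coordinates `(x, t = y/x)`. -/
lemma add_formula {x1 y1 x2 y2 : K} (h1 : (Cv a2 a4).Nonsingular x1 y1)
    (h2 : (Cv a2 a4).Nonsingular x2 y2) (hx1 : x1 ≠ 0) (hx2 : x2 ≠ 0)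
    (hne : ¬ (x1 = x2 ∧ y1 = -y2)) :
    ∃ w : K, w * (x1 - x2) = y1 / x1 - y2 / x2 ∧
      w * (x1 * x2 * (y1 / x1 + y2 / x2)) = x1 * x2 - a4 ∧
      ∃ (x3 y3 : K) (h3 : (Cv a2 a4).Nonsingular x3 y3),
        Affine.Point.some x1 y1 h1 + Affine.Point.some x2 y2 h2 = Affine.Point.some x3 y3 h3 ∧
        x3 = x1 * x2 * w ^ 2 ∧ y3 = x1 * x2 * w * (1 - y1 / x1 * w - x2 * w ^ 2) := by
  have hne' : ¬ (x1 = x2 ∧ y1 = (Cv a2 a4).negY x2 y2) := by rwa [negY_eq]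
  have e1 := (eqn_iff x1 y1).mp h1.1
  have e2 := (eqn_iff x2 y2).mp h2.1
  have key : ∀ μ : K, (Cv a2 a4).slope x1 x2 y1 y2 = μ →
      (μ ^ 2 - a2 - x1 - x2 = x1 * x2 * ((μ - y1 / x1) / x2) ^ 2) →
      ∃ (x3 y3 : K) (h3 : (Cv a2 a4).Nonsingular x3 y3),
        Affine.Point.some x1 y1 h1 + Affine.Point.some x2 y2 h2 = Affine.Point.some x3 y3 h3 ∧
        x3 = x1 * x2 * ((μ - y1 / x1) / x2) ^ 2 ∧
        y3 = x1 * x2 * ((μ - y1 / x1) / x2) *
          (1 - y1 / x1 * ((μ - y1 / x1) / x2) - x2 * ((μ - y1 / x1) / x2) ^ 2) := by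
    intro μ hμ hX
    have hx3 : (Cv a2 a4).addX x1 x2 ((Cv a2 a4).slope x1 x2 y1 y2)
        = x1 * x2 * ((μ - y1 / x1) / x2) ^ 2 := by
      rw [hμ, ← hX]; simp [Affine.addX]
    refine ⟨_, _, _, Affine.Point.add_some hne', hx3, ?_⟩
    rw [Affine.addY, negY_eq, Affine.negAddY, hx3, hμ]
    exact addY_rel x1 y1 x2 μ hx1 hx2
  by_cases hx : x1 = x2
  · subst hx
    have hy : y1 ≠ -y2 := fun h => hne ⟨rfl, h⟩
    have hy12 : y1 = y2 := by
      rcases Affine.Y_eq_of_X_eq h1.1 h2.1 rfl with h | h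
      · exact h
      · rw [negY_eq] at h; exact absurd h hy
    subst hy12
    have hsl : (Cv a2 a4).slope x1 x1 y1 y1
        = (3 * x1 ^ 2 + 2 * a2 * x1 + a4) / (y1 - -y1) := by
      rw [Affine.slope_of_Y_ne rfl (by rwa [negY_eq]), negY_eq]
      simp
    obtain ⟨r1, r2⟩ := tangent_rel hx1 hy e1
    exact ⟨_, by simp, r1, key _ hsl r2⟩
  · have hsl : (Cv a2 a4).slope x1 x2 y1 y2 = (y1 - y2) / (x1 - x2) :=
      Affine.slope_of_X_ne hx
    obtain ⟨r0, r1, r2⟩ := chord_rel hx1 hx2 hx e1 e2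
    exact ⟨_, r0, r1, key _ hsl r2⟩

end points

section gamma

variable {Γ₀ : Type*} [LinearOrderedCommGroupWithZero Γ₀]

/-- `γ ≈ δ` modulo even powers of `a`. -/
def Eqv (a γ δ : Γ₀) : Prop := ∃ m : ℤ, γ = δ * a ^ (2 * m)

lemma Eqv.rfl' (a γ : Γ₀) : Eqv a γ γ := ⟨0, by simp⟩

lemma Eqv.of_eq {a γ δ : Γ₀} (h : γ = δ) : Eqv a γ δ := h ▸ Eqv.rfl' a γ

lemma Eqv.mul {a γ δ γ' δ' : Γ₀} (ha : a ≠ 0) (h : Eqv a γ δ) (h' : Eqv a γ' δ') :
    Eqv a (γ * γ') (δ * δ') := by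
  obtain ⟨m, rfl⟩ := h
  obtain ⟨m', rfl⟩ := h'
  exact ⟨m + m', by rw [mul_add, zpow_add₀ ha]; ac_rfl⟩

lemma Eqv.inv {a γ δ : Γ₀} (h : Eqv a γ δ) : Eqv a γ⁻¹ δ⁻¹ := by
  obtain ⟨m, rfl⟩ := h
  exact ⟨-m, by rw [mul_inv, mul_neg, zpow_neg]⟩

lemma Eqv.trans {a γ δ ε : Γ₀} (ha : a ≠ 0) (h : Eqv a γ δ) (h' : Eqv a δ ε) : Eqv a γ ε := by
  obtain ⟨m, rfl⟩ := h
  obtain ⟨m', rfl⟩ := h'
  exact ⟨m' + m, by rw [mul_add, zpow_add₀ ha]; ac_rfl⟩

lemma Eqv.symm {a γ δ : Γ₀} (ha : a ≠ 0) (h : Eqv a γ δ) : Eqv a δ γ := by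
  obtain ⟨m, rfl⟩ := h
  refine ⟨-m, ?_⟩
  rw [mul_assoc, ← zpow_add₀ ha]
  simp

lemma Eqv.sq (a : Γ₀) : Eqv a (a * a) 1 := ⟨1, by simp; exact (pow_two a).symm⟩

lemma Eqv.inv_self {a : Γ₀} (ha : a ≠ 0) : Eqv a a⁻¹ a := by
  refine ⟨-1, ?_⟩
  rw [show (2 : ℤ) * -1 = -1 + -1 by norm_num, zpow_add₀ ha, zpow_neg_one, ← mul_assoc,
    mul_inv_cancel₀ ha, one_mul]

end gamma

section val

variable [DecidableEq K] {Γ₀ : Type*} [LinearOrderedCommGroupWithZero Γ₀]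
variable {a2 a4 : K}

/-- Standing hypotheses: multiplicative reduction (`a₂` a unit, `a₄` a nonzero non-unit), residue
characteristic `≠ 2`, and `s` a square root of `a₂` modulo the maximal ideal (fixing the sign of
the branches). -/
structure Hyp (v : Valuation K Γ₀) (a2 a4 s : K) : Prop where
  h2 : v 2 = 1
  ha2 : v a2 = 1
  ha4 : v a4 < 1
  ha40 : a4 ≠ 0
  hs : v (s ^ 2 - a2) < 1

namespace Hyp

variable {v : Valuation K Γ₀} {s : K}

lemma neg (H : Hyp v a2 a4 s) : Hyp v a2 a4 (-s) :=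
  ⟨H.h2, H.ha2, H.ha4, H.ha40, by rw [neg_sq]; exact H.hs⟩

lemma va4_ne (H : Hyp v a2 a4 s) : v a4 ≠ 0 := (Valuation.ne_zero_iff v).mpr H.ha40

lemma va4_pos (H : Hyp v a2 a4 s) : 0 < v a4 := zero_lt_iff.mpr H.va4_ne

lemma vs (H : Hyp v a2 a4 s) : v s = 1 := by
  have h1 : v (s ^ 2) = 1 := by
    have : s ^ 2 = a2 + (s ^ 2 - a2) := by ring
    rw [this, Valuation.map_add_eq_of_lt_left _ (by rw [H.ha2]; exact H.hs), H.ha2]
  rw [map_pow] at h1
  exact (pow_eq_one_iff.mp h1).resolve_right two_ne_zero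

lemma v2s (H : Hyp v a2 a4 s) : v (2 * s) = 1 := by
  rw [map_mul, H.h2, H.vs, one_mul]

end Hyp

/-- The level relation: `Lv v s P γ` says that `P` has signed level `γ` modulo `(v a₄)^{2ℤ}`. -/
def Lv (v : Valuation K Γ₀) (s : K) : (Cv a2 a4).Point → Γ₀ → Prop
  | .zero, γ => Eqv (v a4) γ 1
  | .some x y _, γ =>
      (1 ≤ v x ∧ Eqv (v a4) γ 1) ∨
      (v a4 < v x ∧ v x < 1 ∧ v (y / x - s) < 1 ∧ Eqv (v a4) γ (v x)) ∨
      (v a4 < v x ∧ v x < 1 ∧ v (y / x + s) < 1 ∧ Eqv (v a4) γ (v x)⁻¹) ∨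
      (v x ≤ v a4 ∧ Eqv (v a4) γ (v a4))

variable (v : Valuation K Γ₀) {s : K}

lemma Lv.congr (H : Hyp v a2 a4 s) {P : (Cv a2 a4).Point} {γ γ' : Γ₀} (h : Lv v s P γ)
    (hγ : Eqv (v a4) γ' γ) : Lv v s P γ' := by
  have ha := H.va4_ne
  cases P with
  | zero => exact hγ.trans ha h
  | some x y hxy =>
    rcases h with ⟨h1, h2⟩ | ⟨h1, h2, h3, h4⟩ | ⟨h1, h2, h3, h4⟩ | ⟨h1, h2⟩
    · exact Or.inl ⟨h1, hγ.trans ha h2⟩
    · exact Or.inr (Or.inl ⟨h1, h2, h3, hγ.trans ha h4⟩)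
    · exact Or.inr (Or.inr (Or.inl ⟨h1, h2, h3, hγ.trans ha h4⟩))
    · exact Or.inr (Or.inr (Or.inr ⟨h1, hγ.trans ha h2⟩))

/-- Sign flip: replacing `s` by `-s` inverts the level. -/
lemma Lv.flip (H : Hyp v a2 a4 s) {P : (Cv a2 a4).Point} {γ : Γ₀} (h : Lv v s P γ) :
    Lv v (-s) P γ⁻¹ := by
  have ha := H.va4_ne
  cases P with
  | zero =>
    have h' : Eqv (v a4) γ 1 := h
    have h'' := h'.inv
    rw [inv_one] at h''
    exact h''
  | some x y hxy =>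
    rcases h with ⟨h1, h2⟩ | ⟨h1, h2, h3, h4⟩ | ⟨h1, h2, h3, h4⟩ | ⟨h1, h2⟩
    · exact Or.inl ⟨h1, by simpa using h2.inv⟩
    · exact Or.inr (Or.inr (Or.inl ⟨h1, h2, by rwa [← sub_eq_add_neg], h4.inv⟩))
    · exact Or.inr (Or.inl ⟨h1, h2, by rwa [sub_neg_eq_add], by simpa using h4.inv⟩)
    · exact Or.inr (Or.inr (Or.inr ⟨h1, h2.inv.trans ha (Eqv.inv_self ha)⟩))

lemma t_sq {x y : K} (h : (Cv a2 a4).Equation x y) (hx : x ≠ 0) :
    (y / x) ^ 2 = a2 + x + a4 / x := by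
  have e := (eqn_iff x y).mp h
  field_simp
  linear_combination e

lemma ne_zero_of_one_le {x : K} (hx : 1 ≤ v x) : x ≠ 0 := by
  rintro rfl
  rw [map_zero] at hx
  exact absurd hx (not_le.mpr zero_lt_one)

lemma ne_zero_of_lt {x : K} {g : Γ₀} (hx : g < v x) : x ≠ 0 := by
  rintro rfl
  rw [map_zero] at hx
  exact absurd hx not_lt_zero

lemma vt_sq_le (H : Hyp v a2 a4 s) {x y : K} (h : (Cv a2 a4).Equation x y) (hx : 1 ≤ v x) :
    v (y / x) ^ 2 ≤ v x := by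
  have hx0 : x ≠ 0 := ne_zero_of_one_le v hx
  rw [← map_pow, t_sq h hx0]
  refine v.map_add_le (v.map_add_le ?_ le_rfl) ?_
  · rw [H.ha2]; exact hx
  · rw [map_div₀]
    refine (div_le_iff₀ (zero_lt_one.trans_le hx)).mpr ?_
    exact le_trans H.ha4.le (one_le_mul_of_one_le_of_one_le hx hx)

/-- `E₀ + E₀ ⊆ E₀`. -/
lemma core1 (H : Hyp v a2 a4 s) {x1 y1 x2 y2 : K} (h1 : (Cv a2 a4).Nonsingular x1 y1)
    (h2 : (Cv a2 a4).Nonsingular x2 y2) (hv1 : 1 ≤ v x1) (hv2 : 1 ≤ v x2) :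
    Affine.Point.some x1 y1 h1 + Affine.Point.some x2 y2 h2 = 0 ∨
    ∃ (x3 y3 : K) (h3 : (Cv a2 a4).Nonsingular x3 y3),
      Affine.Point.some x1 y1 h1 + Affine.Point.some x2 y2 h2 = Affine.Point.some x3 y3 h3 ∧
        1 ≤ v x3 := by
  have hx1 : x1 ≠ 0 := ne_zero_of_one_le v hv1
  have hx2 : x2 ≠ 0 := ne_zero_of_one_le v hv2
  by_cases hne : x1 = x2 ∧ y1 = -y2
  · left
    exact Affine.Point.add_of_Y_eq hne.1 (by rw [negY_eq]; exact hne.2)
  · right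
    obtain ⟨w, r0, r1, x3, y3, h3, hsum, hx3, hy3⟩ := add_formula h1 h2 hx1 hx2 hne
    refine ⟨x3, y3, h3, hsum, ?_⟩
    have hprod : 1 ≤ v (x1 * x2) := by
      rw [map_mul]; exact one_le_mul_of_one_le_of_one_le hv1 hv2
    have hv12 : v (x1 * x2 - a4) = v (x1 * x2) :=
      Valuation.map_sub_eq_of_lt_left _ (H.ha4.trans_le hprod)
    have hr1 := congrArg v r1
    rw [map_mul, map_mul, hv12] at hr1
    have hwB : v w * v (y1 / x1 + y2 / x2) = 1 := by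
      have hpos : v (x1 * x2) ≠ 0 := (zero_lt_one.trans_le hprod).ne'
      have : v (x1 * x2) * (v w * v (y1 / x1 + y2 / x2)) = v (x1 * x2) * 1 := by
        rw [mul_one, mul_left_comm]; exact hr1
      exact mul_left_cancel₀ hpos this
    have hB : v (y1 / x1 + y2 / x2) ^ 2 ≤ v x1 * v x2 := by
      have hB1 := vt_sq_le v H h1.1 hv1
      have hB2 := vt_sq_le v H h2.1 hv2
      rcases v.map_add' (y1 / x1) (y2 / x2) with h | h
      · calc v (y1 / x1 + y2 / x2) ^ 2 ≤ v (y1 / x1) ^ 2 := pow_le_pow_left₀ zero_le h 2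
          _ ≤ v x1 := hB1
          _ ≤ v x1 * v x2 := le_mul_of_one_le_right' hv2
      · calc v (y1 / x1 + y2 / x2) ^ 2 ≤ v (y2 / x2) ^ 2 := pow_le_pow_left₀ zero_le h 2
          _ ≤ v x2 := hB2
          _ ≤ v x1 * v x2 := le_mul_of_one_le_left' hv1
    rw [hx3, map_mul, map_mul, map_pow]
    have hW : v w ^ 2 * v (y1 / x1 + y2 / x2) ^ 2 = 1 := by rw [← mul_pow, hwB, one_pow]
    calc 1 = v w ^ 2 * v (y1 / x1 + y2 / x2) ^ 2 := hW.symm
      _ ≤ v w ^ 2 * (v x1 * v x2) := by gcongr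
      _ = v x1 * v x2 * v w ^ 2 := mul_comm _ _

lemma v_add_of_branch (H : Hyp v a2 a4 s) {t1 t2 : K} (h1 : v (t1 - s) < 1)
    (h2 : v (t2 - s) < 1) : v (t1 + t2) = 1 := by
  have : t1 + t2 = 2 * s + ((t1 - s) + (t2 - s)) := by ring
  rw [this, Valuation.map_add_eq_of_lt_left _ (by rw [H.v2s]; exact v.map_add_lt h1 h2), H.v2s]

lemma v_sub_of_branch (H : Hyp v a2 a4 s) {t1 t2 : K} (h1 : v (t1 - s) < 1)
    (h2 : v (t2 + s) < 1) : v (t1 - t2) = 1 := by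
  have : t1 - t2 = 2 * s + ((t1 - s) - (t2 + s)) := by ring
  rw [this, Valuation.map_add_eq_of_lt_left _ (by rw [H.v2s]; exact v.map_sub_lt h1 h2), H.v2s]

/-- same branch `+`, `+`. -/
lemma core3 (H : Hyp v a2 a4 s) {x1 y1 x2 y2 : K} (h1 : (Cv a2 a4).Nonsingular x1 y1)
    (h2 : (Cv a2 a4).Nonsingular x2 y2)
    (hl1 : v a4 < v x1) (hu1 : v x1 < 1) (hb1 : v (y1 / x1 - s) < 1)
    (hl2 : v a4 < v x2) (hu2 : v x2 < 1) (hb2 : v (y2 / x2 - s) < 1) :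
    Lv v s (Affine.Point.some x1 y1 h1 + Affine.Point.some x2 y2 h2) (v x1 * v x2) := by
  have hx1 : x1 ≠ 0 := ne_zero_of_lt v hl1
  have hx2 : x2 ≠ 0 := ne_zero_of_lt v hl2
  have hT : v (y1 / x1 + y2 / x2) = 1 := v_add_of_branch v H hb1 hb2
  have hne : ¬ (x1 = x2 ∧ y1 = -y2) := by
    rintro ⟨rfl, rfl⟩
    rw [neg_div, neg_add_cancel, map_zero] at hT
    exact zero_ne_one hT
  obtain ⟨w, r0, r1, x3, y3, h3, hsum, hx3, hy3⟩ := add_formula h1 h2 hx1 hx2 hne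
  rw [hsum]
  have ha := H.va4_pos
  have hr1 := congrArg v r1
  rw [map_mul, map_mul, hT, mul_one] at hr1
  have h12 : v (x1 * x2) = v x1 * v x2 := map_mul _ _ _
  have h12pos : 0 < v x1 * v x2 := mul_pos (ha.trans hl1) (ha.trans hl2)
  have hvx3 : v x3 = v x1 * v x2 * v w ^ 2 := by rw [hx3, map_mul, map_mul, map_pow]
  generalize y1 / x1 = t1 at *
  generalize y2 / x2 = t2 at *
  rcases lt_trichotomy (v a4) (v x1 * v x2) with hlt | heq | hgt
  · -- sum of levels below `N`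
    have hv12 : v (x1 * x2 - a4) = v (x1 * x2) :=
      Valuation.map_sub_eq_of_lt_left _ (by rw [h12]; exact hlt)
    have hd : x1 * x2 - a4 ≠ 0 := by
      intro h0
      rw [h0, map_zero, h12] at hv12
      exact h12pos.ne' hv12.symm
    rw [hv12, h12] at hr1
    have hw : v w = 1 := by
      have : v w * (v x1 * v x2) = 1 * (v x1 * v x2) := by rw [one_mul]; exact hr1
      exact mul_right_cancel₀ h12pos.ne' this
    have hw0 : w ≠ 0 := by
      rintro rfl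
      rw [map_zero] at hw
      exact zero_ne_one hw
    rw [hw, one_pow, mul_one] at hvx3
    refine Or.inr (Or.inl ⟨by rw [hvx3]; exact hlt, by rw [hvx3]; exact mul_lt_one' hu1 hu2, ?_,
      Eqv.of_eq hvx3.symm⟩)
    have e : y3 / x3 - s = (t1 + t2) * a4 / (x1 * x2 - a4) + (t2 - s) - x2 * w := by
      rw [t3_formula hx1 hx2 hw0 hx3 hy3, inv_w r1 hd hw0]
      ring
    rw [e]
    refine v.map_sub_lt (v.map_add_lt ?_ hb2) ?_
    · rw [map_div₀, map_mul, hT, one_mul, hv12, h12]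
      exact (div_lt_one₀ h12pos).mpr hlt
    · rw [map_mul, hw, mul_one]
      exact hu2
  · -- sum of levels equal to `N`
    have hv12 : v (x1 * x2 - a4) ≤ v a4 := v.map_sub_le (by rw [h12, heq]) le_rfl
    rw [h12] at hr1
    have hw : v w ≤ 1 := by
      refine (mul_le_iff_le_one_left h12pos).mp ?_
      rw [hr1]
      exact hv12.trans heq.le
    refine Or.inr (Or.inr (Or.inr ⟨?_, Eqv.of_eq heq.symm⟩))
    rw [hvx3, heq]
    exact mul_le_of_le_one_right' (Right.pow_le_one_of_le hw)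
  · -- sum of levels above `N`
    have hv12 : v (x1 * x2 - a4) = v a4 :=
      Valuation.map_sub_eq_of_lt_right _ (by rw [h12]; exact hgt)
    rw [hv12, h12] at hr1
    have hw : v w = v a4 / (v x1 * v x2) := eq_div_of_mul_eq h12pos.ne' hr1
    have hw0 : w ≠ 0 := by
      rintro rfl
      rw [map_zero] at hw
      exact (div_pos ha h12pos).ne' hw.symm
    have hvx3' : v x3 = v a4 ^ 2 / (v x1 * v x2) := by
      rw [hvx3, hw]
      have := h12pos.ne'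
      field_simp
    have hsq : v a4 ^ 2 < v x1 * v x2 := by
      rw [pow_two]
      exact mul_lt_mul'' hl1 hl2 zero_le zero_le
    refine Or.inr (Or.inr (Or.inl ⟨?_, ?_, ?_, ?_⟩))
    · rw [hvx3', lt_div_iff₀ h12pos, pow_two]
      exact mul_lt_mul_of_pos_left hgt ha
    · rw [hvx3', div_lt_one₀ h12pos]
      exact hsq
    · have e : y3 / x3 + s = 1 / w - (t1 - s) - x2 * w := by
        rw [t3_formula hx1 hx2 hw0 hx3 hy3]
        ring
      rw [e]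
      refine v.map_sub_lt (v.map_sub_lt ?_ hb1) ?_
      · rw [map_div₀, map_one, hw, one_div, inv_div, div_lt_one₀ ha]
        exact hgt
      · rw [map_mul, hw, ← mul_div_assoc, div_lt_one₀ h12pos, mul_comm]
        exact mul_lt_mul_of_pos_right hl1 (ha.trans hl2)
    · refine ⟨1, ?_⟩
      rw [hvx3', inv_div, mul_one, zpow_ofNat]
      have := ha.ne'
      field_simp

/-- opposite branches, the second point has the bigger additive level. -/
lemma core4_lt (H : Hyp v a2 a4 s) {x1 y1 x2 y2 : K} (h1 : (Cv a2 a4).Nonsingular x1 y1)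
    (h2 : (Cv a2 a4).Nonsingular x2 y2)
    (hu1 : v x1 < 1) (hb1 : v (y1 / x1 - s) < 1)
    (hl2 : v a4 < v x2) (hb2 : v (y2 / x2 + s) < 1) (hlt : v x2 < v x1) :
    Lv v s (Affine.Point.some x1 y1 h1 + Affine.Point.some x2 y2 h2) (v x1 * (v x2)⁻¹) := by
  have ha := H.va4_pos
  have hx2 : x2 ≠ 0 := ne_zero_of_lt v hl2
  have hx1 : x1 ≠ 0 := ne_zero_of_lt v (hl2.trans hlt)
  have hT : v (y1 / x1 - y2 / x2) = 1 := v_sub_of_branch v H hb1 hb2
  have hxne : x1 ≠ x2 := by rintro rfl; exact lt_irrefl _ hlt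
  have hne : ¬ (x1 = x2 ∧ y1 = -y2) := fun h => hxne h.1
  obtain ⟨w, r0, r1, x3, y3, h3, hsum, hx3, hy3⟩ := add_formula h1 h2 hx1 hx2 hne
  rw [hsum]
  have hr0 := congrArg v r0
  rw [map_mul, hT, Valuation.map_sub_eq_of_lt_left _ hlt] at hr0
  have hx1pos : 0 < v x1 := ha.trans (hl2.trans hlt)
  have hx2pos : 0 < v x2 := ha.trans hl2
  have hw : v w = (v x1)⁻¹ := eq_inv_of_mul_eq_one_left hr0
  have hw0 : w ≠ 0 := by
    rintro rfl
    rw [map_zero] at hw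
    exact (inv_pos.mpr hx1pos).ne' hw.symm
  have hvx3 : v x3 = v x2 / v x1 := by
    rw [hx3, map_mul, map_mul, map_pow, hw]
    have := hx1pos.ne'
    field_simp
  generalize y1 / x1 = t1 at *
  generalize y2 / x2 = t2 at *
  refine Or.inr (Or.inr (Or.inl ⟨?_, ?_, ?_, ?_⟩))
  · rw [hvx3, lt_div_iff₀ hx1pos]
    calc v a4 * v x1 ≤ v a4 := mul_le_of_le_one_right' hu1.le
      _ < v x2 := hl2
  · rw [hvx3, div_lt_one₀ hx1pos]
    exact hlt
  · have e : y3 / x3 + s = 1 / w - (t1 - s) - x2 * w := by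
      rw [t3_formula hx1 hx2 hw0 hx3 hy3]
      ring
    rw [e]
    refine v.map_sub_lt (v.map_sub_lt ?_ hb1) ?_
    · rw [map_div₀, map_one, hw, one_div, inv_inv]
      exact hu1
    · rw [map_mul, hw, ← div_eq_mul_inv, div_lt_one₀ hx1pos]
      exact hlt
  · refine Eqv.of_eq ?_
    rw [hvx3, inv_div, div_eq_mul_inv]

/-- opposite branches, equal levels: the sum lies in `E₀`. -/
lemma core4_eq (H : Hyp v a2 a4 s) {x1 y1 x2 y2 : K} (h1 : (Cv a2 a4).Nonsingular x1 y1)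
    (h2 : (Cv a2 a4).Nonsingular x2 y2)
    (hl1 : v a4 < v x1) (hb1 : v (y1 / x1 - s) < 1)
    (hb2 : v (y2 / x2 + s) < 1) (heq : v x2 = v x1) :
    Affine.Point.some x1 y1 h1 + Affine.Point.some x2 y2 h2 = 0 ∨
    ∃ (x3 y3 : K) (h3 : (Cv a2 a4).Nonsingular x3 y3),
      Affine.Point.some x1 y1 h1 + Affine.Point.some x2 y2 h2 = Affine.Point.some x3 y3 h3 ∧
        1 ≤ v x3 := by
  have hx1 : x1 ≠ 0 := ne_zero_of_lt v hl1
  have hx2 : x2 ≠ 0 := ne_zero_of_lt v (heq ▸ hl1)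
  have hT : v (y1 / x1 - y2 / x2) = 1 := v_sub_of_branch v H hb1 hb2
  by_cases hne : x1 = x2 ∧ y1 = -y2
  · left
    exact Affine.Point.add_of_Y_eq hne.1 (by rw [negY_eq]; exact hne.2)
  · right
    obtain ⟨w, r0, r1, x3, y3, h3, hsum, hx3, hy3⟩ := add_formula h1 h2 hx1 hx2 hne
    refine ⟨x3, y3, h3, hsum, ?_⟩
    have hr0 := congrArg v r0
    rw [map_mul, hT] at hr0
    have hd : v (x1 - x2) ≤ v x1 := v.map_sub_le le_rfl heq.le
    have h1le : 1 ≤ v w * v x1 := by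
      rw [← hr0]
      gcongr
    rw [hx3, map_mul, map_mul, map_pow, heq]
    calc 1 ≤ (v w * v x1) * (v w * v x1) := one_le_mul_of_one_le_of_one_le h1le h1le
      _ = v x1 * v x1 * v w ^ 2 := by rw [pow_two]; ac_rfl

/-- `E₀ + (level l, branch +) = (level l, branch +)`. -/
lemma core2 (H : Hyp v a2 a4 s) {x1 y1 x2 y2 : K} (h1 : (Cv a2 a4).Nonsingular x1 y1)
    (h2 : (Cv a2 a4).Nonsingular x2 y2) (hv1 : 1 ≤ v x1)
    (hl2 : v a4 < v x2) (hu2 : v x2 < 1) (hb2 : v (y2 / x2 - s) < 1) :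
    Lv v s (Affine.Point.some x1 y1 h1 + Affine.Point.some x2 y2 h2) (v x2) := by
  have ha := H.va4_pos
  have hx1 : x1 ≠ 0 := ne_zero_of_one_le v hv1
  have hx2 : x2 ≠ 0 := ne_zero_of_lt v hl2
  have hlt : v x2 < v x1 := hu2.trans_le hv1
  have hxne : x1 ≠ x2 := by rintro rfl; exact lt_irrefl _ hlt
  have hne : ¬ (x1 = x2 ∧ y1 = -y2) := fun h => hxne h.1
  obtain ⟨w, r0, r1, x3, y3, h3, hsum, hx3, hy3⟩ := add_formula h1 h2 hx1 hx2 hne
  rw [hsum]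
  have hx1pos : 0 < v x1 := zero_lt_one.trans_le hv1
  have hx2pos : 0 < v x2 := ha.trans hl2
  have h12 : v (x1 * x2) = v x1 * v x2 := map_mul _ _ _
  have h12pos : 0 < v x1 * v x2 := mul_pos hx1pos hx2pos
  have hv12 : v (x1 * x2 - a4) = v (x1 * x2) :=
    Valuation.map_sub_eq_of_lt_left _ (by rw [h12]; exact hl2.trans_le (le_mul_of_one_le_left' hv1))
  have hd : x1 * x2 - a4 ≠ 0 := by
    intro h0
    rw [h0, map_zero, h12] at hv12
    exact h12pos.ne' hv12.symm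
  have hdx : v (x1 - x2) = v x1 := Valuation.map_sub_eq_of_lt_left _ hlt
  have hdx0 : x1 - x2 ≠ 0 := sub_ne_zero.mpr hxne
  have hr0 := congrArg v r0
  rw [map_mul, hdx] at hr0
  have hr1 := congrArg v r1
  rw [map_mul, map_mul, hv12, h12] at hr1
  have ht1 : v (y1 / x1) ^ 2 ≤ v x1 := vt_sq_le v H h1.1 hv1
  generalize y1 / x1 = t1 at *
  generalize y2 / x2 = t2 at *
  have hwB : v w * v (t1 + t2) = 1 := by
    have : (v x1 * v x2) * (v w * v (t1 + t2)) = (v x1 * v x2) * 1 := by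
      rw [mul_one, mul_left_comm]; exact hr1
    exact mul_left_cancel₀ h12pos.ne' this
  have hw0 : w ≠ 0 := by
    rintro rfl
    rw [map_zero, zero_mul] at hwB
    exact zero_ne_one hwB
  have ht2 : v t2 = 1 := by
    have : t2 = s + (t2 - s) := by ring
    rw [this, Valuation.map_add_eq_of_lt_left _ (by rw [H.vs]; exact hb2), H.vs]
  have ht2' : v t2 ^ 2 ≤ v x1 := by rw [ht2, one_pow]; exact hv1
  have hA : v (t1 - t2) ^ 2 ≤ v x1 := by
    rcases le_max_iff.mp (v.map_sub t1 t2) with h | h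
    · exact (pow_le_pow_left₀ zero_le h 2).trans ht1
    · exact (pow_le_pow_left₀ zero_le h 2).trans ht2'
  have hB : v (t1 + t2) ^ 2 ≤ v x1 := by
    rcases v.map_add' t1 t2 with h | h
    · exact (pow_le_pow_left₀ zero_le h 2).trans ht1
    · exact (pow_le_pow_left₀ zero_le h 2).trans ht2'
  have hAB : v (t1 - t2) * v (t1 + t2) = v x1 := by
    rw [← hr0, mul_right_comm, hwB, one_mul]
  have hB2 : v (t1 + t2) ^ 2 = v x1 := by
    refine le_antisymm hB ?_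
    by_contra hcon
    push Not at hcon
    have : (v (t1 - t2) * v (t1 + t2)) ^ 2 < v x1 ^ 2 := by
      rw [mul_pow, pow_two (v x1)]
      calc v (t1 - t2) ^ 2 * v (t1 + t2) ^ 2 ≤ v x1 * v (t1 + t2) ^ 2 := by gcongr
        _ < v x1 * v x1 := mul_lt_mul_of_pos_left hcon hx1pos
    rw [hAB] at this
    exact lt_irrefl _ this
  have hA2 : v (t1 - t2) ^ 2 = v x1 := by
    have h := congrArg (· ^ 2) hAB
    simp only [mul_pow] at h
    rw [hB2, pow_two (v x1)] at h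
    exact mul_right_cancel₀ hx1pos.ne' h
  have hW2 : v w ^ 2 * v x1 = 1 := by rw [← hB2, ← mul_pow, hwB, one_pow]
  have hvx3 : v x3 = v x2 := by
    rw [hx3, map_mul, map_mul, map_pow]
    calc v x1 * v x2 * v w ^ 2 = v x2 * (v w ^ 2 * v x1) := by ac_rfl
      _ = v x2 := by rw [hW2, mul_one]
  refine Or.inr (Or.inl ⟨by rw [hvx3]; exact hl2, by rw [hvx3]; exact hu2, ?_,
    Eqv.of_eq hvx3.symm⟩)
  have e : y3 / x3 - s
      = (t1 + t2) * a4 / (x1 * x2 - a4) - (t1 - t2) * x2 / (x1 - x2) + (t2 - s) := by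
    rw [t3_formula' hx1 hx2 hw0 r0 hx3 hy3, inv_w r1 hd hw0]
    have hw' : w = (t1 - t2) / (x1 - x2) := by rw [eq_div_iff hdx0]; exact r0
    rw [hw']
    field_simp
    ring
  rw [e]
  refine v.map_add_lt (v.map_sub_lt ?_ ?_) hb2
  · refine (pow_lt_one_iff two_ne_zero).mp ?_
    rw [map_div₀, map_mul, hv12, h12, div_pow, mul_pow, hB2, div_lt_one₀ (pow_pos h12pos 2)]
    calc v x1 * v a4 ^ 2 < v x1 * v x2 ^ 2 :=
          mul_lt_mul_of_pos_left (pow_lt_pow_left₀ hl2 zero_le two_ne_zero) hx1pos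
      _ ≤ v x1 * v x2 ^ 2 * v x1 := le_mul_of_one_le_right' hv1
      _ = (v x1 * v x2) ^ 2 := by rw [mul_pow, pow_two (v x1)]; ac_rfl
  · refine (pow_lt_one_iff two_ne_zero).mp ?_
    rw [map_div₀, map_mul, hdx, div_pow, mul_pow, hA2, div_lt_one₀ (pow_pos hx1pos 2),
      pow_two (v x1)]
    exact mul_lt_mul_of_pos_left
      (lt_of_lt_of_le (pow_lt_one₀ zero_le hu2 two_ne_zero) hv1) hx1pos

end val

end Fermat.Agent.S05Lib.Lvl
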