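import Fermat.Agent.Lib.S05.LevelCore

/-!
# S05, chunk B (T0 half): translation by the two-torsion point `T0 = (0, 0)`

On `y² = x³ + a₂x² + a₄x` the point `T0 = (0, 0)` has order two and
`(x, y) + T0 = (a₄ / x, -a₄ y / x²)`; in terms of `t = y / x` this is `x ↦ a₄ / x`, `t ↦ -t`.
Hence translation by `T0` multiplies the level by `v a₄` (helper4, for helper3's `LevelCore`).
-/

set_option autoImplicit false
set_option linter.unusedSectionVars false

open WeierstrassCurve

namespace Fermat.Agent.S05Lib.Lvl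

variable {K : Type*} [Field K] [DecidableEq K] {Γ₀ : Type*} [LinearOrderedCommGroupWithZero Γ₀]
variable {a2 a4 : K} (v : Valuation K Γ₀) {s : K}

lemma nonsing_T0 (ha40 : a4 ≠ 0) : (Cv a2 a4).Nonsingular 0 0 := by
  rw [Affine.nonsingular_zero]
  exact ⟨rfl, Or.inr ha40⟩

/-- The two-torsion point `(0, 0)`. -/
def T0 (ha40 : a4 ≠ 0) : (Cv a2 a4).Point := .some 0 0 (nonsing_T0 ha40)

lemma T0_add_T0 (ha40 : a4 ≠ 0) : T0 (a2 := a2) ha40 + T0 ha40 = 0 :=
  Affine.Point.add_of_Y_eq rfl (by rw [negY_eq, neg_zero])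

lemma add_T0_formula (ha40 : a4 ≠ 0) {x y : K} (h : (Cv a2 a4).Nonsingular x y) (hx : x ≠ 0) :
    ∃ (x' y' : K) (h' : (Cv a2 a4).Nonsingular x' y'),
      Affine.Point.some x y h + T0 ha40 = Affine.Point.some x' y' h' ∧
        x' = a4 / x ∧ y' = -(a4 * y) / x ^ 2 := by
  have e := (eqn_iff x y).mp h.1
  have hne' : ¬ (x = 0 ∧ y = (Cv a2 a4).negY 0 0) := fun h0 => hx h0.1
  have hsl : (Cv a2 a4).slope x 0 y 0 = y / x := by
    rw [Affine.slope_of_X_ne hx, sub_zero, sub_zero]
  have hx3 : (Cv a2 a4).addX x 0 ((Cv a2 a4).slope x 0 y 0) = a4 / x := by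
    rw [hsl]
    simp only [Affine.addX]
    field_simp
    linear_combination e
  refine ⟨_, _, _, Affine.Point.add_some hne', hx3, ?_⟩
  rw [Affine.addY, negY_eq, Affine.negAddY, hx3, hsl]
  field_simp
  ring

lemma eq_T0_of_x_eq_zero (ha40 : a4 ≠ 0) {y : K} (h : (Cv a2 a4).Nonsingular 0 y) :
    Affine.Point.some 0 y h = T0 ha40 := by
  have e := (eqn_iff (0 : K) y).mp h.1
  have hy : y = 0 := by
    have : y ^ 2 = 0 := by rw [e]; ring
    exact pow_eq_zero_iff two_ne_zero |>.mp this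
  subst hy
  rfl

/-- `t`-coordinate of the translate: `t ↦ -t`. -/
lemma t_add_T0 (ha40 : a4 ≠ 0) {x y : K} (hx : x ≠ 0) :
    (-(a4 * y) / x ^ 2) / (a4 / x) = -(y / x) := by
  field_simp

/-- Translation by `T0` multiplies the level by `v a₄`. -/
lemma Lv.add_T0 (H : Hyp v a2 a4 s) {P : (Cv a2 a4).Point} {γ : Γ₀} (h : Lv v s P γ) :
    Lv v s (P + T0 H.ha40) (γ * v a4) := by
  have ha := H.va4_ne
  have hapos := H.va4_pos
  cases P with
  | zero =>
    have h' : Eqv (v a4) γ 1 := h
    have e : (Affine.Point.zero : (Cv a2 a4).Point) + T0 H.ha40 = T0 H.ha40 := zero_add _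
    rw [e]
    refine Or.inr (Or.inr (Or.inr ⟨?_, ?_⟩))
    · rw [map_zero]; exact zero_le
    · have := Eqv.mul ha h' (Eqv.rfl' (v a4) (v a4))
      rwa [one_mul] at this
  | some x y hxy =>
    by_cases hx : x = 0
    · subst hx
      rw [eq_T0_of_x_eq_zero H.ha40 hxy, T0_add_T0]
      have h4 : Eqv (v a4) γ (v a4) := by
        rcases h with ⟨h1, _⟩ | ⟨h1, _⟩ | ⟨h1, _⟩ | ⟨_, h2⟩
        · rw [map_zero] at h1
          exact absurd h1 (not_le.mpr zero_lt_one)
        · rw [map_zero] at h1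
          exact absurd h1 not_lt_zero
        · rw [map_zero] at h1
          exact absurd h1 not_lt_zero
        · exact h2
      exact (Eqv.mul ha h4 (Eqv.rfl' (v a4) (v a4))).trans ha (Eqv.sq (v a4))
    · obtain ⟨x', y', h', hsum, hx', hy'⟩ := add_T0_formula H.ha40 hxy hx
      rw [hsum]
      have hxpos : 0 < v x := zero_lt_iff.mpr ((Valuation.ne_zero_iff v).mpr hx)
      have hvx' : v x' = v a4 / v x := by rw [hx', map_div₀]
      have ht' : y' / x' = -(y / x) := by rw [hx', hy']; exact t_add_T0 H.ha40 hx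
      rcases h with ⟨h1, h2⟩ | ⟨h1, h2, h3, h4⟩ | ⟨h1, h2, h3, h4⟩ | ⟨h1, h2⟩
      · -- `E₀` goes to `Top`
        refine Or.inr (Or.inr (Or.inr ⟨?_, ?_⟩))
        · rw [hvx', div_le_iff₀ hxpos]
          exact le_mul_of_one_le_right' h1
        · have := Eqv.mul ha h2 (Eqv.rfl' (v a4) (v a4))
          rwa [one_mul] at this
      · -- `plus` goes to `minus`
        refine Or.inr (Or.inr (Or.inl ⟨?_, ?_, ?_, ?_⟩))
        · rw [hvx', lt_div_iff₀ hxpos]
          calc v a4 * v x < v a4 * 1 := mul_lt_mul_of_pos_left h2 hapos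
            _ = v a4 := mul_one _
        · rw [hvx', div_lt_one₀ hxpos]
          exact h1
        · rw [ht']
          have : -(y / x) + s = -(y / x - s) := by ring
          rw [this, Valuation.map_neg]
          exact h3
        · have := Eqv.mul ha h4 ((Eqv.inv_self ha).symm ha)
          rwa [hvx', inv_div, div_eq_mul_inv]
      · -- `minus` goes to `plus`
        refine Or.inr (Or.inl ⟨?_, ?_, ?_, ?_⟩)
        · rw [hvx', lt_div_iff₀ hxpos]
          calc v a4 * v x < v a4 * 1 := mul_lt_mul_of_pos_left h2 hapos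
            _ = v a4 := mul_one _
        · rw [hvx', div_lt_one₀ hxpos]
          exact h1
        · rw [ht']
          have : -(y / x) - s = -(y / x + s) := by ring
          rw [this, Valuation.map_neg]
          exact h3
        · have := Eqv.mul ha h4 (Eqv.rfl' (v a4) (v a4))
          rwa [hvx', div_eq_mul_inv, mul_comm (v a4) (v x)⁻¹]
      · -- `Top` (with `x ≠ 0`) goes to `E₀`
        refine Or.inl ⟨?_, ?_⟩
        · rw [hvx', one_le_div₀ hxpos]
          exact h1
        · exact (Eqv.mul ha h2 (Eqv.rfl' (v a4) (v a4))).trans ha (Eqv.sq (v a4))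

/-- `P` does not reduce "deep into the node": `P = 0` or `v a₄ < v x`. -/
def IsLow (v : Valuation K Γ₀) : (Cv a2 a4).Point → Prop
  | .zero => True
  | .some x _ _ => v a4 < v x

lemma low_or (H : Hyp v a2 a4 s) (P : (Cv a2 a4).Point) :
    IsLow v P ∨ IsLow v (P + T0 H.ha40) := by
  cases P with
  | zero => exact Or.inl trivial
  | some x y hxy =>
    by_cases hlow : v a4 < v x
    · exact Or.inl hlow
    · right
      push Not at hlow
      by_cases hx : x = 0
      · subst hx
        rw [eq_T0_of_x_eq_zero H.ha40 hxy, T0_add_T0]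
        trivial
      · obtain ⟨x', y', h', hsum, hx', hy'⟩ := add_T0_formula H.ha40 hxy hx
        rw [hsum]
        have hxpos : 0 < v x := zero_lt_iff.mpr ((Valuation.ne_zero_iff v).mpr hx)
        have h1 : 1 ≤ v x' := by
          rw [hx', map_div₀, one_le_div₀ hxpos]
          exact hlow
        exact lt_of_lt_of_le H.ha4 h1

lemma isE0_add_T0' (ha40 : a4 ≠ 0) {x y : K} (h : (Cv a2 a4).Nonsingular x y)
    (hx : v x ≤ v a4) :
    Affine.Point.some x y h + T0 ha40 = 0 ∨
    ∃ (x' y' : K) (h' : (Cv a2 a4).Nonsingular x' y'),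
      Affine.Point.some x y h + T0 ha40 = Affine.Point.some x' y' h' ∧ 1 ≤ v x' := by
  by_cases hx0 : x = 0
  · left
    subst hx0
    rw [eq_T0_of_x_eq_zero ha40 h, T0_add_T0]
  · right
    obtain ⟨x', y', h', hsum, hx', hy'⟩ := add_T0_formula ha40 h hx0
    refine ⟨x', y', h', hsum, ?_⟩
    have hxpos : 0 < v x := zero_lt_iff.mpr ((Valuation.ne_zero_iff v).mpr hx0)
    rw [hx', map_div₀, one_le_div₀ hxpos]
    exact hx

end Fermat.Agent.S05Lib.Lvl
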