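/-
S05, chunk C3 (helper9): the "model theorem".  For a curve `y² = x³ + a₂ x² + a₄ x` over `K`,
a valuation subring `A` of an algebraic extension `L` of `K` and `σ` in the inertia group of `A`,
torsion points of order prime to the residue characteristic are fixed by `σ`, in the case of good
reduction and in the case of multiplicative reduction with `v(a₄) ∈ n · v(K)`.
-/
import Fermat.Agent.Lib.S05.Defs
import Fermat.Agent.Lib.S05.Inertia
import Fermat.Agent.Lib.S05.KerRed
import Fermat.Agent.Lib.S05.Close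
import Fermat.Agent.Lib.S05.Level

set_option autoImplicit false

namespace Fermat.Agent.S05Lib

open WeierstrassCurve

section Val

variable {F : Type*} [Field F] {Γ₀ : Type*} [LinearOrderedCommGroupWithZero Γ₀]
  {v : Valuation F Γ₀} {W : WeierstrassCurve.Affine F}

theorem model_equation (hW : IsShort W) {x y : F} (h : W.Equation x y) :
    y ^ 2 = x ^ 3 + W.a₂ * x ^ 2 + W.a₄ * x := by
  rw [Affine.equation_iff, hW.a₁, hW.a₃, hW.a₆] at h
  linear_combination h

theorem model_equation_iff (hW : IsShort W) (x y : F) :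
    W.Equation x y ↔ y ^ 2 = x ^ 3 + W.a₂ * x ^ 2 + W.a₄ * x := by
  rw [Affine.equation_iff, hW.a₁, hW.a₃, hW.a₆]
  constructor <;> intro h <;> linear_combination h

theorem model_v_y_le_one (hW : IsIntegralShort v W) {x y : F} (h : W.Equation x y)
    (hx : v x ≤ 1) : v y ≤ 1 := by
  have h1 := model_equation hW.short h
  have h2 : v (y ^ 2) ≤ 1 := by
    rw [h1]
    refine v.map_add_le (v.map_add_le ?_ ?_) ?_
    · rw [map_pow]; exact pow_le_one₀ zero_le' hx
    · rw [map_mul, map_pow]; exact mul_le_one₀ hW.a₂ zero_le' (pow_le_one₀ zero_le' hx)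
    · rw [map_mul]; exact mul_le_one₀ hW.a₄ zero_le' hx
  rw [map_pow] at h2
  by_contra hcon
  push_neg at hcon
  exact absurd h2 (not_le.mpr (one_lt_pow₀ hcon (by norm_num)))

theorem model_v_two_le (v : Valuation F Γ₀) : v 2 ≤ 1 := by
  have : (2 : F) = 1 + 1 := by norm_num
  rw [this]
  exact v.map_add_le (by simp) (by simp)

theorem model_v_three_le (v : Valuation F Γ₀) : v 3 ≤ 1 := by
  have : (3 : F) = 1 + 1 + 1 := by norm_num
  rw [this]
  exact v.map_add_le (v.map_add_le (by simp) (by simp)) (by simp)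

/-- Multiplicative case: integral points with unit `x` have nonsingular reduction. -/
theorem model_mult_hns (hM : IsMult v W) {x y : F} (h : W.Equation x y) (hx : v x = 1)
    (hy : v y < 1) : v (3 * x ^ 2 + 2 * W.a₂ * x + W.a₄) = 1 := by
  have h1 := model_equation hM.short h
  -- `x² (x + a₂) = y² - a₄ x`
  have h2 : v (x ^ 2 * (x + W.a₂)) < 1 := by
    have : x ^ 2 * (x + W.a₂) = y ^ 2 - W.a₄ * x := by rw [h1]; ring
    rw [this]
    refine v.map_sub_lt ?_ ?_
    · rw [map_pow]; exact pow_lt_one₀ zero_le' hy (by norm_num)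
    · rw [map_mul, hx, mul_one]; exact hM.a₄
  rw [map_mul, map_pow, hx, one_pow, one_mul] at h2
  have h3 : 3 * x ^ 2 + 2 * W.a₂ * x + W.a₄ = (3 * x * (x + W.a₂) + W.a₄) + (-(W.a₂ * x)) := by
    ring
  rw [h3]
  have h4 : v (3 * x * (x + W.a₂) + W.a₄) < 1 := by
    refine v.map_add_lt ?_ hM.a₄
    rw [map_mul, map_mul, hx, mul_one]
    exact lt_of_le_of_lt (mul_le_of_le_one_left zero_le' (model_v_three_le v)) h2
  have h5 : v (-(W.a₂ * x)) = 1 := by rw [v.map_neg, map_mul, hx, hM.a₂, mul_one]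
  rw [v.map_add_eq_of_lt_right (by rw [h5]; exact h4), h5]

/-- Good case: integral points have nonsingular reduction. -/
theorem model_good_hns (hW : IsIntegralShort v W) (h4 : v W.a₄ = 1)
    (hd : v (W.a₂ ^ 2 - 4 * W.a₄) = 1) {x y : F} (h : W.Equation x y) (hx : v x ≤ 1)
    (hy : v y < 1) : v (3 * x ^ 2 + 2 * W.a₂ * x + W.a₄) = 1 := by
  have h1 := model_equation hW.short h
  have hy2 : v (x * (x ^ 2 + W.a₂ * x + W.a₄)) < 1 := by
    have : x * (x ^ 2 + W.a₂ * x + W.a₄) = y ^ 2 := by rw [h1]; ring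
    rw [this, map_pow]
    exact pow_lt_one₀ zero_le' hy (by norm_num)
  rcases lt_or_eq_of_le hx with hx1 | hx1
  · -- `x` in the maximal ideal
    have h5 : v (3 * x ^ 2 + 2 * W.a₂ * x) < 1 := by
      have : 3 * x ^ 2 + 2 * W.a₂ * x = x * (3 * x + 2 * W.a₂) := by ring
      rw [this, map_mul]
      have h6 : v (3 * x + 2 * W.a₂) ≤ 1 := by
        refine v.map_add_le ?_ ?_
        · rw [map_mul]; exact mul_le_one₀ (model_v_three_le v) zero_le' hx
        · rw [map_mul]; exact mul_le_one₀ (model_v_two_le v) zero_le' hW.a₂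
      exact lt_of_le_of_lt (mul_le_of_le_one_right zero_le' h6) hx1
    rw [v.map_add_eq_of_lt_right (by rw [h4]; exact h5), h4]
  · -- `x` a unit, so `g(x) = x² + a₂ x + a₄` is in the maximal ideal
    rw [map_mul, hx1, one_mul] at hy2
    have h5 : (2 * x + W.a₂) ^ 2 = 4 * (x ^ 2 + W.a₂ * x + W.a₄) + (W.a₂ ^ 2 - 4 * W.a₄) := by
      ring
    have h6 : v ((2 * x + W.a₂) ^ 2) = 1 := by
      rw [h5]
      have h7 : v (4 * (x ^ 2 + W.a₂ * x + W.a₄)) < 1 := by
        rw [map_mul]
        have h8 : v (4 : F) ≤ 1 := by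
          have : (4 : F) = 2 * 2 := by norm_num
          rw [this, map_mul]
          exact mul_le_one₀ (model_v_two_le v) zero_le' (model_v_two_le v)
        exact lt_of_le_of_lt (mul_le_of_le_one_left zero_le' h8) hy2
      rw [v.map_add_eq_of_lt_right (by rw [hd]; exact h7), hd]
    rw [map_pow] at h6
    have h7 : v (2 * x + W.a₂) = 1 := by
      rcases lt_trichotomy (v (2 * x + W.a₂)) 1 with h | h | h
      · exact absurd h6 (ne_of_lt (pow_lt_one₀ zero_le' h (by norm_num)))
      · exact h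
      · exact absurd h6 (ne_of_gt (one_lt_pow₀ h (by norm_num)))
    have h8 : 3 * x ^ 2 + 2 * W.a₂ * x + W.a₄ =
        (x ^ 2 + W.a₂ * x + W.a₄) + x * (2 * x + W.a₂) := by ring
    have h9 : v (x * (2 * x + W.a₂)) = 1 := by rw [map_mul, hx1, h7, one_mul]
    rw [h8, v.map_add_eq_of_lt_right (by rw [h9]; exact hy2), h9]

end Val

section Gal

open WeierstrassCurve.Affine

variable {K L : Type*} [Field K] [Field L] [Algebra K L] [DecidableEq L]
  (M : WeierstrassCurve K)

theorem model_some_eq_some {W : WeierstrassCurve.Affine L} {x y x' y' : L} (hx : x = x')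
    (hy : y = y') (h : W.Nonsingular x y) (h' : W.Nonsingular x' y') :
    Affine.Point.some x y h = Affine.Point.some x' y' h' := by
  subst hx hy
  rfl

theorem model_smul_some (σ : L ≃ₐ[K] L) {x y : L} (h : (M⁄L).Nonsingular x y) :
    ∃ h' : (M⁄L).Nonsingular (σ x) (σ y),
      σ • (Affine.Point.some x y h : (M⁄L).Point) = Affine.Point.some (σ x) (σ y) h' :=
  ⟨_, rfl⟩

theorem model_smul_nsmul (σ : L ≃ₐ[K] L) (n : ℕ) (T : (M⁄L).Point) :
    σ • (n • T) = n • (σ • T) :=
  map_nsmul (Affine.Point.map (W' := M) σ.toAlgHom) n T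

theorem model_baseChange_a₂ : (M⁄L).a₂ = algebraMap K L M.a₂ := rfl

theorem model_baseChange_a₄ : (M⁄L).a₄ = algebraMap K L M.a₄ := rfl

variable {M}

/-- If `σ T - T` lies in the kernel of reduction and `T` is torsion of order prime to the
residue characteristic, then `σ T = T`. -/
theorem model_fixed_of_isE1 {Γ₀ : Type*} [LinearOrderedCommGroupWithZero Γ₀] {v : Valuation L Γ₀}
    (hW : IsIntegralShort v (M⁄L)) {σ : L ≃ₐ[K] L} {n : ℕ} (hn : v (n : L) = 1)
    {T : (M⁄L).Point} (hT : n • T = 0) (h : IsE1 v (σ • T - T)) : σ • T = T := by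
  have h1 : n • (σ • T - T) = 0 := by
    rw [smul_sub, ← model_smul_nsmul, hT, smul_zero, sub_zero]
  exact sub_eq_zero.mp (eq_zero_of_isE1_of_nsmul_eq_zero hW h hn h1)

variable [Algebra.IsAlgebraic K L] {A : ValuationSubring L} {σ : L ≃ₐ[K] L}

/-- Points whose reduction is a nonsingular point (or which lie in the kernel of reduction)
are moved by inertia only inside their coset modulo the kernel of reduction. -/
theorem model_isE1_smul_sub (hσ : σ ∈ A.inertiaSubgroupIn K)
    (hW : IsIntegralShort A.valuation (M⁄L)) (hv2 : A.valuation 2 = 1) (S : (M⁄L).Point)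
    (hS : ∀ (x y : L) (h : (M⁄L).Nonsingular x y), S = Affine.Point.some x y h →
      A.valuation x ≤ 1 → A.valuation y < 1 →
      A.valuation (3 * x ^ 2 + 2 * (M⁄L).a₂ * x + (M⁄L).a₄) = 1) :
    IsE1 A.valuation (σ • S - S) := by
  rcases S with _ | ⟨x, y, h⟩
  · have h0 : (Affine.Point.zero : (M⁄L).Point) = 0 := rfl
    rw [h0, smul_zero, sub_zero]
    exact isE1_zero _
  · obtain ⟨h', hsm⟩ := model_smul_some M σ h
    rw [hsm]
    have hvx : A.valuation (σ x) = A.valuation x := valuation_apply_of_mem_inertia hσ x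
    have hvy : A.valuation (σ y) = A.valuation y := valuation_apply_of_mem_inertia hσ y
    by_cases hx : 1 < A.valuation x
    · rw [sub_eq_add_neg]
      refine IsE1.add hW ?_ (IsE1.neg hW.short ?_)
      · rw [isE1_some, hvx]; exact hx
      · rw [isE1_some]; exact hx
    · push_neg at hx
      have hy : A.valuation y ≤ 1 := model_v_y_le_one hW h.1 hx
      refine isE1_sub_of_close hW hv2 h' h (hvx ▸ hx) (hvy ▸ hy)
        (valuation_apply_sub_lt_one_of_mem_inertia hσ hx)
        (valuation_apply_sub_lt_one_of_mem_inertia hσ hy) ?_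
      intro hy1
      rw [hvy] at hy1
      have h1 := hS x y h rfl hx hy1
      have h2 : 3 * σ x ^ 2 + 2 * (M⁄L).a₂ * σ x + (M⁄L).a₄ =
          σ (3 * x ^ 2 + 2 * (M⁄L).a₂ * x + (M⁄L).a₄) := by
        rw [model_baseChange_a₂, model_baseChange_a₄]
        simp only [map_add, map_mul, map_pow, AlgEquiv.commutes, map_ofNat]
      rw [h2, valuation_apply_of_mem_inertia hσ, h1]

/-- **Model theorem, good reduction.** -/
theorem model_fixed_good (hσ : σ ∈ A.inertiaSubgroupIn K)
    (hW : IsIntegralShort A.valuation (M⁄L)) (hv2 : A.valuation 2 = 1)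
    (h4 : A.valuation (M⁄L).a₄ = 1)
    (hd : A.valuation ((M⁄L).a₂ ^ 2 - 4 * (M⁄L).a₄) = 1) {n : ℕ}
    (hn : A.valuation (n : L) = 1) {T : (M⁄L).Point} (hT : n • T = 0) : σ • T = T :=
  model_fixed_of_isE1 hW hn hT
    (model_isE1_smul_sub hσ hW hv2 T fun _ _ h _ hx hy => model_good_hns hW h4 hd h.1 hx hy)

/-- Multiplicative case: points of `E0` are moved by inertia only inside their coset modulo the
kernel of reduction. -/
theorem model_mult_isE1_smul_sub (hσ : σ ∈ A.inertiaSubgroupIn K)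
    (hM : IsMult A.valuation (M⁄L)) (S : (M⁄L).Point) (hS : IsE0 A.valuation S) :
    IsE1 A.valuation (σ • S - S) := by
  refine model_isE1_smul_sub hσ hM.integralShort hM.two S ?_
  intro x y h hSeq hx hy
  subst hSeq
  exact model_mult_hns hM h.1 (le_antisymm hx hS) hy

/-- **Model theorem, multiplicative reduction** with `v(a₄) ∈ n · v(K)`. -/
theorem model_fixed_mult [IsAlgClosed L] (hσ : σ ∈ A.inertiaSubgroupIn K)
    (hM : IsMult A.valuation (M⁄L)) {n : ℕ} (hn : A.valuation (n : L) = 1) (ϖ : K) (k : ℕ)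
    (h4 : A.valuation (M⁄L).a₄ = A.valuation (algebraMap K L ϖ) ^ (n * k))
    {T : (M⁄L).Point} (hT : n • T = 0) : σ • T = T := by
  refine model_fixed_of_isE1 hM.integralShort hn hT ?_
  -- it is enough to find `S` in `E0` with `σ S - S = σ T - T`
  suffices h : ∃ S : (M⁄L).Point, IsE0 A.valuation S ∧ σ • S - S = σ • T - T by
    obtain ⟨S, hS, hST⟩ := h
    rw [← hST]
    exact model_mult_isE1_smul_sub hσ hM S hS
  rcases T with _ | ⟨x, y, h⟩
  · exact ⟨0, isE0_zero _, rfl⟩
  by_cases hx1 : 1 ≤ A.valuation x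
  · exact ⟨Affine.Point.some x y h, hx1, rfl⟩
  push_neg at hx1
  by_cases hx2 : A.valuation x ≤ A.valuation (M⁄L).a₄
  · -- `S = T + T0`
    have h0 := nonsingular_zero_zero hM.short hM.a₄_ne
    refine ⟨Affine.Point.some x y h + Affine.Point.some 0 0 h0, isE0_add_T0 hM h hx2 h0, ?_⟩
    have hT0 : σ • (Affine.Point.some 0 0 h0 : (M⁄L).Point) = Affine.Point.some 0 0 h0 := by
      obtain ⟨h', hsm⟩ := model_smul_some M σ h0
      rw [hsm]
      exact model_some_eq_some (map_zero σ) (map_zero σ) _ _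
    rw [smul_add, hT0]
    abel
  push_neg at hx2
  -- level point: its level is the valuation of an element of `K`
  obtain ⟨m, hm⟩ := level_pow_eq hM h hx1 hx2 n hT
  have hn0 : n ≠ 0 := by
    rintro rfl
    simp at hn
  have hvx : A.valuation x = A.valuation (algebraMap K L (ϖ ^ (k * (2 * m)))) := by
    have h5 : A.valuation x ^ n = (A.valuation (algebraMap K L ϖ) ^ (k * (2 * m))) ^ n := by
      rw [hm, h4, ← pow_mul, ← pow_mul]
      congr 1
      ring
    rw [map_pow, map_pow]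
    exact (pow_left_inj₀ zero_le' zero_le' hn0).mp h5
  have hσxR : σ (algebraMap K L (ϖ ^ (k * (2 * m)))) = algebraMap K L (ϖ ^ (k * (2 * m))) :=
    σ.commutes _
  generalize algebraMap K L (ϖ ^ (k * (2 * m))) = xR at hvx hσxR
  have hv0 : (0 : A.ValueGroup) < A.valuation x := lt_of_le_of_lt zero_le' hx2
  have hx0 : x ≠ 0 := by
    rintro rfl
    rw [map_zero] at hv0
    exact lt_irrefl _ hv0
  have hxR0 : xR ≠ 0 := by
    rintro rfl
    rw [hvx, map_zero] at hv0
    exact lt_irrefl _ hv0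
  have h20 : (2 : L) ≠ 0 := by
    intro h2
    have h3 := hM.two
    rw [h2, map_zero] at h3
    exact zero_ne_one h3
  -- a square root of `a₂ + xR + a₄ / xR`
  obtain ⟨t0, ht0⟩ := IsAlgClosed.exists_pow_nat_eq ((M⁄L).a₂ + xR + (M⁄L).a₄ / xR)
    (n := 2) (by norm_num)
  have heq := model_equation hM.short h.1
  have ht : (y / x) ^ 2 = (M⁄L).a₂ + x + (M⁄L).a₄ / x := by
    field_simp
    linear_combination heq
  have hsmall : A.valuation (x + (M⁄L).a₄ / x) < 1 := by
    refine Valuation.map_add_lt _ hx1 ?_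
    rw [map_div₀]
    exact (div_lt_one₀ hv0).mpr hx2
  have hsmallR : A.valuation (xR + (M⁄L).a₄ / xR) < 1 := by
    refine Valuation.map_add_lt _ (hvx ▸ hx1) ?_
    rw [map_div₀, ← hvx]
    exact (div_lt_one₀ hv0).mpr hx2
  have hprod : A.valuation ((y / x - t0) * (y / x + t0)) < 1 := by
    have h5 : (y / x - t0) * (y / x + t0) =
        (x + (M⁄L).a₄ / x) - (xR + (M⁄L).a₄ / xR) := by
      linear_combination ht - ht0
    rw [h5]
    exact Valuation.map_sub_lt _ hsmall hsmallR
  -- choose the square root on the branch of `T`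
  obtain ⟨tR, htR, hbr⟩ : ∃ tR : L, tR ^ 2 = (M⁄L).a₂ + xR + (M⁄L).a₄ / xR ∧
      A.valuation (y / x - tR) < 1 := by
    rw [map_mul] at hprod
    by_cases hc : A.valuation (y / x - t0) < 1
    · exact ⟨t0, ht0, hc⟩
    · push_neg at hc
      refine ⟨-t0, by rw [neg_sq]; exact ht0, ?_⟩
      rw [sub_neg_eq_add]
      by_contra hc2
      push_neg at hc2
      exact absurd hprod (not_lt.mpr (one_le_mul_of_one_le_of_one_le hc hc2))
  have hvtR : A.valuation tR = 1 := by
    have h1 : A.valuation (tR ^ 2) = 1 := by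
      rw [htR, add_assoc, Valuation.map_add_eq_of_lt_left _ (by rw [hM.a₂]; exact hsmallR),
        hM.a₂]
    rw [map_pow] at h1
    exact (pow_left_inj₀ zero_le' zero_le' two_ne_zero).mp (by rw [h1, one_pow])
  have htR0 : tR ≠ 0 := by
    rintro rfl
    rw [map_zero] at hvtR
    exact zero_ne_one hvtR
  -- the auxiliary point `R = (xR, xR tR)`
  have hReq : (M⁄L).Equation xR (xR * tR) := by
    rw [model_equation_iff hM.short]
    have h5 : (xR * tR) ^ 2 = xR ^ 2 * tR ^ 2 := by ring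
    rw [h5, htR]
    field_simp
    ring
  have hR : (M⁄L).Nonsingular xR (xR * tR) := by
    rw [Affine.nonsingular_iff']
    refine ⟨hReq, Or.inr ?_⟩
    rw [hM.short.a₁, hM.short.a₃, zero_mul, add_zero, add_zero]
    exact mul_ne_zero h20 (mul_ne_zero hxR0 htR0)
  have hσtR : σ tR = tR := by
    have h1 : (σ tR) ^ 2 = tR ^ 2 := by
      rw [← map_pow, htR, model_baseChange_a₂, model_baseChange_a₄]
      simp only [map_add, map_div₀, AlgEquiv.commutes, hσxR]
    have h2 : (σ tR - tR) * (σ tR + tR) = 0 := by linear_combination h1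
    rcases mul_eq_zero.mp h2 with h3 | h3
    · exact sub_eq_zero.mp h3
    · exfalso
      have h6 : σ tR - tR = -(2 * tR) := by linear_combination h3
      have h5 := valuation_apply_sub_lt_one_of_mem_inertia hσ (le_of_eq hvtR)
      rw [h6, Valuation.map_neg, map_mul, hM.two, hvtR, one_mul] at h5
      exact lt_irrefl _ h5
  have hσR : σ • (Affine.Point.some xR (xR * tR) hR : (M⁄L).Point) =
      Affine.Point.some xR (xR * tR) hR := by
    obtain ⟨h', hsm⟩ := model_smul_some M σ hR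
    rw [hsm]
    exact model_some_eq_some hσxR (by rw [map_mul, hσxR, hσtR]) _ _
  refine ⟨Affine.Point.some x y h - Affine.Point.some xR (xR * tR) hR,
    isE0_sub_of_same_level hM h hR hx1 hx2 hvx.symm ?_, ?_⟩
  · rw [mul_div_cancel_left₀ tR hxR0]
    exact hbr
  · rw [smul_sub, hσR]
    abel

end Gal

section Rat

open WeierstrassCurve.Affine

local notation "Qbar" => AlgebraicClosure ℚ

theorem model_isShort_baseChange (M : WeierstrassCurve ℚ) (h₁ : M.a₁ = 0) (h₃ : M.a₃ = 0)
    (h₆ : M.a₆ = 0) : IsShort (M⁄Qbar) := by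
  refine ⟨?_, ?_, ?_⟩
  · change algebraMap ℚ Qbar M.a₁ = 0
    rw [h₁, map_zero]
  · change algebraMap ℚ Qbar M.a₃ = 0
    rw [h₃, map_zero]
  · change algebraMap ℚ Qbar M.a₆ = 0
    rw [h₆, map_zero]

theorem model_torsion_nsmul (M : WeierstrassCurve ℚ) (n : ℕ)
    (T : Submodule.torsionBy ℤ (M⁄Qbar).Point n) : n • (T : (M⁄Qbar).Point) = 0 := by
  have h := (Submodule.mem_torsionBy_iff _ _).mp T.2
  rwa [Nat.cast_smul_eq_nsmul] at h

/-- **Model theorem over `ℚ`, good reduction.** -/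
theorem unramifiedAt_of_good (M : WeierstrassCurve ℚ) (n q : ℕ)
    (h₁ : M.a₁ = 0) (h₃ : M.a₃ = 0) (h₆ : M.a₆ = 0)
    (H : ∀ A : ValuationSubring (AlgebraicClosure ℚ), A.LiesOverPrime q →
      A.valuation 2 = 1 ∧ A.valuation (n : AlgebraicClosure ℚ) = 1 ∧
      A.valuation (algebraMap ℚ (AlgebraicClosure ℚ) M.a₂) ≤ 1 ∧
      A.valuation (algebraMap ℚ (AlgebraicClosure ℚ) M.a₄) = 1 ∧
      A.valuation (algebraMap ℚ (AlgebraicClosure ℚ) (M.a₂ ^ 2 - 4 * M.a₄)) = 1) :
    WeierstrassCurve.Affine.Point.GaloisRepUnramifiedAt (K := AlgebraicClosure ℚ) ℚ M n q := by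
  intro A hA σ hσ T
  haveI : Algebra.IsAlgebraic ℚ Qbar := AlgebraicClosure.isAlgebraic ℚ
  obtain ⟨hv2, hvn, ha2, ha4, hd⟩ := H A hA
  apply Subtype.ext
  have hW : IsIntegralShort A.valuation (M⁄Qbar) :=
    ⟨model_isShort_baseChange M h₁ h₃ h₆, ha2, le_of_eq ha4⟩
  have hd' : A.valuation ((M⁄Qbar).a₂ ^ 2 - 4 * (M⁄Qbar).a₄) = 1 := by
    rw [model_baseChange_a₂, model_baseChange_a₄]
    rw [map_sub, map_pow, map_mul, map_ofNat] at hd
    exact hd
  exact model_fixed_good hσ hW hv2 ha4 hd' hvn (model_torsion_nsmul M n T)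

/-- **Model theorem over `ℚ`, multiplicative reduction** with `v(a₄) ∈ n · v(q)`. -/
theorem unramifiedAt_of_mult (M : WeierstrassCurve ℚ) (n q : ℕ)
    (h₁ : M.a₁ = 0) (h₃ : M.a₃ = 0) (h₆ : M.a₆ = 0) (h₄ : M.a₄ ≠ 0)
    (H : ∀ A : ValuationSubring (AlgebraicClosure ℚ), A.LiesOverPrime q →
      A.valuation 2 = 1 ∧ A.valuation (n : AlgebraicClosure ℚ) = 1 ∧
      A.valuation (algebraMap ℚ (AlgebraicClosure ℚ) M.a₂) = 1 ∧
      A.valuation (algebraMap ℚ (AlgebraicClosure ℚ) M.a₄) < 1 ∧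
      ∃ k : ℕ, A.valuation (algebraMap ℚ (AlgebraicClosure ℚ) M.a₄) =
        A.valuation (q : AlgebraicClosure ℚ) ^ (n * k)) :
    WeierstrassCurve.Affine.Point.GaloisRepUnramifiedAt (K := AlgebraicClosure ℚ) ℚ M n q := by
  intro A hA σ hσ T
  haveI : Algebra.IsAlgebraic ℚ Qbar := AlgebraicClosure.isAlgebraic ℚ
  obtain ⟨hv2, hvn, ha2, ha4, k, hk⟩ := H A hA
  apply Subtype.ext
  have hM : IsMult A.valuation (M⁄Qbar) := by
    refine ⟨model_isShort_baseChange M h₁ h₃ h₆, hv2, ha2, ha4, ?_⟩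
    rw [model_baseChange_a₄]
    exact (map_ne_zero _).mpr h₄
  have hk' : A.valuation (M⁄Qbar).a₄ = A.valuation (algebraMap ℚ Qbar (q : ℚ)) ^ (n * k) := by
    rw [model_baseChange_a₄, hk, map_natCast (algebraMap ℚ Qbar) q]
  exact model_fixed_mult hσ hM hvn (q : ℚ) k hk' (model_torsion_nsmul M n T)

end Rat

end Fermat.Agent.S05Lib
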