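/-
S05, file `Lib/S05/RatVal.lean` (helper6): the valuation of a valuation subring of `ℚ̄` lying
over a prime `q`, evaluated on rational numbers, is `v(q) ^ padicValRat q r`.
-/
import Mathlib
import Fermat.Prelude.Def_FLTPrelim_Ramification

set_option autoImplicit false

namespace Fermat.Agent.S05Lib

/-- An integer prime to `q` is a unit for every valuation subring lying over the prime `q`. -/
theorem valuation_intCast_eq_one (A : ValuationSubring (AlgebraicClosure ℚ)) {q : ℕ}
    (hq : q.Prime) (hA : A.LiesOverPrime q) (m : ℤ) (hm : ¬ (q : ℤ) ∣ m) :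
    A.valuation (m : AlgebraicClosure ℚ) = 1 := by
  have hqv : A.valuation (q : AlgebraicClosure ℚ) < 1 := A.mem_nonunits_iff.mp hA
  have hint : ∀ k : ℤ, A.valuation (k : AlgebraicClosure ℚ) ≤ 1 := fun k =>
    (A.valuation_le_one_iff _).mpr (intCast_mem A k)
  have hcop : IsCoprime m (q : ℤ) := by
    have hqp : Prime (q : ℤ) := Nat.prime_iff_prime_int.mp hq
    exact (IsCoprime.symm ((Prime.coprime_iff_not_dvd hqp).mpr hm))
  obtain ⟨a, b, hab⟩ := hcop
  have h1 : (a : AlgebraicClosure ℚ) * (m : AlgebraicClosure ℚ) =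
      1 - (b : AlgebraicClosure ℚ) * (q : AlgebraicClosure ℚ) := by
    have h2 : ((a * m + b * (q : ℤ) : ℤ) : AlgebraicClosure ℚ) = 1 := by
      rw [hab]
      exact Int.cast_one
    push_cast at h2
    linear_combination h2
  have hbq : A.valuation ((b : AlgebraicClosure ℚ) * (q : AlgebraicClosure ℚ)) < 1 := by
    rw [map_mul]
    calc A.valuation (b : AlgebraicClosure ℚ) * A.valuation (q : AlgebraicClosure ℚ)
        ≤ 1 * A.valuation (q : AlgebraicClosure ℚ) := mul_le_mul_left (hint b) _
      _ = A.valuation (q : AlgebraicClosure ℚ) := one_mul _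
      _ < 1 := hqv
  have h3 : A.valuation ((a : AlgebraicClosure ℚ) * (m : AlgebraicClosure ℚ)) = 1 := by
    rw [h1]
    exact Valuation.map_one_sub_of_lt _ hbq
  rw [map_mul] at h3
  refine le_antisymm (hint m) ?_
  calc (1 : A.ValueGroup) = A.valuation (a : AlgebraicClosure ℚ) * A.valuation (m : AlgebraicClosure ℚ) :=
        h3.symm
    _ ≤ 1 * A.valuation (m : AlgebraicClosure ℚ) := mul_le_mul_left (hint a) _
    _ = A.valuation (m : AlgebraicClosure ℚ) := one_mul _

/-- The valuation of a nonzero natural number. -/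
theorem valuation_natCast_eq_pow (A : ValuationSubring (AlgebraicClosure ℚ)) {q : ℕ}
    (hq : q.Prime) (hA : A.LiesOverPrime q) (n : ℕ) (hn : n ≠ 0) :
    A.valuation (n : AlgebraicClosure ℚ) =
      A.valuation (q : AlgebraicClosure ℚ) ^ (padicValNat q n) := by
  have h1 := Nat.ordProj_mul_ordCompl_eq_self n q
  have h2 := Nat.not_dvd_ordCompl hq hn
  rw [Nat.factorization_def n hq] at h1 h2
  generalize n / q ^ padicValNat q n = c at h1 h2
  have h3 : A.valuation ((c : ℤ) : AlgebraicClosure ℚ) = 1 :=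
    valuation_intCast_eq_one A hq hA _ (by exact_mod_cast h2)
  have h4 : (n : AlgebraicClosure ℚ) = (q : AlgebraicClosure ℚ) ^ padicValNat q n *
      ((c : ℤ) : AlgebraicClosure ℚ) := by
    conv_lhs => rw [← h1]
    push_cast
    ring
  rw [h4, map_mul, map_pow, h3, mul_one]

/-- The valuation of a nonzero integer. -/
theorem valuation_intCast_eq_pow (A : ValuationSubring (AlgebraicClosure ℚ)) {q : ℕ}
    (hq : q.Prime) (hA : A.LiesOverPrime q) (m : ℤ) (hm : m ≠ 0) :
    A.valuation (m : AlgebraicClosure ℚ) =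
      A.valuation (q : AlgebraicClosure ℚ) ^ (padicValInt q m) := by
  have hn : m.natAbs ≠ 0 := Int.natAbs_ne_zero.mpr hm
  have h := valuation_natCast_eq_pow A hq hA m.natAbs hn
  have hv : A.valuation (m : AlgebraicClosure ℚ) = A.valuation ((m.natAbs : ℕ) : AlgebraicClosure ℚ) := by
    rcases Int.natAbs_eq m with h' | h'
    · conv_lhs => rw [h']
      simp
    · conv_lhs => rw [h']
      simp
  rw [hv, h]
  rfl

/-- The valuation of a nonzero rational number. -/
theorem valuation_rat_eq_zpow (A : ValuationSubring (AlgebraicClosure ℚ)) {q : ℕ} (hq : q.Prime)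
    (hA : A.LiesOverPrime q) (r : ℚ) (hr : r ≠ 0) :
    A.valuation (algebraMap ℚ (AlgebraicClosure ℚ) r) =
      A.valuation (q : AlgebraicClosure ℚ) ^ (padicValRat q r) := by
  have hq0 : A.valuation (q : AlgebraicClosure ℚ) ≠ 0 := by
    rw [Valuation.ne_zero_iff]
    exact_mod_cast hq.ne_zero
  have hnum : r.num ≠ 0 := Rat.num_ne_zero.mpr hr
  have hden : r.den ≠ 0 := r.den_nz
  have e : algebraMap ℚ (AlgebraicClosure ℚ) r =
      (r.num : AlgebraicClosure ℚ) / (r.den : AlgebraicClosure ℚ) := by
    conv_lhs => rw [← Rat.num_div_den r]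
    rw [map_div₀, map_intCast, map_natCast]
  rw [e, map_div₀, valuation_intCast_eq_pow A hq hA r.num hnum,
    valuation_natCast_eq_pow A hq hA r.den hden]
  unfold padicValRat
  rw [zpow_sub₀ hq0, zpow_natCast, zpow_natCast]

end Fermat.Agent.S05Lib
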