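/-
S05 chunk C1 (helper6): the isomorphism of point groups induced by an admissible change of
variables of Weierstrass curves over a field.  Mathlib only.

* `VCRel V W u r s t` : the affine curve `V` is obtained from `W` by the substitution
  `(x, y) ↦ (u² x + r, u³ y + u² s x + t)` (polynomial relations between the coefficients).
* `VCRel.pointEquiv : V.Point ≃+ W.Point`, `VCRel.pointEquiv_some`, `VCRel.pointEquiv_symm_some`.
* `pointVC W C : (C • W).toAffine.Point ≃+ W.toAffine.Point` for Mathlib's `VariableChange`,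
  with `pointVC_some`, `pointVC_zero`, `pointVC_symm_some`.
-/
import Mathlib

set_option autoImplicit false

namespace Fermat.Agent.S05Lib

open WeierstrassCurve

section vcCore

variable {F : Type*} [Field F]

/-- The affine Weierstrass curve `V` is obtained from `W` by the change of variables
`(x, y) ↦ (u² x + r, u³ y + u² s x + t)`: a point `(x, y)` of `V` gives the point
`(u² x + r, u³ y + u² s x + t)` of `W`. -/
structure VCRel (V W : WeierstrassCurve.Affine F) (u r s t : F) : Prop where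
  u_ne : u ≠ 0
  h1 : u * V.a₁ = W.a₁ + 2 * s
  h2 : u ^ 2 * V.a₂ = W.a₂ - s * W.a₁ + 3 * r - s ^ 2
  h3 : u ^ 3 * V.a₃ = W.a₃ + r * W.a₁ + 2 * t
  h4 : u ^ 4 * V.a₄ =
    W.a₄ - s * W.a₃ + 2 * r * W.a₂ - (t + r * s) * W.a₁ + 3 * r ^ 2 - 2 * s * t
  h6 : u ^ 6 * V.a₆ =
    W.a₆ + r * W.a₄ + r ^ 2 * W.a₂ + r ^ 3 - t * W.a₃ - t ^ 2 - r * t * W.a₁

variable {V W : WeierstrassCurve.Affine F} {u r s t : F}

theorem VCRel.equation_iff (H : VCRel V W u r s t) (x y : F) :
    W.Equation (u ^ 2 * x + r) (u ^ 3 * y + u ^ 2 * s * x + t) ↔ V.Equation x y := by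
  obtain ⟨hu, h1, h2, h3, h4, h6⟩ := H
  rw [Affine.equation_iff, Affine.equation_iff]
  constructor
  · intro he
    have key : u ^ 6 * (y ^ 2 + V.a₁ * x * y + V.a₃ * y -
        (x ^ 3 + V.a₂ * x ^ 2 + V.a₄ * x + V.a₆)) = 0 := by
      linear_combination he + u ^ 5 * x * y * h1 + u ^ 3 * y * h3 - u ^ 4 * x ^ 2 * h2
        - u ^ 2 * x * h4 - h6
    exact sub_eq_zero.mp ((mul_eq_zero.mp key).resolve_left (pow_ne_zero 6 hu))
  · intro he
    linear_combination u ^ 6 * he - u ^ 5 * x * y * h1 - u ^ 3 * y * h3 + u ^ 4 * x ^ 2 * h2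
      + u ^ 2 * x * h4 + h6

theorem VCRel.nonsingular_iff (H : VCRel V W u r s t) (x y : F) :
    W.Nonsingular (u ^ 2 * x + r) (u ^ 3 * y + u ^ 2 * s * x + t) ↔ V.Nonsingular x y := by
  rw [Affine.nonsingular_iff, Affine.nonsingular_iff, H.equation_iff]
  obtain ⟨hu, h1, h2, h3, h4, h6⟩ := H
  refine and_congr_right fun _ => ?_
  constructor
  · intro hn
    by_contra hcon
    push Not at hcon
    obtain ⟨e1, e2⟩ := hcon
    rcases hn with hn | hn
    · exact hn (by
        linear_combination u ^ 4 * e1 - s * u ^ 3 * e2 + (s * u ^ 2 * x - u ^ 3 * y) * h1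
          + 2 * u ^ 2 * x * h2 + s * h3 + h4)
    · exact hn (by linear_combination u ^ 3 * e2 - u ^ 2 * x * h1 - h3)
  · intro hn
    by_contra hcon
    push Not at hcon
    obtain ⟨e1, e2⟩ := hcon
    have k2 : u ^ 3 * (y - (-y - V.a₁ * x - V.a₃)) = 0 := by
      linear_combination e2 + u ^ 2 * x * h1 + h3
    have k1 : u ^ 4 * (V.a₁ * y - (3 * x ^ 2 + 2 * V.a₂ * x + V.a₄)) = 0 := by
      linear_combination e1 + s * e2 + u ^ 3 * y * h1 - 2 * u ^ 2 * x * h2 - h4
    rcases hn with hn | hn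
    · exact hn (sub_eq_zero.mp ((mul_eq_zero.mp k1).resolve_left (pow_ne_zero 4 hu)))
    · exact hn (sub_eq_zero.mp ((mul_eq_zero.mp k2).resolve_left (pow_ne_zero 3 hu)))

theorem VCRel.nonsingular_inv (H : VCRel V W u r s t) {X Y : F} (h : W.Nonsingular X Y) :
    V.Nonsingular ((X - r) / u ^ 2) ((Y - s * (X - r) - t) / u ^ 3) := by
  have hu := H.u_ne
  refine (H.nonsingular_iff _ _).mp ?_
  have e1 : u ^ 2 * ((X - r) / u ^ 2) + r = X := by field_simp; ring
  have e2 : u ^ 3 * ((Y - s * (X - r) - t) / u ^ 3) + u ^ 2 * s * ((X - r) / u ^ 2) + t = Y := by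
    field_simp; ring
  rw [e1, e2]
  exact h

/-- The substitution on points. -/
def VCRel.toFun (H : VCRel V W u r s t) : V.Point → W.Point
  | .zero => .zero
  | .some x y h =>
    .some (u ^ 2 * x + r) (u ^ 3 * y + u ^ 2 * s * x + t) ((H.nonsingular_iff x y).mpr h)

/-- The inverse substitution on points. -/
def VCRel.invFun (H : VCRel V W u r s t) : W.Point → V.Point
  | .zero => .zero
  | .some X Y h => .some ((X - r) / u ^ 2) ((Y - s * (X - r) - t) / u ^ 3) (H.nonsingular_inv h)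

theorem VCRel.toFun_zero (H : VCRel V W u r s t) : H.toFun 0 = 0 := rfl

theorem VCRel.toFun_some (H : VCRel V W u r s t) {x y : F} (h : V.Nonsingular x y) :
    H.toFun (.some x y h) =
      .some (u ^ 2 * x + r) (u ^ 3 * y + u ^ 2 * s * x + t) ((H.nonsingular_iff x y).mpr h) :=
  rfl

theorem VCRel.invFun_zero (H : VCRel V W u r s t) : H.invFun 0 = 0 := rfl

theorem VCRel.invFun_some (H : VCRel V W u r s t) {X Y : F} (h : W.Nonsingular X Y) :
    H.invFun (.some X Y h) =
      .some ((X - r) / u ^ 2) ((Y - s * (X - r) - t) / u ^ 3) (H.nonsingular_inv h) :=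
  rfl

theorem VCRel.invFun_toFun (H : VCRel V W u r s t) (P : V.Point) : H.invFun (H.toFun P) = P := by
  have hu := H.u_ne
  rcases P with _ | ⟨x, y, h⟩
  · rfl
  · rw [H.toFun_some, H.invFun_some, Affine.Point.some.injEq]
    constructor
    · field_simp; ring
    · field_simp; ring

theorem VCRel.toFun_invFun (H : VCRel V W u r s t) (Q : W.Point) : H.toFun (H.invFun Q) = Q := by
  have hu := H.u_ne
  rcases Q with _ | ⟨x, y, h⟩
  · rfl
  · rw [H.invFun_some, H.toFun_some, Affine.Point.some.injEq]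
    constructor
    · field_simp; ring
    · field_simp; ring


section vcAdd

variable [DecidableEq F]

theorem VCRel.toFun_add (H : VCRel V W u r s t) (P Q : V.Point) :
    H.toFun (P + Q) = H.toFun P + H.toFun Q := by
  have hu := H.u_ne
  have h1 := H.h1
  have h2 := H.h2
  have h3 := H.h3
  have h4 := H.h4
  rcases P with _ | ⟨x₁, y₁, hP⟩
  · change H.toFun (0 + Q) = 0 + H.toFun Q
    rw [zero_add, zero_add]
  rcases Q with _ | ⟨x₂, y₂, hQ⟩
  · change H.toFun (Affine.Point.some x₁ y₁ hP + 0) = H.toFun (Affine.Point.some x₁ y₁ hP) + 0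
    rw [add_zero, add_zero]
  have hneg : ∀ x y : F, u ^ 3 * V.negY x y + u ^ 2 * s * x + t =
      W.negY (u ^ 2 * x + r) (u ^ 3 * y + u ^ 2 * s * x + t) := by
    intro x y
    simp only [Affine.negY]
    linear_combination -u ^ 2 * x * h1 - h3
  by_cases hxy : x₁ = x₂ ∧ y₁ = V.negY x₂ y₂
  · rw [Affine.Point.add_of_Y_eq hxy.1 hxy.2, H.toFun_some, H.toFun_some]
    have hx' : u ^ 2 * x₁ + r = u ^ 2 * x₂ + r := by rw [hxy.1]
    have hy' : u ^ 3 * y₁ + u ^ 2 * s * x₁ + t =
        W.negY (u ^ 2 * x₂ + r) (u ^ 3 * y₂ + u ^ 2 * s * x₂ + t) := by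
      rw [← hneg, hxy.2, hxy.1]
    rw [Affine.Point.add_of_Y_eq hx' hy']
    rfl
  · have hxy' : ¬(u ^ 2 * x₁ + r = u ^ 2 * x₂ + r ∧ u ^ 3 * y₁ + u ^ 2 * s * x₁ + t =
        W.negY (u ^ 2 * x₂ + r) (u ^ 3 * y₂ + u ^ 2 * s * x₂ + t)) := by
      rintro ⟨e1, e2⟩
      apply hxy
      have hx : x₁ = x₂ := by
        have h0 : u ^ 2 * (x₁ - x₂) = 0 := by linear_combination e1
        exact sub_eq_zero.mp ((mul_eq_zero.mp h0).resolve_left (pow_ne_zero 2 hu))
      refine ⟨hx, ?_⟩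
      rw [← hneg] at e2
      have h0 : u ^ 3 * (y₁ - V.negY x₂ y₂) = 0 := by
        rw [hx] at e2
        linear_combination e2
      exact sub_eq_zero.mp ((mul_eq_zero.mp h0).resolve_left (pow_ne_zero 3 hu))
    have hℓ : W.slope (u ^ 2 * x₁ + r) (u ^ 2 * x₂ + r) (u ^ 3 * y₁ + u ^ 2 * s * x₁ + t)
        (u ^ 3 * y₂ + u ^ 2 * s * x₂ + t) = u * V.slope x₁ x₂ y₁ y₂ + s := by
      by_cases hx : x₁ = x₂
      · have hy : y₁ ≠ V.negY x₂ y₂ := fun hy => hxy ⟨hx, hy⟩
        have hy' : u ^ 3 * y₁ + u ^ 2 * s * x₁ + t ≠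
            W.negY (u ^ 2 * x₂ + r) (u ^ 3 * y₂ + u ^ 2 * s * x₂ + t) :=
          fun hy' => hxy' ⟨by rw [hx], hy'⟩
        have hyy : y₁ = y₂ := Affine.Y_eq_of_Y_ne hP.1 hQ.1 hx hy
        subst hx hyy
        rw [Affine.slope_of_Y_ne rfl hy', Affine.slope_of_Y_ne rfl hy]
        have hD' : y₁ - V.negY x₁ y₁ ≠ 0 := sub_ne_zero.mpr hy
        have hD : (u ^ 3 * y₁ + u ^ 2 * s * x₁ + t) -
            W.negY (u ^ 2 * x₁ + r) (u ^ 3 * y₁ + u ^ 2 * s * x₁ + t) ≠ 0 := sub_ne_zero.mpr hy'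
        rw [div_eq_iff hD]
        obtain ⟨ℓ, hℓ⟩ : ∃ ℓ : F, ℓ =
            (3 * x₁ ^ 2 + 2 * V.a₂ * x₁ + V.a₄ - V.a₁ * y₁) / (y₁ - V.negY x₁ y₁) := ⟨_, rfl⟩
        rw [← hℓ]
        have hℓ2 : ℓ * (y₁ - V.negY x₁ y₁) =
            3 * x₁ ^ 2 + 2 * V.a₂ * x₁ + V.a₄ - V.a₁ * y₁ := by
          rw [hℓ]
          exact div_mul_cancel₀ _ hD'
        simp only [Affine.negY] at hℓ2 ⊢
        linear_combination (-u ^ 4) * hℓ2 + (u ^ 3 * ℓ * x₁ + u ^ 3 * y₁) * h1
          - 2 * u ^ 2 * x₁ * h2 + u * ℓ * h3 - h4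
      · have hx' : u ^ 2 * x₁ + r ≠ u ^ 2 * x₂ + r := fun h => hx (by
          have h0 : u ^ 2 * (x₁ - x₂) = 0 := by linear_combination h
          exact sub_eq_zero.mp ((mul_eq_zero.mp h0).resolve_left (pow_ne_zero 2 hu)))
        rw [Affine.slope_of_X_ne hx', Affine.slope_of_X_ne hx]
        have hd : x₁ - x₂ ≠ 0 := sub_ne_zero.mpr hx
        have hd' : u ^ 2 * x₁ + r - (u ^ 2 * x₂ + r) ≠ 0 := sub_ne_zero.mpr hx'
        field_simp
        ring
    rw [Affine.Point.add_some hxy, H.toFun_some, H.toFun_some, H.toFun_some,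
      Affine.Point.add_some hxy', Affine.Point.some.injEq]
    constructor
    · rw [hℓ]
      simp only [Affine.addX]
      linear_combination u * V.slope x₁ x₂ y₁ y₂ * h1 - h2
    · rw [hℓ]
      simp only [Affine.addY, Affine.negAddY, Affine.negY, Affine.addX]
      linear_combination
        (-u ^ 2 * (V.slope x₁ x₂ y₁ y₂ ^ 2 + V.a₁ * V.slope x₁ x₂ y₁ y₂ - V.a₂ - x₁ - x₂)
          - (u * V.slope x₁ x₂ y₁ y₂ + s + W.a₁) * u * V.slope x₁ x₂ y₁ y₂) * h1
        + (u * V.slope x₁ x₂ y₁ y₂ + s + W.a₁) * h2 - h3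

/-- The isomorphism of point groups induced by a change of variables. -/
def VCRel.pointEquiv (H : VCRel V W u r s t) : V.Point ≃+ W.Point where
  toFun := H.toFun
  invFun := H.invFun
  left_inv := H.invFun_toFun
  right_inv := H.toFun_invFun
  map_add' := H.toFun_add

theorem VCRel.pointEquiv_zero (H : VCRel V W u r s t) : H.pointEquiv 0 = 0 := rfl

theorem VCRel.pointEquiv_some (H : VCRel V W u r s t) {x y : F} (h : V.Nonsingular x y) :
    H.pointEquiv (.some x y h) =
      .some (u ^ 2 * x + r) (u ^ 3 * y + u ^ 2 * s * x + t) ((H.nonsingular_iff x y).mpr h) :=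
  rfl

theorem VCRel.pointEquiv_symm_zero (H : VCRel V W u r s t) : H.pointEquiv.symm 0 = 0 := rfl

theorem VCRel.pointEquiv_symm_some (H : VCRel V W u r s t) {X Y : F} (h : W.Nonsingular X Y) :
    H.pointEquiv.symm (.some X Y h) =
      .some ((X - r) / u ^ 2) ((Y - s * (X - r) - t) / u ^ 3) (H.nonsingular_inv h) :=
  rfl

end vcAdd

end vcCore

/-! ## Mathlib's `VariableChange` -/

section vcMathlib

variable {F : Type*} [Field F]

/-- Mathlib's `C • W` is related to `W` by the substitution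
`(x, y) ↦ (u² x + r, u³ y + u² s x + t)`. -/
theorem vcRel_smul (W : WeierstrassCurve F) (C : VariableChange F) :
    VCRel (C • W).toAffine W.toAffine (C.u : F) C.r C.s C.t := by
  have hu : (C.u : F) ≠ 0 := C.u.ne_zero
  have hinv : ((C.u⁻¹ : Fˣ) : F) = (C.u : F)⁻¹ := Units.val_inv_eq_inv_val C.u
  refine ⟨hu, ?_, ?_, ?_, ?_, ?_⟩
  · change (C.u : F) * (C • W).a₁ = _
    rw [variableChange_a₁, hinv]
    field_simp
  · change (C.u : F) ^ 2 * (C • W).a₂ = _
    rw [variableChange_a₂, hinv]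
    field_simp
  · change (C.u : F) ^ 3 * (C • W).a₃ = _
    rw [variableChange_a₃, hinv]
    field_simp
  · change (C.u : F) ^ 4 * (C • W).a₄ = _
    rw [variableChange_a₄, hinv]
    field_simp
  · change (C.u : F) ^ 6 * (C • W).a₆ = _
    rw [variableChange_a₆, hinv]
    field_simp

variable [DecidableEq F]

/-- The isomorphism of point groups induced by an admissible change of variables:
a point `(x, y)` of `C • W` is sent to `(u² x + r, u³ y + u² s x + t)` on `W`. -/
noncomputable def pointVC (W : WeierstrassCurve F) (C : VariableChange F) :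
    (C • W).toAffine.Point ≃+ W.toAffine.Point :=
  (vcRel_smul W C).pointEquiv

theorem pointVC_zero (W : WeierstrassCurve F) (C : VariableChange F) : pointVC W C 0 = 0 := rfl

theorem pointVC_some (W : WeierstrassCurve F) (C : VariableChange F) {x y : F}
    (h : (C • W).toAffine.Nonsingular x y) :
    ∃ h' : W.toAffine.Nonsingular ((C.u : F) ^ 2 * x + C.r)
        ((C.u : F) ^ 3 * y + (C.u : F) ^ 2 * C.s * x + C.t),
      pointVC W C (Affine.Point.some x y h) = Affine.Point.some _ _ h' :=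
  ⟨_, rfl⟩

theorem pointVC_symm_zero (W : WeierstrassCurve F) (C : VariableChange F) :
    (pointVC W C).symm 0 = 0 := rfl

theorem pointVC_symm_some (W : WeierstrassCurve F) (C : VariableChange F) {X Y : F}
    (h : W.toAffine.Nonsingular X Y) :
    ∃ h' : (C • W).toAffine.Nonsingular ((X - C.r) / (C.u : F) ^ 2)
        ((Y - C.s * (X - C.r) - C.t) / (C.u : F) ^ 3),
      (pointVC W C).symm (Affine.Point.some X Y h) = Affine.Point.some _ _ h' :=
  ⟨_, rfl⟩

end vcMathlib

end Fermat.Agent.S05Lib
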